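import Fermat.Agent.H18.ORD.NodalValue

/-!
# P-ORD : the lifting interface of a nodal reduction (helper18)

Second structure on top of `NodalRvHyp` / `NodalGalHyp` (asked for by helper72, block (G-B) =
`add_approx` on the two-component fibre):

* `IsGlued G x y` : the pair `(x, y) ∈ F_∞ × F_0` is regular at every node, with the same value
  on both branches (a section of the structure sheaf of `X_s` near the nodes);
* `NodalLift G` :
  - **(PT)** `pt_oo`, `pt_zero` : every smooth point of the special fibre is the specialisation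
    of an inertia-fixed place;
  - **(LIFT)** `lift` : for inertia-fixed places `P_∞`, `P_0` specialising to smooth points
    `Q_∞ ∈ C_∞`, `Q_0 ∈ C_0` and `n` large, every GLUED pair in
    `L(C_∞, n Q_∞) × L(C_0, n Q_0)` is the reduction of an inertia-fixed element of
    `V_∞ ∩ V_0 ∩ L(n P_∞ + n P_0)`  (twin of `Fermat.Agent.H72.FF.UnrLiftingStatement`; it
    contains the equality `p_a(X_s) = g(X₀(N))`).

The value lemma (V) is a theorem: `CompHyp.value_lemma` applied to `NodalRvHyp.compOo`,
`NodalRvHyp.compZero` (`Fermat.Agent.H18.ORD.NodalValue`); the Galois compatibility (GAL) is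
`NodalGalHyp` (`Fermat.Agent.H18.ORD.NodalDefs`).
-/

set_option autoImplicit false

noncomputable section

open AlgebraicCurve ModularCurve

namespace Fermat.Agent.H18.ORD

open Fermat.Agent.H72.FF

variable {N : ℕ} {A : ValuationSubring Qb} {Foo F0 : Type} [Field Foo] [Field F0]
  [Algebra (kRes A) Foo] [Algebra (kRes A) F0] {ι : Type}

/-- The pair `(x, y)` is regular at every node and takes the same value on both branches. -/
def IsGlued (G : NodalData N A Foo F0 ι) (x : Foo) (y : F0) : Prop :=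
  ∀ ν : ι, ∃ κ : kRes A,
    x - algebraMap (kRes A) Foo κ ∈ (G.nOo ν).toValuationSubring.nonunits ∧
    y - algebraMap (kRes A) F0 κ ∈ (G.n0 ν).toValuationSubring.nonunits

/-- **The lifting hypotheses of a nodal reduction.** -/
structure NodalLift (G : NodalData N A Foo F0 ι) : Prop where
  /-- (PT) on `C_∞` -/
  pt_oo : ∀ Q : Place (kRes A) Foo, Q ∉ Set.range G.nOo →
    ∃ P : Place Qb (FLb N), G.r P = NPt.oo Q ∧ IsUnrPlace A N P
  /-- (PT) on `C_0` -/
  pt_zero : ∀ Q : Place (kRes A) F0, Q ∉ Set.range G.n0 →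
    ∃ P : Place Qb (FLb N), G.r P = NPt.zero Q ∧ IsUnrPlace A N P
  /-- (LIFT) inertia-fixed lifting of glued sections -/
  lift : ∀ (Poo P0 : Place Qb (FLb N)) (Qoo : Place (kRes A) Foo) (Q0 : Place (kRes A) F0),
    G.r Poo = NPt.oo Qoo → G.r P0 = NPt.zero Q0 → IsUnrPlace A N Poo → IsUnrPlace A N P0 →
    ∃ n₀ : ℕ, ∀ n : ℕ, n₀ ≤ n →
      ∀ x ∈ riemannRochSpace (Finsupp.single Qoo (n : ℤ)),
      ∀ y ∈ riemannRochSpace (Finsupp.single Q0 (n : ℤ)), IsGlued G x y →
        ∃ (u : FLb N) (h : u ∈ G.Voo) (h0 : u ∈ G.V0), IsUnrFn A N u ∧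
          u ∈ riemannRochSpace (Finsupp.single Poo (n : ℤ) + Finsupp.single P0 (n : ℤ)) ∧
          G.redOo ⟨u, h⟩ = x ∧ G.red0 ⟨u, h0⟩ = y

end Fermat.Agent.H18.ORD
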