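import Mathlib

/-!
# P-ORD : elementary facts on valuation subrings used by the nodal reduction lemmas (helper18)

Mathlib only.  `A` a valuation subring of a field `K`, `π ∈ 𝔪_A`, `π ≠ 0`:
slope bookkeeping `π ^ a * c ∈ A` with `a : ℤ`.
-/

set_option autoImplicit false

namespace Fermat.Agent.H18.ORD

variable {K : Type*} [Field K] (A : ValuationSubring K)

/-- `x ^ m ∈ A`, `m > 0` implies `x ∈ A`. -/
theorem na_mem_of_pow_mem {x : K} {m : ℕ} (hm : 0 < m) (h : x ^ m ∈ A) : x ∈ A := by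
  by_contra hx
  have h1 : 1 < A.valuation x := by
    rw [← not_le, A.valuation_le_one_iff]
    exact hx
  have h2 : 1 < A.valuation (x ^ m) := by
    rw [map_pow]
    exact one_lt_pow₀ h1 (Nat.pos_iff_ne_zero.mp hm)
  have h3 : A.valuation (x ^ m) ≤ 1 := (A.valuation_le_one_iff _).mpr h
  exact absurd h3 (not_le.mpr h2)

/-- `x ^ m ∈ 𝔪_A`, `m > 0` implies `x ∈ 𝔪_A`. -/
theorem na_mem_nonunits_of_pow_mem {x : K} {m : ℕ} (h : x ^ m ∈ A.nonunits) :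
    x ∈ A.nonunits := by
  rw [A.mem_nonunits_iff] at h ⊢
  rw [map_pow] at h
  by_contra hx
  have h1 : 1 ≤ A.valuation x := not_lt.mp hx
  have h2 : 1 ≤ A.valuation x ^ m := one_le_pow₀ h1
  exact absurd h (not_lt.mpr h2)

/-- a unit to a power is a unit -/
theorem na_pow_unit {c : K} (hc : c ∈ A) (hci : c⁻¹ ∈ A) (m : ℕ) :
    c ^ m ∈ A ∧ (c ^ m)⁻¹ ∈ A := by
  refine ⟨pow_mem hc m, ?_⟩
  rw [← inv_pow]
  exact pow_mem hci m

variable {A}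

/-- `π ^ a * c ∈ A` with `c ∉ A` forces `a ≥ 1`. -/
theorem na_one_le_of_not_mem {π c : K} (hπ : π ∈ A) (hπ0 : π ≠ 0) {a : ℤ}
    (hc : c ∉ A) (h : π ^ a * c ∈ A) : 1 ≤ a := by
  by_contra ha
  have ha' : a ≤ 0 := by omega
  obtain ⟨k, hk⟩ : ∃ k : ℕ, a = -(k : ℤ) := ⟨(-a).toNat, by omega⟩
  apply hc
  have h1 : c = π ^ k * (π ^ a * c) := by
    rw [hk, zpow_neg, zpow_natCast]
    field_simp
  rw [h1]
  exact A.mul_mem _ _ (pow_mem hπ k) h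

/-- `π ^ b * c⁻¹ ∈ A` with `c ∈ 𝔪_A`, `c ≠ 0` forces `b ≥ 1`. -/
theorem na_one_le_of_mem_nonunits {π c : K} (hπ : π ∈ A) (hπ0 : π ≠ 0) {b : ℤ}
    (hc : c ∈ A.nonunits) (hc0 : c ≠ 0) (h : π ^ b * c⁻¹ ∈ A) : 1 ≤ b := by
  refine na_one_le_of_not_mem hπ hπ0 ?_ h
  rcases A.mem_nonunits_iff_or.mp hc with h0 | h0
  · exact absurd h0 hc0
  · exact h0

/-- `π ^ a * c ∈ A` with `c` a unit of `A` and `π ∈ 𝔪_A` forces `a ≥ 0`. -/
theorem na_nonneg_of_unit {π c : K} (hπ : π ∈ A.nonunits) (hπ0 : π ≠ 0) {a : ℤ}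
    (hc0 : c ≠ 0) (hci : c⁻¹ ∈ A) (h : π ^ a * c ∈ A) : 0 ≤ a := by
  by_contra ha
  obtain ⟨k, hk⟩ : ∃ k : ℕ, a = -((k : ℤ) + 1) := ⟨(-a - 1).toNat, by omega⟩
  have h1 : (π ^ (k + 1))⁻¹ = π ^ a * c * c⁻¹ := by
    rw [hk, zpow_neg]
    have : π ^ ((k : ℤ) + 1) = π ^ (k + 1) := by
      rw [← zpow_natCast]
      push_cast
      rfl
    rw [this]
    field_simp
  have h2 : (π ^ (k + 1))⁻¹ ∈ A := by
    rw [h1]
    exact A.mul_mem _ _ h hci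
  have h3 : π ^ (k + 1) ∈ A.nonunits := by
    rw [A.mem_nonunits_iff] at hπ ⊢
    rw [map_pow]
    exact pow_lt_one₀ zero_le hπ (Nat.succ_ne_zero k)
  rcases A.mem_nonunits_iff_or.mp h3 with h0 | h0
  · exact pow_ne_zero _ hπ0 h0
  · exact h0 h2

/-- a unit of `A` is not in `𝔪_A` -/
theorem na_unit_not_mem_nonunits {c : K} (hc0 : c ≠ 0) (hci : c⁻¹ ∈ A) : c ∉ A.nonunits := by
  intro h
  rcases A.mem_nonunits_iff_or.mp h with h0 | h0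
  · exact hc0 h0
  · exact h0 hci

end Fermat.Agent.H18.ORD
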