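import Fermat.Agent.H18.ORD.NodalDefs
import Fermat.Agent.H18.ORD.NodalAux
import Fermat.Agent.H23.PlaceBasic

/-!
# P-ORD : the key lemma BAL against the abstract nodal interface (helper18)

`NodalBase G Boo B0` : reduced base divisors `Ō_∞` on `C_∞`, `Ō_0` on `C_0` (effective, away from
the nodes) with
* (NS1) `L(C_0, Ō_0) = k`,
* (NS2) `L(C_∞, Ō_∞ - ∑ nodes) = 0`.

`NodalRvHyp.bal` (**BAL**, net Kummer form, findings #517, #519, #524): let
`φ = f ^ (p ^ n) * g` with `g ≡ 1` at both Gauss valuations (`n = 0`, `g = 1` is the plain case),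
without pole specialising to a node, and with net pole divisor `≥ - p ^ n * Ō` on the smooth
discs.  Then `f` is balanced (`c f` is a unit at both valuations for one constant `c`), the two
reductions of `c f` are the same nonzero constant, `φ` has neither zero nor pole specialising to
a node and its divisor has degree `0` on every smooth disc.
-/

set_option autoImplicit false
set_option linter.unusedSectionVars false
set_option maxHeartbeats 1600000

noncomputable section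

open AlgebraicCurve ModularCurve

namespace Fermat.Agent.H18.ORD

open Fermat.Agent.H72.FF

variable {N : ℕ} {A : ValuationSubring Qb} {Foo F0 : Type} [Field Foo] [Field F0]
  [Algebra (kRes A) Foo] [Algebra (kRes A) F0] {ι : Type}

/-- Base divisors on the special fibre with the non-speciality conditions (NS1), (NS2). -/
structure NodalBase (G : NodalData N A Foo F0 ι) (Boo : Divisor (kRes A) Foo)
    (B0 : Divisor (kRes A) F0) : Prop where
  /-- `Ō_∞ ≥ 0` -/
  nonneg_oo : ∀ Q, 0 ≤ Boo Q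
  /-- `Ō_0 ≥ 0` -/
  nonneg_zero : ∀ Q, 0 ≤ B0 Q
  /-- `Ō_∞` avoids the nodes -/
  node_oo : ∀ ν, Boo (G.nOo ν) = 0
  /-- `Ō_0` avoids the nodes -/
  node_zero : ∀ ν, B0 (G.n0 ν) = 0
  /-- (NS1) `L(C_0, Ō_0) = k` -/
  ns1 : ∀ x ∈ riemannRochSpace B0, ∃ κ : kRes A, x = algebraMap (kRes A) F0 κ
  /-- (NS2) `L(C_∞, Ō_∞ - ∑ nodes) = 0` -/
  ns2 : ∀ x ∈ riemannRochSpace Boo, (∀ ν, x = 0 ∨ 1 ≤ (G.nOo ν).ord x) → x = 0

section basics

variable {K F : Type*} [Field K] [Field F] [Algebra K F]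

/-- `ord` of a natural power -/
theorem nb_ord_pow (v : Place K F) (x : F) (m : ℕ) : v.ord (x ^ m) = (m : ℤ) * v.ord x := by
  rw [← zpow_natCast, v.ord_zpow]

/-- `ord` of `constant * function` -/
theorem nb_ord_const_mul (v : Place K F) {c : K} (hc : c ≠ 0) (x : F) :
    v.ord (algebraMap K F c * x) = v.ord x := by
  rcases eq_or_ne x 0 with rfl | hx
  · rw [mul_zero]
  · have hc' : algebraMap K F c ≠ 0 := by
      rw [Ne, map_eq_zero_iff _ (algebraMap K F).injective]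
      exact hc
    rw [v.ord_mul hc' hx, Fermat.Agent.H23.ord_algebraMap, zero_add]

/-- a constant in the maximal ideal of a place is zero -/
theorem nb_const_eq_zero_of_mem_nonunits (v : Place K F) {κ : K}
    (h : algebraMap K F κ ∈ v.toValuationSubring.nonunits) : κ = 0 := by
  by_contra hκ
  have h1 : (algebraMap K F κ)⁻¹ ∈ v.toValuationSubring := by
    rw [← map_inv₀]
    exact v.algebraMap_mem' _
  rcases v.toValuationSubring.mem_nonunits_iff_or.mp h with h0 | h0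
  · rw [map_eq_zero_iff _ (algebraMap K F).injective] at h0
    exact hκ h0
  · exact h0 h1

/-- membership in the maximal ideal of a place through `ord` -/
theorem nb_mem_nonunits_iff (v : Place K F) (x : F) :
    x ∈ v.toValuationSubring.nonunits ↔ x = 0 ∨ 1 ≤ v.ord x := by
  constructor
  · intro h
    have hx : x ∈ v.toValuationSubring := v.toValuationSubring.nonunits_subset h
    have h1 : (⟨x, hx⟩ : v.toValuationSubring) ∈
        IsLocalRing.maximalIdeal v.toValuationSubring := by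
      rw [IsLocalRing.mem_maximalIdeal]
      exact (v.toValuationSubring.coe_mem_nonunits_iff).mp h
    rcases (Fermat.Agent.H23.mem_maximalIdeal_iff_ord v _).mp h1 with h0 | h0
    · exact Or.inl h0
    · refine Or.inr ?_
      have h2 : 0 < v.ord x := h0
      omega
  · intro h
    have hx : x ∈ v.toValuationSubring := by
      rw [Fermat.Agent.H23.mem_iff_ord]
      rcases h with h | h
      · exact Or.inl h
      · exact Or.inr (by omega)
    have h1 : (⟨x, hx⟩ : v.toValuationSubring) ∈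
        IsLocalRing.maximalIdeal v.toValuationSubring := by
      rw [Fermat.Agent.H23.mem_maximalIdeal_iff_ord]
      rcases h with h | h
      · exact Or.inl h
      · refine Or.inr ?_
        show 0 < v.ord x
        omega
    rw [IsLocalRing.mem_maximalIdeal] at h1
    exact (v.toValuationSubring.coe_mem_nonunits_iff).mpr h1

end basics


section bal

variable {p : ℕ} {G : NodalData N A Foo F0 ι}

/-- the residue field has characteristic `p` -/
theorem nb_charP (hp : p.Prime) (hA : A.LiesOverPrime p) (E : Type) [Field E]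
    [Algebra (kRes A) E] : CharP E p := by
  rw [CharP.charP_iff_prime_eq_zero hp]
  have h1 : ((p : ℕ) : kRes A) = 0 := by
    have hpA : (p : Qb) ∈ A := A.nonunits_subset hA
    have h2 : IsLocalRing.residue A (⟨(p : Qb), hpA⟩ : A) = 0 := by
      rw [IsLocalRing.residue_eq_zero_iff, ← A.coe_mem_nonunits_iff]
      exact hA
    have h3 : (⟨(p : Qb), hpA⟩ : A) = ((p : ℕ) : A) := Subtype.ext (by push_cast; rfl)
    rw [h3, map_natCast] at h2
    exact h2
  have h4 : ((p : ℕ) : E) = algebraMap (kRes A) E ((p : ℕ) : kRes A) := by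
    rw [map_natCast]
  rw [h4, h1, map_zero]

/-- **BAL** (net Kummer form). -/
theorem NodalRvHyp.bal (H : NodalRvHyp p G) (hp : p.Prime) (hA : A.LiesOverPrime p)
    [Nonempty ι] {Boo : Divisor (kRes A) Foo} {B0 : Divisor (kRes A) F0}
    (hB : NodalBase G Boo B0) (n : ℕ) (f g : FLb N) (hf : f ≠ 0)
    (hgoo : ∃ h : g ∈ G.Voo, G.redOo ⟨g, h⟩ = 1) (hg0 : ∃ h : g ∈ G.V0, G.red0 ⟨g, h⟩ = 1)
    (D : Divisor Qb (FLb N)) (hD : ∀ P, D P = P.ord (f ^ (p ^ n) * g))
    (hnode : ∀ P ν, G.r P = NPt.node ν → 0 ≤ D P)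
    (hoo : ∀ Q : Place (kRes A) Foo, Q ∉ Set.range G.nOo →
      -(((p ^ n : ℕ) : ℤ) * Boo Q) ≤ Finsupp.mapDomain G.r D (NPt.oo Q))
    (h0 : ∀ Q : Place (kRes A) F0, Q ∉ Set.range G.n0 →
      -(((p ^ n : ℕ) : ℤ) * B0 Q) ≤ Finsupp.mapDomain G.r D (NPt.zero Q)) :
    ∃ (c : Qb) (κ : kRes A) (h : algebraMap Qb (FLb N) c * f ∈ G.Voo)
      (h' : algebraMap Qb (FLb N) c * f ∈ G.V0), c ≠ 0 ∧ κ ≠ 0 ∧
      G.redOo ⟨_, h⟩ = algebraMap (kRes A) Foo κ ∧ G.red0 ⟨_, h'⟩ = algebraMap (kRes A) F0 κ ∧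
      (∀ P ν, G.r P = NPt.node ν → D P = 0) ∧
      (∀ Q, Q ∉ Set.range G.nOo → Finsupp.mapDomain G.r D (NPt.oo Q) = 0) ∧
      (∀ Q, Q ∉ Set.range G.n0 → Finsupp.mapDomain G.r D (NPt.zero Q) = 0) := by
  classical
  obtain ⟨hgV, hgred⟩ := hgoo
  obtain ⟨hgV0, hgred0⟩ := hg0
  set m : ℕ := p ^ n with hm
  have hmpos : 0 < m := pow_pos hp.pos n
  have hmZ : (0 : ℤ) < (m : ℤ) := by exact_mod_cast hmpos
  have hpQ : (p : Qb) ≠ 0 := by exact_mod_cast hp.ne_zero
  have hpA : (p : Qb) ∈ A := A.nonunits_subset hA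
  -- normalisations
  obtain ⟨c₁, u, hc₁, hu, hfu⟩ := H.norm_oo f hf
  have hu0 : (u : FLb N) ≠ 0 := by
    intro h
    apply hu
    have : u = 0 := Subtype.ext h
    rw [this, map_zero]
  obtain ⟨c₂, w, hc₂, hw, huw⟩ := H.norm_zero (u : FLb N) hu0
  have hw0 : (w : FLb N) ≠ 0 := by
    intro h
    apply hw
    have : w = 0 := Subtype.ext h
    rw [this, map_zero]
  set c : Qb := c₂⁻¹ with hc
  have hc0 : c ≠ 0 := inv_ne_zero hc₂
  have hc₂L : algebraMap Qb (FLb N) c₂ ≠ 0 := by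
    rw [Ne, map_eq_zero_iff _ (algebraMap Qb (FLb N)).injective]
    exact hc₂
  have hwu : (w : FLb N) = algebraMap Qb (FLb N) c * (u : FLb N) := by
    rw [huw, hc, map_inv₀]
    field_simp
  -- the functions `φ' = u ^ m * g`, `ψ' = w ^ m * g`
  set φ' : G.Voo := u ^ m * ⟨g, hgV⟩ with hφ'
  set ψ' : G.V0 := w ^ m * ⟨g, hgV0⟩ with hψ'
  have hredφ : G.redOo φ' = G.redOo u ^ m := by
    rw [hφ', map_mul, map_pow, hgred, mul_one]
  have hredψ : G.red0 ψ' = G.red0 w ^ m := by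
    rw [hψ', map_mul, map_pow, hgred0, mul_one]
  have hredφ0 : G.redOo φ' ≠ 0 := by
    rw [hredφ]
    exact pow_ne_zero _ hu
  have hredψ0 : G.red0 ψ' ≠ 0 := by
    rw [hredψ]
    exact pow_ne_zero _ hw
  have hφcoe : (φ' : FLb N) = (u : FLb N) ^ m * g := rfl
  have hψcoe : (ψ' : FLb N) = (w : FLb N) ^ m * g := rfl
  have hψφ : (ψ' : FLb N) = algebraMap Qb (FLb N) (c ^ m) * (φ' : FLb N) := by
    rw [hψcoe, hφcoe, hwu, map_pow]
    ring
  have hDφ : ∀ P, D P = P.ord (φ' : FLb N) := by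
    intro P
    rw [hD P, hφcoe, hfu, mul_pow, ← map_pow, mul_assoc,
      nb_ord_const_mul P (pow_ne_zero _ hc₁)]
  have hDψ : ∀ P, D P = P.ord (ψ' : FLb N) := by
    intro P
    rw [hDφ P, hψφ, nb_ord_const_mul P (pow_ne_zero _ hc0)]
  -- the reductions on the smooth points
  have hsm_oo : ∀ Q : Place (kRes A) Foo, Q ∉ Set.range G.nOo →
      Finsupp.mapDomain G.r D (NPt.oo Q) = (m : ℤ) * Q.ord (G.redOo u) := by
    intro Q hQ
    rw [H.smooth_oo φ' hredφ0 D hDφ Q hQ, hredφ, nb_ord_pow]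
  have hsm_zero : ∀ Q : Place (kRes A) F0, Q ∉ Set.range G.n0 →
      Finsupp.mapDomain G.r D (NPt.zero Q) = (m : ℤ) * Q.ord (G.red0 w) := by
    intro Q hQ
    rw [H.smooth_zero ψ' hredψ0 D hDψ Q hQ, hredψ, nb_ord_pow]
  have hge_oo : ∀ Q : Place (kRes A) Foo, Q ∉ Set.range G.nOo →
      -Boo Q ≤ Q.ord (G.redOo u) := by
    intro Q hQ
    have h1 := hoo Q hQ
    rw [hsm_oo Q hQ] at h1
    have h2 : (m : ℤ) * (-Boo Q) ≤ (m : ℤ) * Q.ord (G.redOo u) := by
      rw [mul_neg]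
      exact h1
    exact le_of_mul_le_mul_left h2 hmZ
  have hge_zero : ∀ Q : Place (kRes A) F0, Q ∉ Set.range G.n0 →
      -B0 Q ≤ Q.ord (G.red0 w) := by
    intro Q hQ
    have h1 := h0 Q hQ
    rw [hsm_zero Q hQ] at h1
    have h2 : (m : ℤ) * (-B0 Q) ≤ (m : ℤ) * Q.ord (G.red0 w) := by
      rw [mul_neg]
      exact h1
    exact le_of_mul_le_mul_left h2 hmZ
  -- slopes at the nodes
  have hnodeφ : ∀ ν : ι, ∀ P, G.r P = NPt.node ν → 0 ≤ P.ord (φ' : FLb N) := by
    intro ν P hP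
    rw [← hDφ P]
    exact hnode P ν hP
  have hslope : ∀ ν : ι,
      (p : Qb) ^ ((G.nOo ν).ord (G.redOo u)) * c ∈ A ∧
      (p : Qb) ^ ((G.n0 ν).ord (G.red0 w)) * c⁻¹ ∈ A := by
    intro ν
    obtain ⟨h1, h2⟩ := H.node_le φ' ψ' (c ^ m) hredφ0 hredψ0 hψφ ν (hnodeφ ν)
    rw [hredφ, nb_ord_pow] at h1
    rw [hredψ, nb_ord_pow] at h2
    constructor
    · refine na_mem_of_pow_mem A hmpos ?_
      rw [mul_pow, ← zpow_natCast, ← zpow_mul, mul_comm ((G.nOo ν).ord (G.redOo u))]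
      exact h1
    · refine na_mem_of_pow_mem A hmpos ?_
      rw [mul_pow, ← zpow_natCast, ← zpow_mul, mul_comm ((G.n0 ν).ord (G.red0 w)), inv_pow]
      exact h2
  -- case (i) : `w_0 > w_∞`
  by_cases hcA : c ∈ A
  swap
  · exfalso
    have ha : ∀ ν, 1 ≤ (G.nOo ν).ord (G.redOo u) := fun ν =>
      na_one_le_of_not_mem hpA hpQ hcA (hslope ν).1
    have hmem : G.redOo u ∈ riemannRochSpace Boo := by
      rw [mem_riemannRochSpace_iff]
      intro Q
      right
      by_cases hQ : Q ∈ Set.range G.nOo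
      · obtain ⟨ν, rfl⟩ := hQ
        rw [hB.node_oo ν]
        have := ha ν
        omega
      · exact hge_oo Q hQ
    exact hu (hB.ns2 _ hmem (fun ν => Or.inr (ha ν)))
  -- case (ii) : `w_0 < w_∞`
  by_cases hcn : c ∈ A.nonunits
  · exfalso
    have hb : ∀ ν, 1 ≤ (G.n0 ν).ord (G.red0 w) := fun ν =>
      na_one_le_of_mem_nonunits hpA hpQ hcn hc0 (hslope ν).2
    have hmem : G.red0 w ∈ riemannRochSpace B0 := by
      rw [mem_riemannRochSpace_iff]
      intro Q
      right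
      by_cases hQ : Q ∈ Set.range G.n0
      · obtain ⟨ν, rfl⟩ := hQ
        rw [hB.node_zero ν]
        have := hb ν
        omega
      · exact hge_zero Q hQ
    obtain ⟨κ, hκ⟩ := hB.ns1 _ hmem
    obtain ⟨ν⟩ := ‹Nonempty ι›
    have := hb ν
    rw [hκ, Fermat.Agent.H23.ord_algebraMap] at this
    omega
  -- case (iii) : balanced
  have hci : c⁻¹ ∈ A := by
    by_contra h
    exact hcn (A.mem_nonunits_iff_or.mpr (Or.inr h))
  have ha : ∀ ν, 0 ≤ (G.nOo ν).ord (G.redOo u) := fun ν =>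
    na_nonneg_of_unit hA hpQ hc0 hci (hslope ν).1
  have hb : ∀ ν, 0 ≤ (G.n0 ν).ord (G.red0 w) := fun ν =>
    na_nonneg_of_unit hA hpQ (inv_ne_zero hc0) (by rw [inv_inv]; exact hcA) (hslope ν).2
  have hmem0 : G.red0 w ∈ riemannRochSpace B0 := by
    rw [mem_riemannRochSpace_iff]
    intro Q
    right
    by_cases hQ : Q ∈ Set.range G.n0
    · obtain ⟨ν, rfl⟩ := hQ
      rw [hB.node_zero ν]
      have := hb ν
      omega
    · exact hge_zero Q hQ
  obtain ⟨κ₀, hκ₀⟩ := hB.ns1 _ hmem0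
  have hκ₀0 : κ₀ ≠ 0 := by
    rintro rfl
    rw [map_zero] at hκ₀
    exact hw hκ₀
  have hb0 : ∀ ν, (G.n0 ν).ord (G.red0 w) = 0 := by
    intro ν
    rw [hκ₀, Fermat.Agent.H23.ord_algebraMap]
  -- no zero specialises to a node
  have hnz : ∀ P ν, G.r P = NPt.node ν → D P = 0 := by
    intro P ν hP
    by_contra hne
    have hpos : 0 < P.ord (φ' : FLb N) := by
      have := hnode P ν hP
      rw [← hDφ P]
      omega
    obtain ⟨-, h2⟩ := H.node_lt φ' ψ' (c ^ m) hredφ0 hredψ0 hψφ ν (hnodeφ ν) ⟨P, hP, hpos⟩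
    rw [hredψ, nb_ord_pow, hb0 ν, mul_zero, zpow_zero, one_mul] at h2
    exact na_unit_not_mem_nonunits (inv_ne_zero (pow_ne_zero _ hc0))
      (by rw [inv_inv]; exact pow_mem hcA m) h2
  -- `u` is a unit of `V_0`
  have hcV0 : algebraMap Qb (FLb N) c⁻¹ ∈ G.V0 := (H.const_zero _).mpr hci
  have hu_eq : (u : FLb N) = algebraMap Qb (FLb N) c⁻¹ * (w : FLb N) := by
    rw [hwu, ← mul_assoc, ← map_mul, inv_mul_cancel₀ hc0, map_one, one_mul]
  have huV0 : (u : FLb N) ∈ G.V0 := by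
    rw [hu_eq]
    exact G.V0.mul_mem hcV0 w.2
  set κ : kRes A := IsLocalRing.residue A ⟨c⁻¹, hci⟩ * κ₀ with hκ
  have hred0u : G.red0 ⟨(u : FLb N), huV0⟩ = algebraMap (kRes A) F0 κ := by
    have h1 : (⟨(u : FLb N), huV0⟩ : G.V0) = ⟨algebraMap Qb (FLb N) c⁻¹, hcV0⟩ * w :=
      Subtype.ext hu_eq
    rw [h1, map_mul, H.red_const_zero ⟨c⁻¹, hci⟩ hcV0, hκ₀, hκ, map_mul]
  have hκ0 : κ ≠ 0 := by
    rw [hκ]
    refine mul_ne_zero ?_ hκ₀0
    intro h
    rw [IsLocalRing.residue_eq_zero_iff, ← A.coe_mem_nonunits_iff] at h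
    exact na_unit_not_mem_nonunits (inv_ne_zero hc0) (by rw [inv_inv]; exact hcA) h
  -- gluing
  have hφV0 : (φ' : FLb N) ∈ G.V0 := by
    rw [hφcoe]
    exact G.V0.mul_mem (pow_mem huV0 m) hgV0
  have hred0φ : G.red0 ⟨(φ' : FLb N), hφV0⟩ = algebraMap (kRes A) F0 (κ ^ m) := by
    have h1 : (⟨(φ' : FLb N), hφV0⟩ : G.V0) = ⟨(u : FLb N), huV0⟩ ^ m * ⟨g, hgV0⟩ :=
      Subtype.ext rfl
    rw [h1, map_mul, map_pow, hred0u, hgred0, mul_one, map_pow]
  have hκm0 : κ ^ m ≠ 0 := pow_ne_zero _ hκ0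
  have : Fact p.Prime := ⟨hp⟩
  have : CharP Foo p := nb_charP hp hA Foo
  have hvan : ∀ ν, G.redOo u - algebraMap (kRes A) Foo κ ∈
      (G.nOo ν).toValuationSubring.nonunits := by
    intro ν
    have hnp : ∀ P, G.r P = NPt.node ν → P.ord (φ' : FLb N) = 0 := by
      intro P hP
      rw [← hDφ P]
      exact hnz P ν hP
    have hr0 : G.red0 ⟨(φ' : FLb N), hφV0⟩ ≠ 0 := by
      rw [hred0φ, Ne, map_eq_zero_iff _ (algebraMap (kRes A) F0).injective]
      exact hκm0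
    obtain ⟨κν, -, h1, h2⟩ := H.glue (φ' : FLb N) φ'.2 hφV0 hredφ0 hr0 ν hnp
    rw [hred0φ, ← map_sub] at h2
    have h3 : κ ^ m - κν = 0 := nb_const_eq_zero_of_mem_nonunits _ h2
    have h4 : κν = κ ^ m := (sub_eq_zero.mp h3).symm
    have h5 : G.redOo φ' - algebraMap (kRes A) Foo κν
        = (G.redOo u - algebraMap (kRes A) Foo κ) ^ m := by
      rw [hredφ, h4, map_pow, hm, sub_pow_char_pow]
    have h6 : (G.redOo u - algebraMap (kRes A) Foo κ) ^ m ∈
        (G.nOo ν).toValuationSubring.nonunits := by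
      rw [← h5]
      exact h1
    exact na_mem_nonunits_of_pow_mem _ h6
  have hx : G.redOo u - algebraMap (kRes A) Foo κ = 0 := by
    refine hB.ns2 _ ?_ (fun ν => (nb_mem_nonunits_iff _ _).mp (hvan ν))
    rw [mem_riemannRochSpace_iff]
    intro Q
    by_cases hx0 : G.redOo u - algebraMap (kRes A) Foo κ = 0
    · exact Or.inl hx0
    right
    by_cases hQ : Q ∈ Set.range G.nOo
    · obtain ⟨ν, rfl⟩ := hQ
      rw [hB.node_oo ν]
      rcases (nb_mem_nonunits_iff _ _).mp (hvan ν) with h | h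
      · exact absurd h hx0
      · omega
    · have h1 : G.redOo u - algebraMap (kRes A) Foo κ
          = G.redOo u + -(algebraMap (kRes A) Foo κ) := sub_eq_add_neg _ _
      rw [h1]
      rw [h1] at hx0
      refine Fermat.Agent.H23.ord_add_ge Q hx0 _ (Or.inr (hge_oo Q hQ)) (Or.inr ?_)
      rw [Fermat.Agent.H23.ord_neg, Fermat.Agent.H23.ord_algebraMap]
      have := hB.nonneg_oo Q
      omega
  have hredu : G.redOo u = algebraMap (kRes A) Foo κ := sub_eq_zero.mp hx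
  -- conclusion
  have hcf : algebraMap Qb (FLb N) c₁⁻¹ * f = (u : FLb N) := by
    rw [hfu, ← mul_assoc, ← map_mul, inv_mul_cancel₀ hc₁, map_one, one_mul]
  have hV : algebraMap Qb (FLb N) c₁⁻¹ * f ∈ G.Voo := by
    rw [hcf]
    exact u.2
  have hV' : algebraMap Qb (FLb N) c₁⁻¹ * f ∈ G.V0 := by
    rw [hcf]
    exact huV0
  refine ⟨c₁⁻¹, κ, hV, hV', inv_ne_zero hc₁, hκ0, ?_, ?_, hnz, ?_, ?_⟩
  · have : (⟨algebraMap Qb (FLb N) c₁⁻¹ * f, hV⟩ : G.Voo) = u := Subtype.ext hcf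
    rw [this, hredu]
  · have : (⟨algebraMap Qb (FLb N) c₁⁻¹ * f, hV'⟩ : G.V0) = ⟨(u : FLb N), huV0⟩ :=
      Subtype.ext hcf
    rw [this, hred0u]
  · intro Q hQ
    rw [hsm_oo Q hQ, hredu, Fermat.Agent.H23.ord_algebraMap, mul_zero]
  · intro Q hQ
    rw [hsm_zero Q hQ, hκ₀, Fermat.Agent.H23.ord_algebraMap, mul_zero]

end bal

end Fermat.Agent.H18.ORD
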