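import Fermat.Agent.H72.FF.GeoBlocks

/-!
# P-ORD, block B1 : the abstract two-valuation ("nodal") reduction interface (helper18)

Setting (`N = p M`, `p ∤ M`, `A` a valuation subring of `ℚ̄` over `p`, `k` its residue field):
the special fibre `X_s` of the semistable model of `X₀(N)` has two components `C_∞`, `C_0`
(function fields `F_∞`, `F_0` over `k`) glued at the nodes `ν ∈ ι`; a node `ν` is the place
`n_∞ ν` of `F_∞` and the place `n_0 ν` of `F_0`.  `V_∞`, `V_0` are the two Gauss valuation rings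
of `F = ℚ̄(X₀(N))`, with reductions `red_∞ : V_∞ → F_∞`, `red_0 : V_0 → F_0`, and
`r : Place F → X_s` is the specialisation of points (`NPt.oo Q` : the smooth point `Q` of `C_∞`,
`NPt.zero Q` : the smooth point `Q` of `C_0`, `NPt.node ν`).

`NodalRvHyp p G` packages exactly the exports asked for in findings #517 (lead) and
#519 (helper94):

* normalisation `e = 1` (`norm_oo`, `norm_zero`), units (`inv_oo`, `inv_zero`), constants;
* **(M2)** `smooth_oo`, `smooth_zero` : conservation law at the smooth points, for a unit `u` of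
  `V_c` : `∑_{r P = Q} ord_P u = ord_Q (red_c u)`;
* **(M3)** `node_le`, `node_lt` : slope inequalities at a node.  For `u` a unit of `V_∞`,
  `w = c u` a unit of `V_0` (`c ∈ ℚ̄ˣ`, so `w_0(u) - w_∞(u) = - v(c)`), without pole
  specialising to `ν` : with `a = ord_ν (red_∞ u)`, `b = ord_ν (red_0 w)` :
  `p ^ a * c ∈ A` (`a ≥ w_0(u) - w_∞(u)`) and `p ^ b * c⁻¹ ∈ A`; both in `𝔪_A` if some zero of
  `u` specialises to `ν`;
* **(M4)** `glue` : a unit of both `V_∞` and `V_0` without zero or pole specialising to `ν` has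
  reductions regular at `ν` on both branches, with the same nonzero value;
* **(M5)** `lattice` : a non-constant `f` has a normalisation `α f + β` in the unit ball of the
  sup-norm whose reduction (a pair) is not a constant pair `(κ, κ)`.

`NodalGalHyp G` : compatibility with the Galois action (decomposition group / inertia group).
-/

set_option autoImplicit false

noncomputable section

open AlgebraicCurve ModularCurve

namespace Fermat.Agent.H18.ORD

open Fermat.Agent.H72.FF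

/-- Points of the special fibre `X_s = C_∞ ∪ C_0` : smooth points of `C_∞`, smooth points of
`C_0`, nodes. -/
inductive NPt (Poo P0 ι : Type) : Type
  | oo (Q : Poo) : NPt Poo P0 ι
  | zero (Q : P0) : NPt Poo P0 ι
  | node (ν : ι) : NPt Poo P0 ι

/-- The data of a nodal reduction of `F = ℚ̄(X₀(N))`. -/
structure NodalData (N : ℕ) (A : ValuationSubring Qb) (Foo F0 : Type) [Field Foo] [Field F0]
    [Algebra (kRes A) Foo] [Algebra (kRes A) F0] (ι : Type) where
  /-- the Gauss valuation ring at the cusp `∞` -/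
  Voo : Subring (FLb N)
  /-- the Gauss valuation ring at the cusp `0` -/
  V0 : Subring (FLb N)
  /-- reduction to the function field of `C_∞` -/
  redOo : Voo →+* Foo
  /-- reduction to the function field of `C_0` -/
  red0 : V0 →+* F0
  /-- the branch of the node on `C_∞` -/
  nOo : ι → Place (kRes A) Foo
  /-- the branch of the node on `C_0` -/
  n0 : ι → Place (kRes A) F0
  /-- specialisation of points -/
  r : Place Qb (FLb N) → NPt (Place (kRes A) Foo) (Place (kRes A) F0) ι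

variable {N : ℕ} {A : ValuationSubring Qb} {Foo F0 : Type} [Field Foo] [Field F0]
  [Algebra (kRes A) Foo] [Algebra (kRes A) F0] {ι : Type}

/-- **The nodal reduction hypotheses** (exports of block B1). -/
structure NodalRvHyp (p : ℕ) (G : NodalData N A Foo F0 ι) : Prop where
  /-- `V_∞ ∩ ℚ̄ = A` -/
  const_oo : ∀ c : Qb, algebraMap Qb (FLb N) c ∈ G.Voo ↔ c ∈ A
  /-- `V_0 ∩ ℚ̄ = A` -/
  const_zero : ∀ c : Qb, algebraMap Qb (FLb N) c ∈ G.V0 ↔ c ∈ A
  /-- the reduction of a constant -/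
  red_const_oo : ∀ (c : A) (h : algebraMap Qb (FLb N) (c : Qb) ∈ G.Voo),
    G.redOo ⟨_, h⟩ = algebraMap (kRes A) Foo (IsLocalRing.residue A c)
  /-- the reduction of a constant -/
  red_const_zero : ∀ (c : A) (h : algebraMap Qb (FLb N) (c : Qb) ∈ G.V0),
    G.red0 ⟨_, h⟩ = algebraMap (kRes A) F0 (IsLocalRing.residue A c)
  /-- normalisation (`e = 1`) at `V_∞` -/
  norm_oo : ∀ φ : FLb N, φ ≠ 0 → ∃ (c : Qb) (u : G.Voo), c ≠ 0 ∧ G.redOo u ≠ 0 ∧
    φ = algebraMap Qb (FLb N) c * (u : FLb N)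
  /-- normalisation (`e = 1`) at `V_0` -/
  norm_zero : ∀ φ : FLb N, φ ≠ 0 → ∃ (c : Qb) (u : G.V0), c ≠ 0 ∧ G.red0 u ≠ 0 ∧
    φ = algebraMap Qb (FLb N) c * (u : FLb N)
  /-- elements with nonzero reduction are units of `V_∞` -/
  inv_oo : ∀ u : G.Voo, G.redOo u ≠ 0 → (u : FLb N)⁻¹ ∈ G.Voo
  /-- elements with nonzero reduction are units of `V_0` -/
  inv_zero : ∀ u : G.V0, G.red0 u ≠ 0 → (u : FLb N)⁻¹ ∈ G.V0
  /-- the reduction `V_∞ → F_∞` is onto -/
  surj_oo : Function.Surjective G.redOo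
  /-- the reduction `V_0 → F_0` is onto -/
  surj_zero : Function.Surjective G.red0
  /-- the two valuation rings are different -/
  ne : G.Voo ≠ G.V0
  /-- distinct nodes have distinct branches on `C_∞` -/
  nOo_inj : Function.Injective G.nOo
  /-- distinct nodes have distinct branches on `C_0` -/
  n0_inj : Function.Injective G.n0
  /-- `NPt.oo Q` is only used for smooth points -/
  r_oo : ∀ P Q, G.r P = NPt.oo Q → Q ∉ Set.range G.nOo
  /-- `NPt.zero Q` is only used for smooth points -/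
  r_zero : ∀ P Q, G.r P = NPt.zero Q → Q ∉ Set.range G.n0
  /-- **(M2)** conservation law at the smooth points of `C_∞` -/
  smooth_oo : ∀ u : G.Voo, G.redOo u ≠ 0 → ∀ D : Divisor Qb (FLb N),
    (∀ P, D P = P.ord (u : FLb N)) → ∀ Q : Place (kRes A) Foo, Q ∉ Set.range G.nOo →
      Finsupp.mapDomain G.r D (NPt.oo Q) = Q.ord (G.redOo u)
  /-- **(M2)** conservation law at the smooth points of `C_0` -/
  smooth_zero : ∀ w : G.V0, G.red0 w ≠ 0 → ∀ D : Divisor Qb (FLb N),
    (∀ P, D P = P.ord (w : FLb N)) → ∀ Q : Place (kRes A) F0, Q ∉ Set.range G.n0 →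
      Finsupp.mapDomain G.r D (NPt.zero Q) = Q.ord (G.red0 w)
  /-- **(M3)** slope inequalities at a node -/
  node_le : ∀ (u : G.Voo) (w : G.V0) (c : Qb), G.redOo u ≠ 0 → G.red0 w ≠ 0 →
    (w : FLb N) = algebraMap Qb (FLb N) c * (u : FLb N) →
    ∀ ν : ι, (∀ P, G.r P = NPt.node ν → 0 ≤ P.ord (u : FLb N)) →
      (p : Qb) ^ ((G.nOo ν).ord (G.redOo u)) * c ∈ A ∧
      (p : Qb) ^ ((G.n0 ν).ord (G.red0 w)) * c⁻¹ ∈ A
  /-- **(M3)** strict slope inequalities at a node carrying a zero -/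
  node_lt : ∀ (u : G.Voo) (w : G.V0) (c : Qb), G.redOo u ≠ 0 → G.red0 w ≠ 0 →
    (w : FLb N) = algebraMap Qb (FLb N) c * (u : FLb N) →
    ∀ ν : ι, (∀ P, G.r P = NPt.node ν → 0 ≤ P.ord (u : FLb N)) →
      (∃ P, G.r P = NPt.node ν ∧ 0 < P.ord (u : FLb N)) →
      (p : Qb) ^ ((G.nOo ν).ord (G.redOo u)) * c ∈ A.nonunits ∧
      (p : Qb) ^ ((G.n0 ν).ord (G.red0 w)) * c⁻¹ ∈ A.nonunits
  /-- **(M4)** gluing at a node -/
  glue : ∀ (u : FLb N) (hu : u ∈ G.Voo) (hu0 : u ∈ G.V0),
    G.redOo ⟨u, hu⟩ ≠ 0 → G.red0 ⟨u, hu0⟩ ≠ 0 →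
    ∀ ν : ι, (∀ P, G.r P = NPt.node ν → P.ord u = 0) →
      ∃ κ : kRes A, κ ≠ 0 ∧
        G.redOo ⟨u, hu⟩ - algebraMap (kRes A) Foo κ ∈ (G.nOo ν).toValuationSubring.nonunits ∧
        G.red0 ⟨u, hu0⟩ - algebraMap (kRes A) F0 κ ∈ (G.n0 ν).toValuationSubring.nonunits
  /-- **(M5)** sup-norm lattice property in dimension two -/
  lattice : ∀ f : FLb N, (∀ c : Qb, f ≠ algebraMap Qb (FLb N) c) →
    ∃ (α β : Qb) (h : algebraMap Qb (FLb N) α * f + algebraMap Qb (FLb N) β ∈ G.Voo)
      (h0 : algebraMap Qb (FLb N) α * f + algebraMap Qb (FLb N) β ∈ G.V0), α ≠ 0 ∧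
      ¬ ∃ κ : kRes A, G.redOo ⟨_, h⟩ = algebraMap (kRes A) Foo κ ∧
        G.red0 ⟨_, h0⟩ = algebraMap (kRes A) F0 κ

/-- **Galois compatibility of a nodal reduction.** -/
structure NodalGalHyp (G : NodalData N A Foo F0 ι) : Prop where
  /-- the decomposition group preserves `V_∞` -/
  dec_oo : ∀ σ ∈ A.decompositionSubgroup ℚ, ∀ u ∈ G.Voo, galF N σ • u ∈ G.Voo
  /-- the decomposition group preserves `V_0` -/
  dec_zero : ∀ σ ∈ A.decompositionSubgroup ℚ, ∀ u ∈ G.V0, galF N σ • u ∈ G.V0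
  /-- the inertia group acts trivially on the residue field of `V_∞` -/
  inertia_oo : ∀ σ ∈ A.inertiaSubgroupIn ℚ, ∀ (u : G.Voo)
    (h : galF N σ • (u : FLb N) ∈ G.Voo), G.redOo ⟨_, h⟩ = G.redOo u
  /-- the inertia group acts trivially on the residue field of `V_0` -/
  inertia_zero : ∀ σ ∈ A.inertiaSubgroupIn ℚ, ∀ (w : G.V0)
    (h : galF N σ • (w : FLb N) ∈ G.V0), G.red0 ⟨_, h⟩ = G.red0 w
  /-- the inertia group preserves the specialisation of points -/
  inertia_r : ∀ σ ∈ A.inertiaSubgroupIn ℚ, ∀ P, G.r (galF N σ • P) = G.r P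
  /-- the decomposition group permutes the fibres of the specialisation -/
  dec_r : ∀ σ ∈ A.decompositionSubgroup ℚ, ∀ P P',
    G.r P = G.r P' → G.r (galF N σ • P) = G.r (galF N σ • P')

end Fermat.Agent.H18.ORD
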