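import Mathlib

/-!
# P-ORD : the HOPF LEMMA (helper18)

Mathlib only.  `R` a discrete valuation ring in which the odd prime `p` is a uniformiser
(unramified base), `G` a finite abelian `p`-group, `H ⊆ Maps(G, R)` an `R`-subalgebra which
separates the points of `G` and is closed under comultiplication
(`h (x + y) = ∑ i, a i x * b i y` with `a i, b i ∈ H`).  Then `H` is ALL of `Maps(G, R)`:
the only Hopf order in `Maps(G, K)` is the maximal order (a finite flat group scheme over `R`
with constant generic fibre is constant; Raynaud for `e = 1 < p - 1`).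

Elementary proof.  `S := {x | ∀ h ∈ H, p ∣ h x - h 0}` is a subgroup of `G`.
* `S = 0`: for `x ≠ y` some `f ∈ H` has `f x - f y` a unit, so the indicator functions
  `∏_{y ≠ x} (f_xy - f_xy y) / (f_xy x - f_xy y)` lie in `H`.
* `S ≠ 0`: take `x ∈ S` of order `p` and `Δ = T_x - 1` (`T_x h = h (· + x)`).  By
  comultiplication `Δ H ⊆ p H`; from `(1 + Δ) ^ p = 1`, i.e.
  `p Δ = - ∑_{2 ≤ j < p} (p choose j) Δ ^ j - Δ ^ p`, one gets `Δ H ⊆ p ^ n H ⟹ Δ H ⊆ p ^ (n+1) H`
  (this is where `p ≥ 3` enters), hence `Δ = 0` on `H`, contradicting separation.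
-/

set_option autoImplicit false
set_option linter.unusedSectionVars false

namespace Fermat.Agent.H18.ORD

open Finset

variable {R : Type*} [CommRing R] {G : Type*} [AddCommGroup G]

/-- `H` is closed under comultiplication. -/
def ComulClosed (H : Subalgebra R (G → R)) : Prop :=
  ∀ h ∈ H, ∃ (n : ℕ) (a b : Fin n → G → R), (∀ i, a i ∈ H) ∧ (∀ i, b i ∈ H) ∧
    ∀ x y : G, h (x + y) = ∑ i, a i x * b i y

/-- `H` separates the points of `G`. -/
def SeparatesPts (H : Subalgebra R (G → R)) : Prop :=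
  ∀ x y : G, x ≠ y → ∃ h ∈ H, h x ≠ h y

/-- The translation operator `T_x h = h (· + x)`. -/
def hlT (R : Type*) [CommRing R] {G : Type*} [AddCommGroup G] (x : G) :
    (G → R) →ₗ[R] (G → R) :=
  LinearMap.funLeft R R (fun u => u + x)

@[simp] theorem hlT_apply (x : G) (h : G → R) (u : G) : hlT R x h u = h (u + x) := rfl

theorem hlT_pow (x : G) (k : ℕ) (h : G → R) (u : G) :
    ((hlT R x) ^ k) h u = h (u + k • x) := by
  induction k generalizing h u with
  | zero => simp
  | succ k ih =>
    rw [pow_succ, Module.End.mul_apply, ih, hlT_apply, succ_nsmul]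
    congr 1
    abel

/-- Translates of elements of `H` stay in `H`. -/
theorem hlT_mem {H : Subalgebra R (G → R)} (hc : ComulClosed H) (x : G) {h : G → R}
    (hh : h ∈ H) : hlT R x h ∈ H := by
  obtain ⟨n, a, b, ha, hb, hab⟩ := hc h hh
  have : hlT R x h = ∑ i, b i x • a i := by
    funext u
    rw [hlT_apply, hab u x, Finset.sum_apply]
    refine Finset.sum_congr rfl (fun i _ => ?_)
    rw [Pi.smul_apply, smul_eq_mul, mul_comm]
  rw [this]
  exact H.sum_mem (fun i _ => H.smul_mem (ha i) _)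

/-- If all elements of `H` take congruent values at `x` and `0` modulo `π`, then
`(T_x - 1) H ⊆ π H`. -/
theorem hlT_sub_mem {H : Subalgebra R (G → R)} (hc : ComulClosed H) (π : R) (x : G)
    (hx : ∀ h ∈ H, π ∣ h x - h 0) {h : G → R} (hh : h ∈ H) :
    ∃ h' ∈ H, hlT R x h - h = π • h' := by
  obtain ⟨n, a, b, ha, hb, hab⟩ := hc h hh
  have hr : ∀ i, ∃ r : R, b i x - b i 0 = π * r := fun i => hx (b i) (hb i)
  choose r hr using hr
  refine ⟨∑ i, r i • a i, H.sum_mem (fun i _ => H.smul_mem (ha i) _), ?_⟩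
  funext u
  have h1 : h (u + x) = ∑ i, a i u * b i x := hab u x
  have h2 : h u = ∑ i, a i u * b i 0 := by
    have := hab u 0
    rwa [add_zero] at this
  rw [Pi.sub_apply, hlT_apply, h1, h2, ← Finset.sum_sub_distrib, Pi.smul_apply,
    Finset.sum_apply, smul_eq_mul, Finset.mul_sum]
  refine Finset.sum_congr rfl (fun i _ => ?_)
  rw [Pi.smul_apply, smul_eq_mul, ← mul_sub, hr i]
  ring

/-- `f ∈ π ^ m H`. -/
def InPow (H : Subalgebra R (G → R)) (π : R) (m : ℕ) (f : G → R) : Prop :=
  ∃ h' ∈ H, f = π ^ m • h'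

namespace InPow

variable {H : Subalgebra R (G → R)} {π : R} {m m' : ℕ} {f f' : G → R}

theorem of_mem (hf : f ∈ H) : InPow H π 0 f := ⟨f, hf, by simp⟩

theorem mono (h : InPow H π m f) (hm : m' ≤ m) : InPow H π m' f := by
  obtain ⟨h', hh', rfl⟩ := h
  obtain ⟨k, rfl⟩ := Nat.exists_eq_add_of_le hm
  exact ⟨π ^ k • h', H.smul_mem hh' _, by rw [pow_add, mul_smul]⟩

theorem add (h : InPow H π m f) (h' : InPow H π m f') : InPow H π m (f + f') := by
  obtain ⟨a, ha, rfl⟩ := h
  obtain ⟨b, hb, rfl⟩ := h'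
  exact ⟨a + b, H.add_mem ha hb, by rw [smul_add]⟩

theorem zero : InPow H π m (0 : G → R) := ⟨0, H.zero_mem, by simp⟩

theorem neg (h : InPow H π m f) : InPow H π m (-f) := by
  obtain ⟨a, ha, rfl⟩ := h
  exact ⟨-a, H.neg_mem ha, by rw [smul_neg]⟩

theorem smul (h : InPow H π m f) (r : R) : InPow H π m (r • f) := by
  obtain ⟨a, ha, rfl⟩ := h
  exact ⟨r • a, H.smul_mem ha _, by rw [smul_comm]⟩

theorem pi_smul (h : InPow H π m f) : InPow H π (m + 1) (π • f) := by
  obtain ⟨a, ha, rfl⟩ := h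
  exact ⟨a, ha, by rw [pow_succ, mul_comm, mul_smul]⟩

theorem sum {ι : Type*} (s : Finset ι) (F : ι → G → R) (h : ∀ i ∈ s, InPow H π m (F i)) :
    InPow H π m (∑ i ∈ s, F i) := by
  classical
  induction s using Finset.induction_on with
  | empty => simpa using zero
  | insert i s hi ih =>
    rw [Finset.sum_insert hi]
    exact (h i (Finset.mem_insert_self i s)).add
      (ih (fun j hj => h j (Finset.mem_insert_of_mem hj)))

end InPow

/-- Iterating: if `Δ H ⊆ π ^ n H` then `Δ ^ j (π ^ m H) ⊆ π ^ (m + n j) H`. -/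
theorem inPow_pow_apply {H : Subalgebra R (G → R)} {π : R} {n : ℕ}
    (D : (G → R) →ₗ[R] (G → R)) (hD : ∀ h ∈ H, InPow H π n (D h)) (j : ℕ) :
    ∀ {m : ℕ} {f : G → R}, InPow H π m f → InPow H π (m + n * j) ((D ^ j) f) := by
  induction j with
  | zero => intro m f hf; simpa using hf
  | succ j ih =>
    intro m f hf
    rw [pow_succ', Module.End.mul_apply]
    have h1 := ih hf
    obtain ⟨a, ha, hfa⟩ := h1
    obtain ⟨b, hb, hDb⟩ := hD a ha
    refine ⟨b, hb, ?_⟩
    rw [hfa, map_smul, hDb, smul_smul, ← pow_add]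
    congr 2
    ring

/-- **The bootstrap step**: if `p • x = 0`, `p ≥ 3` and `Δ H ⊆ p ^ n H` with `n ≥ 1`
(`Δ = T_x - 1`), then `Δ H ⊆ p ^ (n + 1) H`. -/
theorem boot_step [IsDomain R] {H : Subalgebra R (G → R)} (p : ℕ) (hp : p.Prime) (hp3 : 3 ≤ p)
    (hpR : ((p : ℕ) : R) ≠ 0) (x : G) (hx : p • x = 0) {n : ℕ} (hn : 1 ≤ n)
    (hD : ∀ h ∈ H, InPow H (p : R) n ((hlT R x - 1) h)) :
    ∀ h ∈ H, InPow H (p : R) (n + 1) ((hlT R x - 1) h) := by
  intro h hh
  set D : (G → R) →ₗ[R] (G → R) := hlT R x - 1 with hDdef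
  -- `(D + 1) ^ p = 1` on functions
  have hT : hlT R x = D + 1 := by rw [hDdef]; abel
  have hTp : ((D + 1) ^ p) h = h := by
    rw [← hT]
    funext u
    rw [hlT_pow, hx, add_zero]
  have hcomm : Commute D (1 : (G → R) →ₗ[R] (G → R)) := Commute.one_right D
  rw [hcomm.add_pow] at hTp
  simp only [one_pow, mul_one] at hTp
  -- split off the terms `m = 0, 1`
  have hsplit : ∑ m ∈ range (p + 1), (D ^ m * ((p.choose m : ℕ) : (G → R) →ₗ[R] (G → R))) h
      = h + (p : R) • D h
        + ∑ m ∈ range (p - 1), ((p.choose (m + 2) : ℕ) : R) • (D ^ (m + 2)) h := by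
    obtain ⟨k, hk⟩ : ∃ k, p = k + 2 := ⟨p - 2, by omega⟩
    have hk1 : p - 1 = k + 1 := by omega
    rw [hk1]
    have e1 : p + 1 = (k + 1) + 1 + 1 := by omega
    rw [e1, Finset.sum_range_succ', Finset.sum_range_succ']
    simp only [pow_zero, Nat.choose_zero_right, Nat.cast_one, mul_one, Module.End.one_apply,
      zero_add, pow_one, Nat.choose_one_right]
    have e2 : ∀ m : ℕ, (D ^ (m + 1 + 1) * ((p.choose (m + 1 + 1) : ℕ) : (G → R) →ₗ[R] (G → R))) h
        = ((p.choose (m + 2) : ℕ) : R) • (D ^ (m + 2)) h := by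
      intro m
      rw [Module.End.mul_apply]
      have : (((p.choose (m + 1 + 1) : ℕ) : (G → R) →ₗ[R] (G → R))) h
          = ((p.choose (m + 2) : ℕ) : R) • h := by
        rw [Nat.cast_smul_eq_nsmul R]
        simp [Module.End.natCast_apply]
      rw [this, map_smul]
    rw [Finset.sum_congr rfl (fun m _ => e2 m)]
    have e3 : (D * ((p : ℕ) : (G → R) →ₗ[R] (G → R))) h = (p : R) • D h := by
      rw [Module.End.mul_apply]
      have : (((p : ℕ) : (G → R) →ₗ[R] (G → R))) h = ((p : ℕ) : R) • h := by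
        rw [Nat.cast_smul_eq_nsmul R]
        simp [Module.End.natCast_apply]
      rw [this, map_smul]
    rw [e3]
    abel
  have hTp' : ∑ m ∈ range (p + 1), (D ^ m * ((p.choose m : ℕ) : (G → R) →ₗ[R] (G → R))) h = h := by
    rw [← LinearMap.sum_apply]
    exact hTp
  rw [hsplit] at hTp'
  -- the tail lies in `p ^ (n + 2) H`
  have htail : InPow H (p : R) (n + 2)
      (∑ m ∈ range (p - 1), ((p.choose (m + 2) : ℕ) : R) • (D ^ (m + 2)) h) := by
    refine InPow.sum _ _ (fun m hm => ?_)
    have hm' : m + 2 ≤ p := by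
      have := Finset.mem_range.mp hm
      omega
    have h0 : InPow H (p : R) (0 + n * (m + 2)) ((D ^ (m + 2)) h) :=
      inPow_pow_apply D hD (m + 2) (InPow.of_mem hh)
    rw [zero_add] at h0
    rcases Nat.lt_or_ge (m + 2) p with hlt | hge
    · -- `p ∣ choose p (m + 2)`
      obtain ⟨c, hc⟩ := hp.dvd_choose_self (by omega : m + 2 ≠ 0) hlt
      have h1 : ((p.choose (m + 2) : ℕ) : R) • (D ^ (m + 2)) h
          = (c : R) • ((p : R) • (D ^ (m + 2)) h) := by
        rw [hc, Nat.cast_mul, mul_comm, mul_smul]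
      rw [h1]
      refine InPow.smul ?_ _
      refine (InPow.pi_smul h0).mono ?_
      nlinarith
    · have hmp : m + 2 = p := le_antisymm hm' hge
      rw [hmp, Nat.choose_self, Nat.cast_one, one_smul]
      rw [hmp] at h0
      refine h0.mono ?_
      nlinarith
  -- conclusion
  obtain ⟨t, ht, htail'⟩ := htail
  have h3 : (p : R) • D h = (p : R) • ((p : R) ^ (n + 1) • (-t)) := by
    have h4 : (p : R) • D h = -∑ m ∈ range (p - 1), ((p.choose (m + 2) : ℕ) : R) • (D ^ (m + 2)) h := by
      have h5 : h + (p : R) • D h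
          + ∑ m ∈ range (p - 1), ((p.choose (m + 2) : ℕ) : R) • (D ^ (m + 2)) h = h := hTp'
      have h6 : (p : R) • D h
          + ∑ m ∈ range (p - 1), ((p.choose (m + 2) : ℕ) : R) • (D ^ (m + 2)) h = 0 := by
        have := congrArg (fun f => f - h) h5
        simp only [sub_self] at this
        rw [← this]
        abel
      exact eq_neg_of_add_eq_zero_left h6
    rw [h4, htail', smul_neg, smul_neg, smul_smul, ← pow_succ']
  refine ⟨-t, H.neg_mem ht, ?_⟩
  funext u
  have h7 := congrFun h3 u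
  simp only [Pi.smul_apply, smul_eq_mul] at h7
  have h8 := mul_left_cancel₀ hpR h7
  simpa [Pi.smul_apply, smul_eq_mul] using h8

/-- If `p • x = 0` and all elements of `H` take congruent values at `x` and `0` modulo `p`,
then `(T_x - 1) H ⊆ p ^ n H` for all `n ≥ 1`. -/
theorem boot_all [IsDomain R] {H : Subalgebra R (G → R)} (hc : ComulClosed H) (p : ℕ)
    (hp : p.Prime) (hp3 : 3 ≤ p) (hpR : ((p : ℕ) : R) ≠ 0) (x : G) (hx : p • x = 0)
    (hx0 : ∀ h ∈ H, ((p : ℕ) : R) ∣ h x - h 0) (n : ℕ) :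
    ∀ h ∈ H, InPow H (p : R) (n + 1) ((hlT R x - 1) h) := by
  induction n with
  | zero =>
    intro h hh
    obtain ⟨h', hh', e⟩ := hlT_sub_mem hc (p : R) x hx0 hh
    refine ⟨h', hh', ?_⟩
    rw [LinearMap.sub_apply, Module.End.one_apply, e, zero_add, pow_one]
  | succ n ih => exact boot_step p hp hp3 hpR x hx (Nat.succ_le_succ (Nat.zero_le n)) ih

/-- In the situation of `boot_all`, over a discrete valuation ring with uniformiser `p`, every
element of `H` is invariant under translation by `x`. -/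
theorem shift_invariant [IsDomain R] [IsDiscreteValuationRing R] {H : Subalgebra R (G → R)}
    (hc : ComulClosed H) (p : ℕ) (hp : p.Prime) (hp3 : 3 ≤ p)
    (hpR : Irreducible ((p : ℕ) : R)) (x : G) (hx : p • x = 0)
    (hx0 : ∀ h ∈ H, ((p : ℕ) : R) ∣ h x - h 0) {h : G → R} (hh : h ∈ H) (u : G) :
    h (u + x) = h u := by
  by_contra hne
  have hd : h (u + x) - h u ≠ 0 := sub_ne_zero.mpr hne
  have hfin : FiniteMultiplicity ((p : ℕ) : R) (h (u + x) - h u) :=
    FiniteMultiplicity.of_not_isUnit hpR.not_isUnit hd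
  obtain ⟨n, hn⟩ := hfin
  apply hn
  obtain ⟨h', -, e⟩ := boot_all hc p hp hp3 hpR.ne_zero x hx hx0 n h hh
  have e' := congrFun e u
  rw [LinearMap.sub_apply, Module.End.one_apply, Pi.sub_apply, hlT_apply, Pi.smul_apply,
    smul_eq_mul] at e'
  exact ⟨h' u, e'⟩

/-- Congruence modulo `p` at `x` and `0` propagates to all translates. -/
theorem congr_translate {H : Subalgebra R (G → R)} (hc : ComulClosed H) (π : R) (x : G)
    (hx : ∀ h ∈ H, π ∣ h x - h 0) {h : G → R} (hh : h ∈ H) (u : G) :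
    π ∣ h (u + x) - h u := by
  obtain ⟨h', -, e⟩ := hlT_sub_mem hc π x hx hh
  have e' := congrFun e u
  rw [Pi.sub_apply, hlT_apply, Pi.smul_apply, smul_eq_mul] at e'
  exact ⟨h' u, e'⟩

/-- The indicator functions lie in `H` as soon as differences of values are units. -/
theorem indicator_mem [Fintype G] [DecidableEq G] {H : Subalgebra R (G → R)}
    (hu : ∀ x y : G, x ≠ y → ∃ f ∈ H, IsUnit (f x - f y)) (x : G) :
    (fun u : G => if u = x then (1 : R) else 0) ∈ H := by
  choose! f hf hfu using hu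
  have hfac : ∀ y : G, y ≠ x → ∃ g ∈ H, g x = 1 ∧ g y = 0 := by
    intro y hy
    obtain ⟨v, hv⟩ := hfu x y (Ne.symm hy)
    refine ⟨((v⁻¹ : Rˣ) : R) • (f x y - algebraMap R (G → R) (f x y y)),
      H.smul_mem (H.sub_mem (hf x y (Ne.symm hy)) (H.algebraMap_mem _)) _, ?_, ?_⟩
    · simp only [Pi.smul_apply, Pi.sub_apply, Pi.algebraMap_apply, Algebra.algebraMap_self,
        RingHom.id_apply, smul_eq_mul]
      rw [← hv, Units.inv_mul]
    · simp
  choose! g hg hgx hgy using hfac
  have hprod : (fun u : G => if u = x then (1 : R) else 0)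
      = ∏ y ∈ Finset.univ.erase x, g y := by
    funext u
    rw [Finset.prod_apply]
    by_cases hux : u = x
    · rw [if_pos hux, hux]
      exact (Finset.prod_eq_one (fun y hy => hgx y (Finset.ne_of_mem_erase hy))).symm
    · rw [if_neg hux]
      exact (Finset.prod_eq_zero (f := fun y => g y u)
        (Finset.mem_erase.mpr ⟨hux, Finset.mem_univ u⟩) (hgy u hux)).symm
  rw [hprod]
  exact H.prod_mem (fun y hy => hg y (Finset.ne_of_mem_erase hy))

/-- If all indicator functions lie in `H`, then `H = ⊤`. -/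
theorem eq_top_of_indicator [Fintype G] [DecidableEq G] {H : Subalgebra R (G → R)}
    (h : ∀ x : G, (fun u : G => if u = x then (1 : R) else 0) ∈ H) : H = ⊤ := by
  rw [eq_top_iff]
  intro f _
  have : f = ∑ x, f x • (fun u : G => if u = x then (1 : R) else 0) := by
    funext u
    rw [Finset.sum_apply]
    simp
  rw [this]
  exact H.sum_mem (fun x _ => H.smul_mem (h x) _)

/-- **THE HOPF LEMMA.**  `R` a discrete valuation ring with uniformiser the odd prime `p`,
`G` a finite abelian `p`-group.  Every `R`-subalgebra of `Maps(G, R)` which separates points and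
is closed under comultiplication is all of `Maps(G, R)`. -/
theorem hopf_order_eq_top (R : Type*) [CommRing R] [IsDomain R] [IsDiscreteValuationRing R]
    (p : ℕ) (hp : p.Prime) (hp2 : p ≠ 2) (hpR : Irreducible ((p : ℕ) : R))
    (G : Type*) [AddCommGroup G] [Finite G] (hG : ∀ x : G, ∃ n : ℕ, p ^ n • x = 0)
    (H : Subalgebra R (G → R)) (hsep : SeparatesPts H) (hcomul : ComulClosed H) :
    H = ⊤ := by
  classical
  have : Fintype G := Fintype.ofFinite G
  have hp3 : 3 ≤ p := by
    have := hp.two_le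
    omega
  -- the subgroup `S`
  by_cases hS : ∀ x : G, (∀ h ∈ H, ((p : ℕ) : R) ∣ h x - h 0) → x = 0
  · -- differences are units
    refine eq_top_of_indicator (indicator_mem (fun x y hxy => ?_))
    have hxy' : x - y ≠ 0 := sub_ne_zero.mpr hxy
    have h1 : ¬ ∀ h ∈ H, ((p : ℕ) : R) ∣ h (x - y) - h 0 := fun h => hxy' (hS _ h)
    push Not at h1
    obtain ⟨h, hh, hnd⟩ := h1
    refine ⟨hlT R (-y) h, hlT_mem hcomul _ hh, ?_⟩
    rw [hlT_apply, hlT_apply, add_neg_cancel, ← sub_eq_add_neg]
    by_contra hnu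
    apply hnd
    have hm : h (x - y) - h 0 ∈ IsLocalRing.maximalIdeal R :=
      (IsLocalRing.mem_maximalIdeal _).mpr hnu
    rw [hpR.maximalIdeal_eq, Ideal.mem_span_singleton] at hm
    exact hm
  · exfalso
    push Not at hS
    obtain ⟨s, hs, hs0⟩ := hS
    -- multiples of `s` stay in `S`
    have hmul : ∀ k : ℕ, ∀ h ∈ H, ((p : ℕ) : R) ∣ h (k • s) - h 0 := by
      intro k
      induction k with
      | zero => intro h _; simp
      | succ k ih =>
        intro h hh
        have h1 : ((p : ℕ) : R) ∣ h (k • s + s) - h (k • s) := congr_translate hcomul _ s hs hh _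
        have h2 := ih h hh
        have : h ((k + 1) • s) - h 0 = (h (k • s + s) - h (k • s)) + (h (k • s) - h 0) := by
          rw [succ_nsmul]
          ring
        rw [this]
        exact dvd_add h1 h2
    -- an element of order `p` in `S`
    have hex : ∃ n : ℕ, p ^ n • s = 0 := hG s
    have hn0 : Nat.find hex ≠ 0 := by
      intro h0
      have := Nat.find_spec hex
      rw [h0, pow_zero, one_smul] at this
      exact hs0 this
    obtain ⟨m, hm⟩ : ∃ m, Nat.find hex = m + 1 := ⟨Nat.find hex - 1, by omega⟩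
    set x : G := p ^ m • s with hxdef
    have hx0 : x ≠ 0 := by
      intro h0
      have := Nat.find_min hex (m := m) (by omega)
      exact this h0
    have hpx : p • x = 0 := by
      have := Nat.find_spec hex
      rw [hm, pow_succ, mul_comm, mul_smul] at this
      exact this
    have hxS : ∀ h ∈ H, ((p : ℕ) : R) ∣ h x - h 0 := hmul (p ^ m)
    obtain ⟨h, hh, hne⟩ := hsep x 0 hx0
    apply hne
    have := shift_invariant hcomul p hp hp3 hpR x hpx hxS hh 0
    rwa [zero_add] at this

end Fermat.Agent.H18.ORD
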