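import Fermat.Agent.H18.ORD.NodalSemiDefs

/-!
# P-ORD, block B1-LIFT (abstract side, helper18) : PAIR-SEMI without coefficient functionals

The hypothesis `NodalCoeff` (an `iff` between membership in `V_∞ ∩ V_0` and integrality of
`q`-expansion coefficients) is only true on functions with bounded expansions.  The repaired
concrete inputs of (PAIR-SEMI) are :

* `UnrDiv p G`  : an inertia-fixed element of `V_∞ ∩ V_0` whose two reductions vanish is
  divisible by `p` in `V_∞ ∩ V_0` (the two Gauss valuations are unramified on the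
  inertia-fixed functions);
* `PairG3On G V` : the pair lattice statement (G3) for the subspace `V`, without any Galois
  condition (helper23, `pairG3_abs`).
-/

set_option autoImplicit false
set_option linter.unusedSectionVars false

noncomputable section

open AlgebraicCurve ModularCurve

namespace Fermat.Agent.H18.ORD

open Fermat.Agent.H72.FF

variable {N : ℕ} {A : ValuationSubring Qb} {Foo F0 : Type} [Field Foo] [Field F0]
  [Algebra (kRes A) Foo] [Algebra (kRes A) F0] {ι : Type}

/-- **[DIV]** inertia-fixed functions of `V_∞ ∩ V_0` with vanishing reductions are divisible by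
`p`. -/
def UnrDiv (p : ℕ) (G : NodalData N A Foo F0 ι) : Prop :=
  ∀ (u : FLb N) (h : u ∈ G.Voo) (h0 : u ∈ G.V0), IsUnrFn A N u →
    G.redOo ⟨u, h⟩ = 0 → G.red0 ⟨u, h0⟩ = 0 →
      algebraMap Qb (FLb N) (p : Qb)⁻¹ * u ∈ G.Voo ∧ algebraMap Qb (FLb N) (p : Qb)⁻¹ * u ∈ G.V0

/-- one component at a time : the Gauss valuation at `∞` is unramified on the inertia-fixed
functions -/
def UnrDivOo (p : ℕ) (G : NodalData N A Foo F0 ι) : Prop :=
  ∀ (u : FLb N) (h : u ∈ G.Voo), IsUnrFn A N u → G.redOo ⟨u, h⟩ = 0 →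
    algebraMap Qb (FLb N) (p : Qb)⁻¹ * u ∈ G.Voo

/-- one component at a time : the Gauss valuation at `0` is unramified on the inertia-fixed
functions -/
def UnrDivZero (p : ℕ) (G : NodalData N A Foo F0 ι) : Prop :=
  ∀ (u : FLb N) (h0 : u ∈ G.V0), IsUnrFn A N u → G.red0 ⟨u, h0⟩ = 0 →
    algebraMap Qb (FLb N) (p : Qb)⁻¹ * u ∈ G.V0

theorem unrDiv_of_components {p : ℕ} {G : NodalData N A Foo F0 ι} (hoo : UnrDivOo p G)
    (h0 : UnrDivZero p G) : UnrDiv p G :=
  fun u h h' hu h1 h2 => ⟨hoo u h hu h1, h0 u h' hu h2⟩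

/-- **(G3) for pairs** on the subspace `V` (no Galois condition). -/
def PairG3On (G : NodalData N A Foo F0 ι) (V : Submodule Qb (FLb N)) : Prop :=
  ∃ (ua : Fin (Module.finrank Qb V) → G.Voo) (ub : Fin (Module.finrank Qb V) → G.V0),
    (∀ i, ((ua i : G.Voo) : FLb N) = ((ub i : G.V0) : FLb N)) ∧
    (∀ i, ((ua i : G.Voo) : FLb N) ∈ V) ∧
    LinearIndependent (kRes A) (fun i => (G.redOo (ua i), G.red0 (ub i)))

/-- **[COORD]** a linear functional is bounded on `V ∩ V_∞ ∩ V_0` (the coordinates of an element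
of `V ∩ V_∞ ∩ V_0` in a basis of `V` with independent reduction pairs are integral). -/
def PairBoundedStatement : Prop :=
  ∀ (N p : ℕ) (A : ValuationSubring Qb) (Foo F0 : Type) [Field Foo] [Field F0]
    [Algebra (kRes A) Foo] [Algebra (kRes A) F0] (ι : Type) (G : NodalData N A Foo F0 ι),
    p.Prime → A.LiesOverPrime p → NodalRvHyp p G →
    ∀ V : Submodule Qb (FLb N), FiniteDimensional Qb V → PairG3On G V →
    ∀ φ : FLb N →ₗ[Qb] Qb, ∃ M : ℕ, ∀ x ∈ V, x ∈ G.Voo → x ∈ G.V0 →
      (p : Qb) ^ M * φ x ∈ A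

/-- the target : (PAIR-SEMI) from [DIV] and the pair (G3). -/
def PairSemiDivStatement : Prop :=
  ∀ (N p : ℕ) (A : ValuationSubring Qb) (Foo F0 : Type) [Field Foo] [Field F0]
    [Algebra (kRes A) Foo] [Algebra (kRes A) F0] (ι : Type) (G : NodalData N A Foo F0 ι)
    (g : ℕ), p.Prime → A.LiesOverPrime p → NodalRvHyp p G → UnrDiv p G →
    (∀ V : Submodule Qb (FLb N), FiniteDimensional Qb V → PairG3On G V) →
    Fermat.Agent.H27.ESD.RiemannPackage Qb (FLb N) g →
    ∀ Poo P0 : Place Qb (FLb N), IsUnrPlace A N Poo → IsUnrPlace A N P0 →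
      PairSemiAt G Poo P0

end Fermat.Agent.H18.ORD
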