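import Fermat.Agent.H18.ORD.NodalLiftThm
import Fermat.Agent.H19.ORD.NmAnchorFinal
import Fermat.Agent.H20.ORD.NmSoft
import Fermat.Agent.H21.Ord.NmNodes
import Fermat.Agent.H23.ORD.NmPairG3On
import Fermat.Agent.H92.ORD.NodalAsm

/-!
# P-ORD, block B1 (helper18) : [LIFT], [GENUS], [NODES] for the nodal model `nmG`

The blocks `NmLiftStatement`, `NmGenusEqStatement`, `NmNodesStatement` of helper92's `NmBlocks`
from the blocks `NmTotStatement`, `NmRvHypStatement`, `NmGalHypStatement` and the two concrete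
inputs of the abstract chain :

* `NmAnchorLiftStatement M p` : `AnchorLift (nmG htot)`;
* `NmUnrNormStatement M p`    : the normal form of the inertia-fixed functions at both Gauss
  valuations.
-/

set_option autoImplicit false
set_option linter.unusedSectionVars false
set_option linter.style.haveILetI false
set_option maxHeartbeats 1600000
set_option synthInstance.maxHeartbeats 400000

noncomputable section

open AlgebraicCurve ModularCurve

namespace Fermat.Agent.H18.ORD

open Fermat.Agent.H72.FF Fermat.Agent.H84.ORD Fermat.Agent.H27.ESD Fermat.Agent.H92.ORD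

/-- **[ANCHOR-LIFT]** for `nmG`. -/
def NmAnchorLiftStatement (M p : ℕ) [NeZero M] [NeZero p] : Prop :=
  ∀ (A : ValuationSubring Qb) (h : NmSetup M p A) (htot : NmTot M p h.cop A),
    AnchorLift (nmG htot)

/-- **(UNR-NORM)** for `nmG` : an inertia-fixed function is a power of `p` times a unit, at
both Gauss valuations. -/
def NmUnrNormStatement (M p : ℕ) [NeZero M] [NeZero p] : Prop :=
  ∀ (A : ValuationSubring Qb) (h : NmSetup M p A) (htot : NmTot M p h.cop A),
    (∀ f : FLb (M * p), f ≠ 0 → IsUnrFn A (M * p) f →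
      ∃ (n : ℤ) (h' : algebraMap Qb (FLb (M * p)) ((p : Qb) ^ n) * f ∈ (nmG htot).Voo),
        (nmG htot).redOo ⟨_, h'⟩ ≠ 0) ∧
    (∀ f : FLb (M * p), f ≠ 0 → IsUnrFn A (M * p) f →
      ∃ (n : ℤ) (h' : algebraMap Qb (FLb (M * p)) ((p : Qb) ^ n) * f ∈ (nmG htot).V0),
        (nmG htot).red0 ⟨_, h'⟩ ≠ 0)

variable {M p : ℕ} [NeZero M] [NeZero p]

/-- **[LIFT] for `nmG`.** -/
theorem nmLift_final (hR : NmRvHypStatement M p) (hG : NmGalHypStatement M p)
    (hAL : NmAnchorLiftStatement M p) (hU : NmUnrNormStatement M p) :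
    NmLiftStatement M p := by
  intro A h htot
  have hpM : ¬ p ∣ M := fun hd =>
    h.prime.one_lt.ne' (Nat.Coprime.eq_one_of_dvd h.cop.symm hd)
  obtain ⟨hac, hrr⟩ := b1_rrHyp_nmF M p h.prime hpM A h.liesOver
  haveI := hac
  haveI : Finite (NmNode M p h.cop A) := Fermat.Agent.H21.Ord.nmFinite_of_rv hR A h htot
  obtain ⟨Poo, P0, Qoo, Q0, hPoo, hP0, hPooI, hP0I⟩ :=
    Fermat.Agent.H19.ORD.nmAnchor h.prime h.liesOver htot
  exact nodalLift_of_norm (hR A h htot) (hG A h htot) h.prime h.liesOver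
    (Fermat.Agent.H58.riemannPackage_of_rrHyp
      (Fermat.Agent.H58.rrHyp_modularFunctionFieldBar (M * p)))
    (Fermat.Agent.H58.riemannPackage_of_rrHyp hrr)
    (Fermat.Agent.H58.riemannPackage_of_rrHyp hrr)
    (hAL A h htot) (hU A h htot).1 (hU A h htot).2
    (fun V hV => Fermat.Agent.H23.ORD.nm_pairG3On M p (Fermat.Agent.H20.ORD.nmSoft M p) A h htot
      V hV)
    Poo P0 Qoo Q0 hPoo hP0 (fun σ _ => hPooI σ) (fun σ _ => hP0I σ)

/-- **[GENUS] for `nmG`.** -/
theorem nmGenusEq_final (hT : NmTotStatement M p) (hR : NmRvHypStatement M p)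
    (hAL : NmAnchorLiftStatement M p) : NmGenusEqStatement M p := by
  intro A h
  have htot := hT A h
  have hpM : ¬ p ∣ M := fun hd =>
    h.prime.one_lt.ne' (Nat.Coprime.eq_one_of_dvd h.cop.symm hd)
  obtain ⟨hac, hrr⟩ := b1_rrHyp_nmF M p h.prime hpM A h.liesOver
  haveI := hac
  haveI : Finite (NmNode M p h.cop A) := Fermat.Agent.H21.Ord.nmFinite_of_rv hR A h htot
  obtain ⟨Poo, P0, Qoo, Q0, hPoo, hP0, -, -⟩ :=
    Fermat.Agent.H19.ORD.nmAnchor h.prime h.liesOver htot
  exact nodal_genus_eq_of_anchor (hR A h htot) h.prime h.liesOver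
    (Fermat.Agent.H58.riemannPackage_of_rrHyp
      (Fermat.Agent.H58.rrHyp_modularFunctionFieldBar (M * p)))
    (Fermat.Agent.H58.riemannPackage_of_rrHyp hrr)
    (Fermat.Agent.H58.riemannPackage_of_rrHyp hrr)
    (hAL A h htot)
    (fun V hV => Fermat.Agent.H23.ORD.nm_pairG3On M p (Fermat.Agent.H20.ORD.nmSoft M p) A h htot
      V hV)
    hPoo hP0

/-- **[NODES] for `nmG`.** -/
theorem nmNodes_final (hT : NmTotStatement M p) (hR : NmRvHypStatement M p)
    (hAL : NmAnchorLiftStatement M p) : NmNodesStatement M p :=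
  Fermat.Agent.H21.Ord.nmNodes_of_genusEq (nmGenusEq_final hT hR hAL)

/-- **The bundle `NmBlocks`** from the blocks [TOT], [RV], [GAL] and the two concrete inputs
[ANCHOR-LIFT], (UNR-NORM). -/
theorem nmBlocks_final (hT : NmTotStatement M p) (hR : NmRvHypStatement M p)
    (hG : NmGalHypStatement M p) (hAL : NmAnchorLiftStatement M p)
    (hU : NmUnrNormStatement M p) : NmBlocks M p where
  tot := hT
  rv := hR
  gal := hG
  lift := nmLift_final hR hG hAL hU
  nodes := nmNodes_final hT hR hAL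
  genus := nmGenusEq_final hT hR hAL

end Fermat.Agent.H18.ORD
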