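import Fermat.Agent.H18.ORD.NodalGlued

/-!
# P-ORD, block B1-LIFT (abstract side, helper18) : CONTAIN

`NodalRvHyp.contain` : for `u ∈ V_∞ ∩ V_0 ∩ L(D)`, `D` without point over a node, the pair of
reductions `(red_∞ u, red_0 u)` lies in `gluedSpace G (pushOo G D) (pushZero G D)`.

Smooth points : (M2).  Node branches : (M3) `node_le`.  Gluing : (M4) `glue` if no zero of `u`
specialises to the node, (M3) `node_lt` otherwise (both reductions vanish at the node).
-/

set_option autoImplicit false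
set_option linter.unusedSectionVars false
set_option maxHeartbeats 1600000

noncomputable section

open AlgebraicCurve ModularCurve

namespace Fermat.Agent.H18.ORD

open Fermat.Agent.H72.FF Fermat.Agent.H85.ORD Fermat.Agent.H94.ORD

variable {N : ℕ} {A : ValuationSubring Qb} {Foo F0 : Type} [Field Foo] [Field F0]
  [Algebra (kRes A) Foo] [Algebra (kRes A) F0] {ι : Type}
  {p : ℕ} {G : NodalData N A Foo F0 ι}

/-- an element of `V_∞` with nonzero reduction is not zero -/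
theorem nc_ne_zero_oo {u : FLb N} (hu : u ∈ G.Voo) (h : G.redOo ⟨u, hu⟩ ≠ 0) : u ≠ 0 := by
  rintro rfl
  apply h
  have : (⟨0, hu⟩ : G.Voo) = 0 := rfl
  rw [this, map_zero]

/-- normal form at `V_0` of an element of `V_0` : the constant is integral, and it is a
non-unit exactly when the reduction vanishes. -/
theorem NodalRvHyp.norm_zero_mem (H : NodalRvHyp p G) {u : FLb N} (hu0 : u ∈ G.V0)
    (hne : u ≠ 0) :
    ∃ (c : Qb) (w : G.V0), c ≠ 0 ∧ G.red0 w ≠ 0 ∧ u = algebraMap Qb (FLb N) c * (w : FLb N) ∧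
      c ∈ A ∧ (c⁻¹ ∈ A → G.red0 ⟨u, hu0⟩ ≠ 0) ∧ (c⁻¹ ∉ A → G.red0 ⟨u, hu0⟩ = 0) := by
  obtain ⟨c, w, hc, hw, huw⟩ := H.norm_zero u hne
  have hw0 : (w : FLb N) ≠ 0 := by
    intro h
    apply hw
    have : w = 0 := Subtype.ext h
    rw [this, map_zero]
  have hcV : algebraMap Qb (FLb N) c ∈ G.V0 := by
    have h1 : algebraMap Qb (FLb N) c = u * (w : FLb N)⁻¹ := by
      rw [huw]
      field_simp
    rw [h1]
    exact G.V0.mul_mem hu0 (H.inv_zero w hw)
  have hcA : c ∈ A := (H.const_zero c).mp hcV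
  have hmul : (⟨u, hu0⟩ : G.V0) = ⟨algebraMap Qb (FLb N) c, hcV⟩ * w := Subtype.ext huw
  have hred : G.red0 ⟨u, hu0⟩
      = algebraMap (kRes A) F0 (IsLocalRing.residue A ⟨c, hcA⟩) * G.red0 w := by
    rw [hmul, map_mul, H.red_const_zero ⟨c, hcA⟩ hcV]
  refine ⟨c, w, hc, hw, huw, hcA, ?_, ?_⟩
  · intro hci
    rw [hred]
    refine mul_ne_zero ?_ hw
    rw [Ne, map_eq_zero_iff _ (algebraMap (kRes A) F0).injective,
      IsLocalRing.residue_eq_zero_iff, ← A.coe_mem_nonunits_iff]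
    exact na_unit_not_mem_nonunits hc hci
  · intro hci
    rw [hred]
    have : IsLocalRing.residue A ⟨c, hcA⟩ = 0 := by
      rw [IsLocalRing.residue_eq_zero_iff, ← A.coe_mem_nonunits_iff]
      show c ∈ A.nonunits
      rw [A.mem_nonunits_iff_or]
      exact Or.inr hci
    rw [this, map_zero, zero_mul]

/-- **Node branches (`C_∞` side).**  For `u ∈ V_∞ ∩ V_0` with `red_∞ u ≠ 0` and without pole
specialising to `ν` : `ord_ν (red_∞ u) ≥ 0`, and `≥ 1` if `red_0 u = 0`. -/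
theorem NodalRvHyp.contain_node_oo (H : NodalRvHyp p G) (hp : p.Prime)
    (hA : A.LiesOverPrime p) {u : FLb N} (hu : u ∈ G.Voo) (hu0 : u ∈ G.V0)
    (hred : G.redOo ⟨u, hu⟩ ≠ 0) (ν : ι)
    (hν : ∀ P, G.r P = NPt.node ν → 0 ≤ P.ord u) :
    0 ≤ (G.nOo ν).ord (G.redOo ⟨u, hu⟩) ∧
      (G.red0 ⟨u, hu0⟩ = 0 → 1 ≤ (G.nOo ν).ord (G.redOo ⟨u, hu⟩)) := by
  have hpQ : (p : Qb) ≠ 0 := by exact_mod_cast hp.ne_zero
  have hpA : (p : Qb) ∈ A := A.nonunits_subset hA
  have hne : u ≠ 0 := nc_ne_zero_oo hu hred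
  obtain ⟨c, w, hc, hw, huw, hcA, h1, h2⟩ := H.norm_zero_mem hu0 hne
  have hcL : algebraMap Qb (FLb N) c ≠ 0 := by
    rw [Ne, map_eq_zero_iff _ (algebraMap Qb (FLb N)).injective]
    exact hc
  have hwu : (w : FLb N) = algebraMap Qb (FLb N) c⁻¹ * ((⟨u, hu⟩ : G.Voo) : FLb N) := by
    show (w : FLb N) = algebraMap Qb (FLb N) c⁻¹ * u
    rw [huw, map_inv₀]
    field_simp
  obtain ⟨h3, -⟩ := H.node_le ⟨u, hu⟩ w c⁻¹ hred hw hwu ν hν
  by_cases hci : c⁻¹ ∈ A
  · refine ⟨na_nonneg_of_unit hA hpQ (inv_ne_zero hc) (by rw [inv_inv]; exact hcA) h3, ?_⟩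
    intro h0
    exact absurd h0 (h1 hci)
  · have h4 := na_one_le_of_not_mem hpA hpQ hci h3
    exact ⟨by omega, fun _ => h4⟩

/-- **Riemann-Roch membership of the reduction (`C_∞` side).** -/
theorem NodalRvHyp.contain_rr_oo (H : NodalRvHyp p G) (hp : p.Prime)
    (hA : A.LiesOverPrime p) (hdiv : HasPrincipalDivisors Qb (FLb N))
    {D : Divisor Qb (FLb N)} (hD : ∀ P ν, G.r P = NPt.node ν → D P = 0)
    {u : FLb N} (hu : u ∈ G.Voo) (hu0 : u ∈ G.V0) (huD : u ∈ riemannRochSpace D) :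
    G.redOo ⟨u, hu⟩ ∈ riemannRochSpace (pushOo G D) := by
  classical
  rw [mem_riemannRochSpace_iff]
  intro Q
  by_cases hred : G.redOo ⟨u, hu⟩ = 0
  · exact Or.inl hred
  right
  have hne : u ≠ 0 := nc_ne_zero_oo hu hred
  have hord : ∀ P, -D P ≤ P.ord u := fun P =>
    ((mem_riemannRochSpace_iff.mp huD) P).resolve_left hne
  by_cases hQ : Q ∈ Set.range G.nOo
  · obtain ⟨ν, rfl⟩ := hQ
    have h1 : pushOo G D (G.nOo ν) = 0 := by
      rw [pushOo_apply]
      refine ordMove_mapDomain_eq_zero _ _ _ fun P hP => ?_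
      exact absurd ⟨ν, rfl⟩ (H.r_oo P _ hP)
    rw [h1, neg_zero]
    refine (H.contain_node_oo hp hA hu hu0 hred ν fun P hP => ?_).1
    have := hord P
    rw [hD P ν hP] at this
    omega
  · obtain ⟨Du, hDu, -⟩ := hdiv.exists_divisor u hne
    have h1 := H.smooth_oo ⟨u, hu⟩ hred Du hDu Q hQ
    have h2 : 0 ≤ Finsupp.mapDomain G.r (D + Du) (NPt.oo Q) := by
      refine ordMove_mapDomain_nonneg _ _ (fun P => ?_) _
      rw [Finsupp.add_apply, hDu P]
      have := hord P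
      omega
    rw [Finsupp.mapDomain_add, Finsupp.add_apply, h1] at h2
    rw [pushOo_apply]
    omega

/-- **Gluing of the reductions.** -/
theorem NodalRvHyp.contain_glued (H : NodalRvHyp p G) (hp : p.Prime)
    (hA : A.LiesOverPrime p)
    {D : Divisor Qb (FLb N)} (hD : ∀ P ν, G.r P = NPt.node ν → D P = 0)
    {u : FLb N} (hu : u ∈ G.Voo) (hu0 : u ∈ G.V0) (huD : u ∈ riemannRochSpace D) :
    IsGlued G (G.redOo ⟨u, hu⟩) (G.red0 ⟨u, hu0⟩) := by
  classical
  have hpQ : (p : Qb) ≠ 0 := by exact_mod_cast hp.ne_zero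
  have hpA : (p : Qb) ∈ A := A.nonunits_subset hA
  intro ν
  have hHs := nodalRvHyp_swap H
  by_cases hred : G.redOo ⟨u, hu⟩ = 0
  · by_cases hred0 : G.red0 ⟨u, hu0⟩ = 0
    · rw [hred, hred0]
      exact isGlued_zero G ν
    · -- `red_∞ u = 0`, `red_0 u ≠ 0`
      have hne : u ≠ 0 := nc_ne_zero_oo (G := swapData G) hu0 hred0
      have hν : ∀ P, (swapData G).r P = NPt.node ν → 0 ≤ P.ord u := by
        intro P hP
        have hP' : G.r P = NPt.node ν := by
          have h1 : nptSwap (G.r P) = NPt.node ν := hP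
          rw [nptSwap_eq_iff] at h1
          exact h1
        have := ((mem_riemannRochSpace_iff.mp huD) P).resolve_left hne
        rw [hD P ν hP'] at this
        omega
      have h1 := (NodalRvHyp.contain_node_oo hHs hp hA (u := u) hu0 hu hred0 ν hν).2 hred
      refine ⟨0, ?_, ?_⟩
      · rw [hred, map_zero, sub_zero]
        exact ng_zero_mem_nonunits _
      · rw [map_zero, sub_zero]
        exact (nb_mem_nonunits_iff _ _).mpr (Or.inr h1)
  · have hne : u ≠ 0 := nc_ne_zero_oo hu hred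
    have hν : ∀ P, G.r P = NPt.node ν → 0 ≤ P.ord u := by
      intro P hP
      have := ((mem_riemannRochSpace_iff.mp huD) P).resolve_left hne
      rw [hD P ν hP] at this
      omega
    by_cases hred0 : G.red0 ⟨u, hu0⟩ = 0
    · have h1 := (H.contain_node_oo hp hA hu hu0 hred ν hν).2 hred0
      refine ⟨0, ?_, ?_⟩
      · rw [map_zero, sub_zero]
        exact (nb_mem_nonunits_iff _ _).mpr (Or.inr h1)
      · rw [hred0, map_zero, sub_zero]
        exact ng_zero_mem_nonunits _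
    · by_cases hz : ∀ P, G.r P = NPt.node ν → P.ord u = 0
      · obtain ⟨κ, -, h1, h2⟩ := H.glue u hu hu0 hred hred0 ν hz
        exact ⟨κ, h1, h2⟩
      · push Not at hz
        obtain ⟨P, hP, hP0⟩ := hz
        have hPpos : 0 < P.ord u := lt_of_le_of_ne (hν P hP) (Ne.symm hP0)
        have hwu : ((⟨u, hu0⟩ : G.V0) : FLb N)
            = algebraMap Qb (FLb N) 1 * ((⟨u, hu⟩ : G.Voo) : FLb N) := by
          rw [map_one, one_mul]
        obtain ⟨h1, h2⟩ := H.node_lt ⟨u, hu⟩ ⟨u, hu0⟩ 1 hred hred0 hwu ν hν ⟨P, hP, hPpos⟩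
        rw [mul_one] at h1
        rw [inv_one, mul_one] at h2
        have key : ∀ a : ℤ, (p : Qb) ^ a ∈ A.nonunits → 1 ≤ a := by
          intro a ha
          by_contra hcon
          obtain ⟨k, hk⟩ : ∃ k : ℕ, a = -(k : ℤ) := ⟨(-a).toNat, by omega⟩
          have h3 : ((p : Qb) ^ a)⁻¹ ∈ A := by
            rw [hk, zpow_neg, inv_inv, zpow_natCast]
            exact pow_mem hpA k
          exact na_unit_not_mem_nonunits (zpow_ne_zero a hpQ) h3 ha
        refine ⟨0, ?_, ?_⟩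
        · rw [map_zero, sub_zero]
          exact (nb_mem_nonunits_iff _ _).mpr (Or.inr (key _ h1))
        · rw [map_zero, sub_zero]
          exact (nb_mem_nonunits_iff _ _).mpr (Or.inr (key _ h2))

/-- **CONTAIN.**  The reductions of `u ∈ V_∞ ∩ V_0 ∩ L(D)` form a glued pair of
`L(r_* D) × L(r_* D)`. -/
theorem NodalRvHyp.contain (H : NodalRvHyp p G) (hp : p.Prime)
    (hA : A.LiesOverPrime p) (hdiv : HasPrincipalDivisors Qb (FLb N))
    {D : Divisor Qb (FLb N)} (hD : ∀ P ν, G.r P = NPt.node ν → D P = 0)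
    {u : FLb N} (hu : u ∈ G.Voo) (hu0 : u ∈ G.V0) (huD : u ∈ riemannRochSpace D) :
    (G.redOo ⟨u, hu⟩, G.red0 ⟨u, hu0⟩) ∈ gluedSpace G (pushOo G D) (pushZero G D) := by
  refine ⟨H.contain_rr_oo hp hA hdiv hD hu hu0 huD, ?_, H.contain_glued hp hA hD hu hu0 huD⟩
  have hD' : ∀ P ν, (swapData G).r P = NPt.node ν → D P = 0 := by
    intro P ν hP
    refine hD P ν ?_
    have h1 : nptSwap (G.r P) = NPt.node ν := hP
    rw [nptSwap_eq_iff] at h1
    exact h1
  have h1 := NodalRvHyp.contain_rr_oo (nodalRvHyp_swap H) hp hA hdiv hD' (u := u) hu0 hu huD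
  rw [pushOo_swap] at h1
  exact h1

end Fermat.Agent.H18.ORD
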