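import Fermat.Agent.H18.ORD.NodalSemi

/-!
# P-ORD, block B1-LIFT (abstract side, helper18) : PAIR-SEMI, part 2 (elimination)

* `ps_list` : Gaussian elimination with maximal pivots : a finite-dimensional subspace `V` of
  `F` spanned by inertia-fixed functions has a triangular family `(j_i, w_i)` of
  `dim V` inertia-fixed functions `w_i ∈ V ∩ V_∞ ∩ V_0` with `lam (j_i) (w_i) = 1` and
  `lam (j_i) (w_i') = 0` for `i < i'`;
* `ps_tri` : the triangular lemma : an `A`-combination of such a family whose coefficients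
  `lam j` all lie in `𝔪_A` has its coefficients in `𝔪_A`.
-/

set_option autoImplicit false
set_option linter.unusedSectionVars false
set_option linter.style.haveILetI false
set_option maxHeartbeats 1600000
set_option synthInstance.maxHeartbeats 400000

noncomputable section

open AlgebraicCurve ModularCurve

namespace Fermat.Agent.H18.ORD

open Fermat.Agent.H72.FF Fermat.Agent.H85.ORD Fermat.Agent.H94.ORD Fermat.Agent.H27.ESD

variable {N : ℕ} {A : ValuationSubring Qb} {Foo F0 : Type} [Field Foo] [Field F0]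
  [Algebra (kRes A) Foo] [Algebra (kRes A) F0] {ι : Type}
  {p : ℕ} {G : NodalData N A Foo F0 ι} {J : Type} {lam : J → FLb N →ₗ[Qb] Qb}

/-! ### Inertia-fixed functions -/

theorem isUnrFn_const_mul {c : Qb} (hc : ∀ σ ∈ A.inertiaSubgroupIn ℚ, σ c = c) {f : FLb N}
    (hf : IsUnrFn A N f) : IsUnrFn A N (algebraMap Qb (FLb N) c * f) := by
  intro σ hσ
  rw [smul_mul', hf σ hσ, SemilinearAut.smul_algebraMap]
  have : SemilinearAut.baseAut (galF N σ) c = c := hc σ hσ
  rw [this]

theorem isUnrFn_sub {f g : FLb N} (hf : IsUnrFn A N f) (hg : IsUnrFn A N g) :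
    IsUnrFn A N (f - g) := by
  intro σ hσ
  rw [smul_sub, hf σ hσ, hg σ hσ]

theorem isUnrFn_add {f g : FLb N} (hf : IsUnrFn A N f) (hg : IsUnrFn A N g) :
    IsUnrFn A N (f + g) := by
  intro σ hσ
  rw [smul_add, hf σ hσ, hg σ hσ]

theorem isUnrFn_zero : IsUnrFn A N (0 : FLb N) := fun _ _ => smul_zero _

theorem isUnrFn_sum {α : Type*} (s : Finset α) (f : α → FLb N)
    (hf : ∀ i ∈ s, IsUnrFn A N (f i)) : IsUnrFn A N (∑ i ∈ s, f i) := by
  classical
  induction s using Finset.induction_on with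
  | empty => rw [Finset.sum_empty]; exact isUnrFn_zero
  | insert a s ha ih =>
    rw [Finset.sum_insert ha]
    exact isUnrFn_add (hf a (Finset.mem_insert_self a s))
      (ih fun i hi => hf i (Finset.mem_insert_of_mem hi))

/-- `V` is spanned by its inertia-fixed elements -/
def IsRatSpanned (A : ValuationSubring Qb) (N : ℕ) (V : Submodule Qb (FLb N)) : Prop :=
  V ≤ Submodule.span Qb {f | f ∈ V ∧ IsUnrFn A N f}

/-! ### Elimination -/

/-- **Gaussian elimination with maximal pivots.** -/
theorem ps_list (H : NodalRvHyp p G) (hp : p.Prime) (hA : A.LiesOverPrime p)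
    (hdisc : UnrDisc p A) (hC : NodalCoeff G J lam) :
    ∀ (d : ℕ) (V : Submodule Qb (FLb N)), FiniteDimensional Qb V →
      Module.finrank Qb V = d → IsRatSpanned A N V →
      ∃ l : List (J × FLb N), l.length = d ∧
        (∀ a ∈ l, a.2 ∈ V ∧ IsUnrFn A N a.2 ∧ (∀ j, lam j a.2 ∈ A) ∧ lam a.1 a.2 = 1) ∧
        l.Pairwise (fun a b => lam a.1 b.2 = 0) := by
  intro d
  induction d with
  | zero =>
    intro V _ _ _
    exact ⟨[], rfl, fun a ha => absurd ha (List.not_mem_nil), List.Pairwise.nil⟩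
  | succ d ih =>
    intro V hfin hd hV
    haveI := hfin
    -- a nonzero inertia-fixed element
    have hVne : V ≠ ⊥ := by
      intro h
      rw [h, finrank_bot] at hd
      omega
    obtain ⟨f₀, ⟨hf₀V, hf₀I⟩, hf₀⟩ : ∃ f, (f ∈ V ∧ IsUnrFn A N f) ∧ f ≠ 0 := by
      by_contra hcon
      push Not at hcon
      apply hVne
      rw [eq_bot_iff]
      refine le_trans hV (Submodule.span_le.mpr ?_)
      intro f hf
      rw [SetLike.mem_coe, Submodule.mem_bot]
      exact hcon f hf
    obtain ⟨j₀, hj₀, hpiv⟩ := ps_pivot H hp hA hdisc hC hf₀ hf₀I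
    set c₀ : Qb := lam j₀ f₀ with hc₀
    have hc₀I : ∀ σ ∈ A.inertiaSubgroupIn ℚ, σ c₀⁻¹ = c₀⁻¹ := by
      intro σ hσ
      rw [map_inv₀, ps_rat_lam hC hf₀I j₀ σ hσ]
    set w₀ : FLb N := algebraMap Qb (FLb N) c₀⁻¹ * f₀ with hw₀
    have hw₀V : w₀ ∈ V := by
      rw [hw₀, ← Algebra.smul_def]
      exact V.smul_mem _ hf₀V
    have hw₀I : IsUnrFn A N w₀ := isUnrFn_const_mul hc₀I hf₀I
    have hw₀lam : ∀ j, lam j w₀ = lam j f₀ * c₀⁻¹ := by
      intro j
      rw [hw₀, ps_lam_algebraMap_mul, mul_comm]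
    have hw₀piv : lam j₀ w₀ = 1 := by
      rw [hw₀lam, ← hc₀, mul_inv_cancel₀ hj₀]
    -- the hyperplane
    set φ : V →ₗ[Qb] Qb := (lam j₀).domRestrict V with hφ
    set V' : Submodule Qb (FLb N) := (LinearMap.ker φ).map V.subtype with hV'
    have hmemV' : ∀ f, f ∈ V' ↔ f ∈ V ∧ lam j₀ f = 0 := by
      intro f
      rw [hV', Submodule.mem_map]
      constructor
      · rintro ⟨x, hx, rfl⟩
        exact ⟨x.2, LinearMap.mem_ker.mp hx⟩
      · rintro ⟨h1, h2⟩
        exact ⟨⟨f, h1⟩, LinearMap.mem_ker.mpr h2, rfl⟩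
    have hV'le : V' ≤ V := fun f hf => ((hmemV' f).mp hf).1
    haveI hfin' : FiniteDimensional Qb V' := Submodule.finiteDimensional_of_le hV'le
    have hrange : LinearMap.range φ = ⊤ := by
      rw [LinearMap.range_eq_top]
      intro c
      refine ⟨c • ⟨w₀, hw₀V⟩, ?_⟩
      rw [map_smul, smul_eq_mul]
      show c * lam j₀ w₀ = c
      rw [hw₀piv, mul_one]
    have hd' : Module.finrank Qb V' = d := by
      have h1 := LinearMap.finrank_range_add_finrank_ker φ
      rw [hrange, finrank_top, Module.finrank_self, hd] at h1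
      have h2 : Module.finrank Qb V' = Module.finrank Qb (LinearMap.ker φ) :=
        (LinearEquiv.finrank_eq
          (Submodule.equivMapOfInjective V.subtype V.injective_subtype _)).symm
      omega
    -- `V'` is spanned by inertia-fixed elements
    have hV'rat : IsRatSpanned A N V' := by
      intro f hf
      obtain ⟨hfV, hf0⟩ := (hmemV' f).mp hf
      set π : FLb N →ₗ[Qb] FLb N := LinearMap.id - (lam j₀).smulRight w₀ with hπ
      have hπf : π f = f := by
        rw [hπ, LinearMap.sub_apply, LinearMap.id_apply, LinearMap.smulRight_apply, hf0,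
          zero_smul, sub_zero]
      have h1 : π f ∈ (Submodule.span Qb {f | f ∈ V ∧ IsUnrFn A N f}).map π :=
        Submodule.mem_map_of_mem (hV hfV)
      rw [Submodule.map_span] at h1
      rw [← hπf]
      refine Submodule.span_mono ?_ h1
      rintro _ ⟨s, ⟨hsV, hsI⟩, rfl⟩
      have hπs : π s = s - algebraMap Qb (FLb N) (lam j₀ s) * w₀ := by
        rw [hπ, LinearMap.sub_apply, LinearMap.id_apply, LinearMap.smulRight_apply,
          Algebra.smul_def]
      refine ⟨(hmemV' _).mpr ⟨?_, ?_⟩, ?_⟩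
      · rw [hπs, ← Algebra.smul_def]
        exact V.sub_mem hsV (V.smul_mem _ hw₀V)
      · rw [hπs, map_sub, ps_lam_algebraMap_mul, hw₀piv, mul_one, sub_self]
      · rw [hπs]
        exact isUnrFn_sub hsI (isUnrFn_const_mul (ps_rat_lam hC hsI j₀) hw₀I)
    obtain ⟨l', hlen, hmem, hpair⟩ := ih V' hfin' hd' hV'rat
    refine ⟨(j₀, w₀) :: l', by rw [List.length_cons, hlen], ?_, ?_⟩
    · intro a ha
      rcases List.mem_cons.mp ha with rfl | ha'
      · refine ⟨hw₀V, hw₀I, fun j => ?_, hw₀piv⟩
        rw [hw₀lam]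
        exact hpiv j
      · obtain ⟨h1, h2, h3, h4⟩ := hmem a ha'
        exact ⟨hV'le h1, h2, h3, h4⟩
    · refine List.pairwise_cons.mpr ⟨fun b hb => ?_, hpair⟩
      exact ((hmemV' _).mp (hmem b hb).1).2

/-! ### The triangular lemma -/

section tri

variable (A)

theorem ps_nonunits_sub {x y : Qb} (hx : x ∈ A.nonunits) (hy : y ∈ A.nonunits) :
    x - y ∈ A.nonunits := by
  rw [A.mem_nonunits_iff] at hx hy ⊢
  rw [sub_eq_add_neg]
  refine lt_of_le_of_lt (Valuation.map_add _ _ _) (max_lt hx ?_)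
  rwa [Valuation.map_neg]

theorem ps_nonunits_mul {x y : Qb} (hx : x ∈ A.nonunits) (hy : y ∈ A) :
    x * y ∈ A.nonunits := by
  rw [A.mem_nonunits_iff] at hx ⊢
  rw [map_mul]
  exact lt_of_le_of_lt (mul_le_of_le_one_right' ((A.valuation_le_one_iff _).mpr hy)) hx

end tri

/-- **The triangular lemma.** -/
theorem ps_tri (l : List (J × FLb N)) (hint : ∀ a ∈ l, ∀ j, lam j a.2 ∈ A)
    (hpiv : ∀ a ∈ l, lam a.1 a.2 = 1) (htri : l.Pairwise (fun a b => lam a.1 b.2 = 0))
    (c : Fin l.length → Qb)
    (hsum : ∀ j, lam j (∑ i, algebraMap Qb (FLb N) (c i) * (l.get i).2) ∈ A.nonunits) :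
    ∀ i, c i ∈ A.nonunits := by
  induction l with
  | nil => intro i; exact i.elim0
  | cons a l' ih =>
    have hsplit : ∀ j, lam j (∑ i, algebraMap Qb (FLb N) (c i) * ((a :: l').get i).2)
        = c 0 * lam j a.2
          + lam j (∑ i : Fin l'.length, algebraMap Qb (FLb N) (c i.succ) * (l'.get i).2) := by
      intro j
      have : (∑ i : Fin (a :: l').length,
            algebraMap Qb (FLb N) (c i) * ((a :: l').get i).2)
          = algebraMap Qb (FLb N) (c 0) * a.2
            + ∑ i : Fin l'.length, algebraMap Qb (FLb N) (c i.succ) * (l'.get i).2 :=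
        Fin.sum_univ_succ _
      rw [this, map_add, ps_lam_algebraMap_mul]
    have htail : ∀ b ∈ l', lam a.1 b.2 = 0 := (List.pairwise_cons.mp htri).1
    have hc0 : c 0 ∈ A.nonunits := by
      have h1 := hsum a.1
      rw [hsplit, hpiv a (List.mem_cons_self), mul_one, map_sum] at h1
      have h2 : ∑ i : Fin l'.length,
          lam a.1 (algebraMap Qb (FLb N) (c i.succ) * (l'.get i).2) = 0 := by
        refine Finset.sum_eq_zero fun i _ => ?_
        rw [ps_lam_algebraMap_mul, htail _ (List.get_mem l' i), mul_zero]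
      rw [h2, add_zero] at h1
      exact h1
    have ih' := ih (fun b hb => hint b (List.mem_cons_of_mem a hb))
      (fun b hb => hpiv b (List.mem_cons_of_mem a hb)) (List.pairwise_cons.mp htri).2
      (fun i => c i.succ) (fun j => by
        have h1 := hsum j
        rw [hsplit] at h1
        have h2 : lam j (∑ i : Fin l'.length,
            algebraMap Qb (FLb N) (c i.succ) * (l'.get i).2)
            = (c 0 * lam j a.2
              + lam j (∑ i : Fin l'.length,
                algebraMap Qb (FLb N) (c i.succ) * (l'.get i).2)) - c 0 * lam j a.2 := by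
          ring
        rw [h2]
        exact ps_nonunits_sub A h1 (ps_nonunits_mul A hc0 (hint a (List.mem_cons_self) j)))
    intro i
    refine Fin.cases hc0 (fun i' => ih' i') i

end Fermat.Agent.H18.ORD
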