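import Fermat.Agent.H18.ORD.NodalDivDefs
import Fermat.Agent.H18.ORD.NodalSemiElim
import Fermat.Agent.H19.FF.UnrResidueSurj

/-!
# P-ORD, block B1-LIFT (abstract side, helper18) : PAIR-SEMI from [DIV], the greedy step

* `PdM G V` : the inertia-fixed elements of `V ∩ V_∞ ∩ V_0`, `pdPair` : their reduction pairs;
* `pd_step` : a family of `m < dim V` elements of `PdM G V` with independent reduction pairs
  can be enlarged;
* `pd_family` : there is such a family with `dim V` elements.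
-/

set_option autoImplicit false
set_option linter.unusedSectionVars false
set_option linter.style.haveILetI false
set_option maxHeartbeats 1600000
set_option synthInstance.maxHeartbeats 400000

noncomputable section

open AlgebraicCurve ModularCurve

namespace Fermat.Agent.H18.ORD

open Fermat.Agent.H72.FF Fermat.Agent.H85.ORD Fermat.Agent.H94.ORD Fermat.Agent.H27.ESD

variable {N : ℕ} {A : ValuationSubring Qb} {Foo F0 : Type} [Field Foo] [Field F0]
  [Algebra (kRes A) Foo] [Algebra (kRes A) F0] {ι : Type}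
  {p : ℕ} {G : NodalData N A Foo F0 ι}

/-- a power of `p` in `A` has a nonnegative exponent -/
theorem pd_zpow_nonneg (hp : p.Prime) (hA : A.LiesOverPrime p) {n : ℤ}
    (h : (p : Qb) ^ n ∈ A) : 0 ≤ n := by
  have hpQ : (p : Qb) ≠ 0 := by exact_mod_cast hp.ne_zero
  by_contra hcon
  push Not at hcon
  have h2 : ((p : Qb) ^ n)⁻¹ ∈ A.nonunits := by
    obtain ⟨k, hk⟩ : ∃ k : ℕ, n = -((k : ℤ) + 1) := ⟨(-n - 1).toNat, by omega⟩
    rw [hk, zpow_neg, inv_inv]
    have : (p : Qb) ^ ((k : ℤ) + 1) = (p : Qb) ^ (k + 1) := by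
      rw [← zpow_natCast]; push_cast; rfl
    rw [this, A.mem_nonunits_iff, map_pow]
    exact pow_lt_one₀ zero_le ((A.mem_nonunits_iff).mp hA) (Nat.succ_ne_zero k)
  exact na_unit_not_mem_nonunits (inv_ne_zero (zpow_ne_zero _ hpQ))
    (by rw [inv_inv]; exact h) h2

/-- natural numbers are fixed by every automorphism -/
theorem pd_fix_natCast_zpow (n : ℤ) (σ : Qb ≃ₐ[ℚ] Qb) : σ ((p : Qb) ^ n) = (p : Qb) ^ n := by
  rw [map_zpow₀, map_natCast]

/-- the inertia-fixed elements of `V ∩ V_∞ ∩ V_0` -/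
def PdM (G : NodalData N A Foo F0 ι) (V : Submodule Qb (FLb N)) : Type :=
  {u : FLb N // u ∈ V ∧ IsUnrFn A N u ∧ u ∈ G.Voo ∧ u ∈ G.V0}

/-- the pair of reductions -/
def pdPair (G : NodalData N A Foo F0 ι) (V : Submodule Qb (FLb N)) (u : PdM G V) : Foo × F0 :=
  (G.redOo ⟨u.1, u.2.2.2.1⟩, G.red0 ⟨u.1, u.2.2.2.2⟩)

/-- scaling into `V_∞ ∩ V_0` by a power of `p` -/
theorem pd_exists_pow (H : NodalRvHyp p G) (hp : p.Prime) (hA : A.LiesOverPrime p)
    (f : FLb N) :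
    ∃ M : ℕ, algebraMap Qb (FLb N) ((p : Qb) ^ M) * f ∈ G.Voo ∧
      algebraMap Qb (FLb N) ((p : Qb) ^ M) * f ∈ G.V0 := by
  by_cases hf : f = 0
  · refine ⟨0, ?_, ?_⟩ <;> rw [hf, mul_zero] <;> exact Subring.zero_mem _
  obtain ⟨c, hc, h1, h2⟩ := H.exists_scale hf
  obtain ⟨M, hM⟩ := Fermat.Agent.H57.FF.exists_pow_mul_mem hp A hA c⁻¹
  have hMA := hM M le_rfl
  have key : algebraMap Qb (FLb N) ((p : Qb) ^ M) * f
      = algebraMap Qb (FLb N) ((p : Qb) ^ M * c⁻¹) * (algebraMap Qb (FLb N) c * f) := by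
    rw [← mul_assoc, ← map_mul, mul_assoc, inv_mul_cancel₀ hc, mul_one]
  refine ⟨M, ?_, ?_⟩
  · rw [key]
    exact G.Voo.mul_mem ((H.const_oo _).mpr hMA) h1
  · rw [key]
    exact G.V0.mul_mem ((H.const_zero _).mpr hMA) h2

/-- **the greedy step.** -/
theorem pd_step (H : NodalRvHyp p G) (hp : p.Prime) (hA : A.LiesOverPrime p)
    (hdiv : UnrDiv p G) {V : Submodule Qb (FLb N)} [FiniteDimensional Qb V]
    (hB : ∀ φ : FLb N →ₗ[Qb] Qb, ∃ M : ℕ, ∀ x ∈ V, x ∈ G.Voo → x ∈ G.V0 →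
      (p : Qb) ^ M * φ x ∈ A)
    (hrat : IsRatSpanned A N V) {m : ℕ} (hm : m < Module.finrank Qb V)
    (e : Fin m → PdM G V) :
    ∃ g : PdM G V,
      pdPair G V g ∉ Submodule.span (kRes A) (Set.range (fun i => pdPair G V (e i))) := by
  classical
  have hpQ : (p : Qb) ≠ 0 := by exact_mod_cast hp.ne_zero
  -- the span of the family
  set T : Submodule Qb (FLb N) := Submodule.span Qb (Set.range (fun i => (e i).1)) with hT
  have hTV : T ≤ V := by
    rw [hT, Submodule.span_le]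
    rintro _ ⟨i, rfl⟩
    exact (e i).2.1
  have hTfin : Module.finrank Qb T ≤ m := by
    have h1 := finrank_range_le_card (R := Qb) (fun i => (e i).1)
    rw [Fintype.card_fin] at h1
    exact h1
  -- an inertia-fixed element outside the span
  obtain ⟨f, hfV, hfI, hfT⟩ : ∃ f, f ∈ V ∧ IsUnrFn A N f ∧ f ∉ T := by
    by_contra hcon
    push Not at hcon
    have h1 : V ≤ T := by
      refine le_trans hrat (Submodule.span_le.mpr ?_)
      rintro x ⟨hxV, hxI⟩
      exact hcon x hxV hxI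
    haveI : FiniteDimensional Qb T := Submodule.finiteDimensional_of_le hTV
    have h2 := Submodule.finrank_mono h1
    omega
  -- the functional
  obtain ⟨φ, hφf, hφT⟩ := Submodule.exists_dual_map_eq_bot_of_notMem hfT inferInstance
  have hφe : ∀ i, φ (e i).1 = 0 := by
    intro i
    have h1 : φ (e i).1 ∈ Submodule.map φ T :=
      Submodule.mem_map_of_mem (Submodule.subset_span ⟨i, rfl⟩)
    rw [hφT, Submodule.mem_bot] at h1
    exact h1
  obtain ⟨M, hM⟩ := hB φ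
  -- the exponents
  let P : ℤ → Prop := fun k => ∃ g : PdM G V, φ g.1 * (p : Qb) ^ k = φ f
  have hex : ∃ k, P k := by
    obtain ⟨M₁, h1, h2⟩ := pd_exists_pow H hp hA f
    refine ⟨-(M₁ : ℤ), ⟨algebraMap Qb (FLb N) ((p : Qb) ^ M₁) * f, ?_, ?_, h1, h2⟩, ?_⟩
    · rw [← Algebra.smul_def]
      exact V.smul_mem _ hfV
    · refine isUnrFn_const_mul (fun σ _ => ?_) hfI
      rw [map_pow, map_natCast]
    · show φ (algebraMap Qb (FLb N) ((p : Qb) ^ M₁) * f) * (p : Qb) ^ (-(M₁ : ℤ)) = φ f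
      rw [← Algebra.smul_def, map_smul, smul_eq_mul, zpow_neg, zpow_natCast]
      field_simp
  obtain ⟨M₂, hM₂⟩ := Fermat.Agent.H57.FF.exists_pow_mul_mem hp A hA (φ f)⁻¹
  have hbdd : ∀ k, P k → k ≤ ((M + M₂ : ℕ) : ℤ) := by
    rintro k ⟨g, hg⟩
    have h1 := hM g.1 g.2.1 g.2.2.2.1 g.2.2.2.2
    have h2 := hM₂ M₂ le_rfl
    have h3 : (p : Qb) ^ (((M + M₂ : ℕ) : ℤ) - k) ∈ A := by
      have : (p : Qb) ^ (((M + M₂ : ℕ) : ℤ) - k)
          = ((p : Qb) ^ M * φ g.1) * ((p : Qb) ^ M₂ * (φ f)⁻¹) := by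
        rw [← hg, zpow_sub₀ hpQ, zpow_natCast, pow_add]
        have hg0 : φ g.1 ≠ 0 := by
          intro h0
          rw [h0, zero_mul] at hg
          exact hφf hg.symm
        have hk0 : (p : Qb) ^ k ≠ 0 := zpow_ne_zero _ hpQ
        field_simp
      rw [this]
      exact A.mul_mem _ _ h1 h2
    have := pd_zpow_nonneg hp hA h3
    omega
  obtain ⟨k₀, ⟨g, hg⟩, hmax⟩ := Int.exists_greatest_of_bdd ⟨_, hbdd⟩ hex
  refine ⟨g, fun hspan => ?_⟩
  obtain ⟨κ, hκ⟩ := (Submodule.mem_span_range_iff_exists_fun (kRes A)).mp hspan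
  -- inertia-fixed lifts of the coefficients
  choose c hcI hc using fun i => Fermat.Agent.H19.FF.unrResidueSurj p A hp hA (κ i)
  have hcoo : ∀ i, algebraMap Qb (FLb N) (c i : Qb) ∈ G.Voo :=
    fun i => (H.const_oo _).mpr (c i).2
  have hc0 : ∀ i, algebraMap Qb (FLb N) (c i : Qb) ∈ G.V0 :=
    fun i => (H.const_zero _).mpr (c i).2
  set Uoo : G.Voo := ⟨g.1, g.2.2.2.1⟩ - ∑ i, (⟨_, hcoo i⟩ : G.Voo) * ⟨(e i).1, (e i).2.2.2.1⟩
    with hUoo
  set U0 : G.V0 := ⟨g.1, g.2.2.2.2⟩ - ∑ i, (⟨_, hc0 i⟩ : G.V0) * ⟨(e i).1, (e i).2.2.2.2⟩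
    with hU0
  set u : FLb N := g.1 - ∑ i, algebraMap Qb (FLb N) (c i : Qb) * (e i).1 with hu
  have hUoo_coe : (Uoo : FLb N) = u := by
    rw [hUoo, hu, AddSubgroupClass.coe_sub, AddSubmonoidClass.coe_finsetSum]
    rfl
  have hU0_coe : (U0 : FLb N) = u := by
    rw [hU0, hu, AddSubgroupClass.coe_sub, AddSubmonoidClass.coe_finsetSum]
    rfl
  have hredoo : G.redOo Uoo = 0 := by
    have h1 : (∑ i, κ i • pdPair G V (e i)).1 = (pdPair G V g).1 := by rw [hκ]
    rw [Prod.fst_sum] at h1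
    rw [hUoo, map_sub, map_sum, sub_eq_zero]
    refine Eq.trans ?_ (Eq.trans h1.symm ?_)
    · rfl
    · refine Finset.sum_congr rfl fun i _ => ?_
      rw [map_mul, H.red_const_oo (c i) (hcoo i), hc i, Prod.smul_fst, Algebra.smul_def]
      rfl
  have hred0 : G.red0 U0 = 0 := by
    have h1 : (∑ i, κ i • pdPair G V (e i)).2 = (pdPair G V g).2 := by rw [hκ]
    rw [Prod.snd_sum] at h1
    rw [hU0, map_sub, map_sum, sub_eq_zero]
    refine Eq.trans ?_ (Eq.trans h1.symm ?_)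
    · rfl
    · refine Finset.sum_congr rfl fun i _ => ?_
      rw [map_mul, H.red_const_zero (c i) (hc0 i), hc i, Prod.smul_snd, Algebra.smul_def]
      rfl
  have huoo : u ∈ G.Voo := hUoo_coe ▸ Uoo.2
  have hu0 : u ∈ G.V0 := hU0_coe ▸ U0.2
  have h1 : G.redOo ⟨u, huoo⟩ = 0 := by
    rw [← hredoo]
    exact congrArg G.redOo (Subtype.ext hUoo_coe.symm)
  have h2 : G.red0 ⟨u, hu0⟩ = 0 := by
    rw [← hred0]
    exact congrArg G.red0 (Subtype.ext hU0_coe.symm)
  have huV : u ∈ V := by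
    rw [hu]
    refine V.sub_mem g.2.1 (V.sum_mem fun i _ => ?_)
    rw [← Algebra.smul_def]
    exact V.smul_mem _ (e i).2.1
  have huI : IsUnrFn A N u := by
    rw [hu]
    refine isUnrFn_sub g.2.2.1 (isUnrFn_sum _ _ fun i _ => ?_)
    exact isUnrFn_const_mul (mem_unrInt.mp (hcI i)).2 (e i).2.2.1
  obtain ⟨h3, h4⟩ := hdiv u huoo hu0 huI h1 h2
  -- the new element
  have hφu : φ u = φ g.1 := by
    rw [hu, map_sub, map_sum]
    have : ∑ i, φ (algebraMap Qb (FLb N) (c i : Qb) * (e i).1) = 0 := by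
      refine Finset.sum_eq_zero fun i _ => ?_
      rw [← Algebra.smul_def, map_smul, hφe, smul_zero]
    rw [this, sub_zero]
  have hP : P (k₀ + 1) := by
    refine ⟨⟨algebraMap Qb (FLb N) (p : Qb)⁻¹ * u, ?_, ?_, h3, h4⟩, ?_⟩
    · rw [← Algebra.smul_def]
      exact V.smul_mem _ huV
    · refine isUnrFn_const_mul (fun σ _ => ?_) huI
      rw [map_inv₀, map_natCast]
    · show φ (algebraMap Qb (FLb N) (p : Qb)⁻¹ * u) * (p : Qb) ^ (k₀ + 1) = φ f
      rw [← Algebra.smul_def, map_smul, smul_eq_mul, hφu, ← hg, zpow_add₀ hpQ, zpow_one]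
      field_simp
  have := hmax _ hP
  omega

/-- **the greedy family.** -/
theorem pd_family (H : NodalRvHyp p G) (hp : p.Prime) (hA : A.LiesOverPrime p)
    (hdiv : UnrDiv p G) {V : Submodule Qb (FLb N)} [FiniteDimensional Qb V]
    (hB : ∀ φ : FLb N →ₗ[Qb] Qb, ∃ M : ℕ, ∀ x ∈ V, x ∈ G.Voo → x ∈ G.V0 →
      (p : Qb) ^ M * φ x ∈ A)
    (hrat : IsRatSpanned A N V) :
    ∀ m : ℕ, m ≤ Module.finrank Qb V →
      ∃ e : Fin m → PdM G V, LinearIndependent (kRes A) (fun i => pdPair G V (e i)) := by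
  intro m
  induction m with
  | zero =>
    intro _
    exact ⟨fun i => i.elim0, linearIndependent_empty_type⟩
  | succ m ih =>
    intro hm
    obtain ⟨e, he⟩ := ih (by omega)
    obtain ⟨g, hg⟩ := pd_step H hp hA hdiv hB hrat (by omega) e
    refine ⟨Fin.cons g e, ?_⟩
    have hfun : (fun i => pdPair G V ((Fin.cons g e : Fin (m + 1) → PdM G V) i))
        = Fin.cons (pdPair G V g) (fun i => pdPair G V (e i)) := by
      funext i
      refine Fin.cases ?_ (fun j => ?_) i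
      · rfl
      · rfl
    rw [hfun]
    exact linearIndependent_finCons.mpr ⟨he, hg⟩

end Fermat.Agent.H18.ORD
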