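import Fermat.Agent.H18.ORD.NodalDivDefs
import Fermat.Agent.H23.ORD.PairG3Abs
import Fermat.Agent.H87.ORD.NodalNC
import Fermat.Agent.H57.FF.Cramer

/-!
# P-ORD, block B1-LIFT (abstract side, helper18) : [COORD]

* `pd_coord_int` : the coordinates of an element of `V_∞ ∩ V_0` in a family with independent
  reduction pairs are integral;
* `pairBounded` : `PairBoundedStatement`.
-/

set_option autoImplicit false
set_option linter.unusedSectionVars false
set_option linter.style.haveILetI false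
set_option maxHeartbeats 1600000
set_option synthInstance.maxHeartbeats 400000

noncomputable section

open AlgebraicCurve ModularCurve

namespace Fermat.Agent.H18.ORD

open Fermat.Agent.H72.FF Fermat.Agent.H85.ORD Fermat.Agent.H94.ORD Fermat.Agent.H27.ESD

variable {N : ℕ} {A : ValuationSubring Qb} {Foo F0 : Type} [Field Foo] [Field F0]
  [Algebra (kRes A) Foo] [Algebra (kRes A) F0] {ι : Type}
  {p : ℕ} {G : NodalData N A Foo F0 ι}

/-- the coordinates of an element of `V_∞ ∩ V_0` in a family with independent reduction pairs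
are integral -/
theorem pd_coord_int (H : NodalRvHyp p G) {d : ℕ} (w : Fin d → FLb N)
    (hwoo : ∀ i, w i ∈ G.Voo) (hw0 : ∀ i, w i ∈ G.V0)
    (hli : LinearIndependent (kRes A)
      (fun i => ((G.redOo ⟨w i, hwoo i⟩, G.red0 ⟨w i, hw0 i⟩) : Foo × F0)))
    (a : Fin d → Qb) (hx : ∑ j, algebraMap Qb (FLb N) (a j) * w j ∈ G.Voo)
    (hx0 : ∑ j, algebraMap Qb (FLb N) (a j) * w j ∈ G.V0) : ∀ j, a j ∈ A := by
  classical
  by_contra hcon
  push Not at hcon
  obtain ⟨j, hj⟩ := hcon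
  obtain ⟨i₀, hi₀, hdom⟩ := Fermat.Agent.H23.ORD.pg_exists_dominant A a
    ⟨j, fun h => hj (h ▸ A.zero_mem)⟩
  have hi₀A : a i₀ ∉ A := by
    intro h
    apply hj
    have h1 := A.mul_mem _ _ (hdom j) h
    rwa [inv_mul_cancel_right₀ hi₀] at h1
  have hinv : (a i₀)⁻¹ ∈ A.nonunits := Fermat.Agent.H23.ORD.pg_inv_mem_nonunits A hi₀A
  have hinvA : (a i₀)⁻¹ ∈ A := A.nonunits_subset hinv
  set c : Fin d → A := fun i => ⟨a i * (a i₀)⁻¹, hdom i⟩ with hc
  have hcoo : ∀ i, algebraMap Qb (FLb N) (c i : Qb) ∈ G.Voo :=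
    fun i => (H.const_oo _).mpr (c i).2
  have hc0 : ∀ i, algebraMap Qb (FLb N) (c i : Qb) ∈ G.V0 :=
    fun i => (H.const_zero _).mpr (c i).2
  have hboo : algebraMap Qb (FLb N) (a i₀)⁻¹ ∈ G.Voo := (H.const_oo _).mpr hinvA
  have hb0 : algebraMap Qb (FLb N) (a i₀)⁻¹ ∈ G.V0 := (H.const_zero _).mpr hinvA
  have hres : IsLocalRing.residue A ⟨(a i₀)⁻¹, hinvA⟩ = 0 := by
    rw [IsLocalRing.residue_eq_zero_iff, ← ValuationSubring.coe_mem_nonunits_iff]
    exact hinv
  -- the two expressions of the scaled element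
  have hYoo : (∑ i, (⟨_, hcoo i⟩ : G.Voo) * ⟨w i, hwoo i⟩)
      = (⟨_, hboo⟩ : G.Voo) * ⟨_, hx⟩ := by
    apply Subtype.ext
    rw [AddSubmonoidClass.coe_finsetSum, Subring.coe_mul]
    show ∑ i, algebraMap Qb (FLb N) (a i * (a i₀)⁻¹) * w i
      = algebraMap Qb (FLb N) (a i₀)⁻¹ * ∑ j, algebraMap Qb (FLb N) (a j) * w j
    rw [Finset.mul_sum]
    refine Finset.sum_congr rfl fun i _ => ?_
    rw [map_mul]; ring
  have hY0 : (∑ i, (⟨_, hc0 i⟩ : G.V0) * ⟨w i, hw0 i⟩)
      = (⟨_, hb0⟩ : G.V0) * ⟨_, hx0⟩ := by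
    apply Subtype.ext
    rw [AddSubmonoidClass.coe_finsetSum, Subring.coe_mul]
    show ∑ i, algebraMap Qb (FLb N) (a i * (a i₀)⁻¹) * w i
      = algebraMap Qb (FLb N) (a i₀)⁻¹ * ∑ j, algebraMap Qb (FLb N) (a j) * w j
    rw [Finset.mul_sum]
    refine Finset.sum_congr rfl fun i _ => ?_
    rw [map_mul]; ring
  have h1 : ∑ i, IsLocalRing.residue A (c i) • G.redOo ⟨w i, hwoo i⟩ = 0 := by
    have h2 := congrArg G.redOo hYoo
    rw [map_sum, map_mul, H.red_const_oo ⟨(a i₀)⁻¹, hinvA⟩ hboo, hres, map_zero, zero_mul]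
      at h2
    rw [← h2]
    refine Finset.sum_congr rfl fun i _ => ?_
    rw [map_mul, H.red_const_oo (c i) (hcoo i), Algebra.smul_def]
  have h2 : ∑ i, IsLocalRing.residue A (c i) • G.red0 ⟨w i, hw0 i⟩ = 0 := by
    have h2 := congrArg G.red0 hY0
    rw [map_sum, map_mul, H.red_const_zero ⟨(a i₀)⁻¹, hinvA⟩ hb0, hres, map_zero, zero_mul]
      at h2
    rw [← h2]
    refine Finset.sum_congr rfl fun i _ => ?_
    rw [map_mul, H.red_const_zero (c i) (hc0 i), Algebra.smul_def]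
  have h3 : ∑ i, IsLocalRing.residue A (c i) •
      ((G.redOo ⟨w i, hwoo i⟩, G.red0 ⟨w i, hw0 i⟩) : Foo × F0) = 0 := by
    refine Prod.ext ?_ ?_
    · rw [Prod.fst_sum]
      exact h1
    · rw [Prod.snd_sum]
      exact h2
  have h4 := (Fintype.linearIndependent_iff.mp hli) _ h3 i₀
  have h5 : c i₀ = 1 := by
    apply Subtype.ext
    show a i₀ * (a i₀)⁻¹ = 1
    exact mul_inv_cancel₀ hi₀
  rw [h5, map_one] at h4
  exact one_ne_zero h4

/-- **[COORD]** -/
theorem pairBounded : PairBoundedStatement := by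
  intro N p A Foo F0 _ _ _ _ ι G hp hA H V hfin hg3 φ
  classical
  haveI := hfin
  obtain ⟨ua, ub, hab, hV, hli⟩ := hg3
  set w : Fin (Module.finrank Qb V) → FLb N := fun i => (ua i : FLb N) with hw
  have hwoo : ∀ i, w i ∈ G.Voo := fun i => (ua i).2
  have hw0 : ∀ i, w i ∈ G.V0 := fun i => by
    show ((ua i : G.Voo) : FLb N) ∈ G.V0
    rw [hab i]
    exact (ub i).2
  have hli' : LinearIndependent (kRes A)
      (fun i => ((G.redOo ⟨w i, hwoo i⟩, G.red0 ⟨w i, hw0 i⟩) : Foo × F0)) := by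
    have : (fun i => ((G.redOo ⟨w i, hwoo i⟩, G.red0 ⟨w i, hw0 i⟩) : Foo × F0))
        = fun i => (G.redOo (ua i), G.red0 (ub i)) := by
      funext i
      refine Prod.ext rfl ?_
      exact congrArg G.red0 (Subtype.ext (hab i))
    rw [this]
    exact hli
  have hQ : LinearIndependent Qb w :=
    Fermat.Agent.H87.ORD.nc_lift_indep G (fun c hc => (H.const_oo c).mpr hc)
      (fun c hc => (H.const_zero c).mpr hc) H.red_const_oo H.red_const_zero w hwoo hw0 hli'
  have hspan : Submodule.span Qb (Set.range w) = V := by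
    refine Submodule.eq_of_le_of_finrank_le ?_ ?_
    · rw [Submodule.span_le]
      rintro _ ⟨i, rfl⟩
      exact hV i
    · rw [finrank_span_eq_card hQ, Fintype.card_fin]
  obtain ⟨M, hM⟩ := Fermat.Agent.H57.FF.exists_pow_mul_mem_finite hp A hA (fun j => φ (w j))
  refine ⟨M, fun x hxV hxoo hx0 => ?_⟩
  rw [← hspan] at hxV
  obtain ⟨a, ha⟩ := (Submodule.mem_span_range_iff_exists_fun Qb).mp hxV
  have ha' : ∑ j, algebraMap Qb (FLb N) (a j) * w j = x := by
    rw [← ha]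
    refine Finset.sum_congr rfl fun j _ => ?_
    rw [Algebra.smul_def]
  have hint := pd_coord_int H w hwoo hw0 hli' a (by rw [ha']; exact hxoo)
    (by rw [ha']; exact hx0)
  have hφ : (p : Qb) ^ M * φ x = ∑ j, a j * ((p : Qb) ^ M * φ (w j)) := by
    rw [← ha, map_sum, Finset.mul_sum]
    refine Finset.sum_congr rfl fun j _ => ?_
    rw [map_smul, smul_eq_mul]; ring
  rw [hφ]
  exact A.toSubring.sum_mem fun j _ => A.mul_mem _ _ (hint j) (hM j)

end Fermat.Agent.H18.ORD
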