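import Fermat.Agent.H18.ORD.NodalDiv
import Fermat.Agent.H18.ORD.NodalDivCoord
import Fermat.Agent.H37.ORD.RRDescent

/-!
# P-ORD, block B1-LIFT (abstract side, helper18) : PAIR-SEMI from [DIV]

* `pairSemiAt_of_div` / `pairSemiDiv` : **(PAIR-SEMI)** from `UnrDiv` and the pair (G3);
* `unrDivOo_of_norm`, `unrDivZero_of_norm`, `unrDiv_of_norm` : `UnrDiv` from the normal form
  of the inertia-fixed functions (`p ^ n * f` is a unit of the Gauss ring);
* `pairSemiAt_of_norm` : (PAIR-SEMI) from the normal forms.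
-/

set_option autoImplicit false
set_option linter.unusedSectionVars false
set_option linter.style.haveILetI false
set_option maxHeartbeats 1600000
set_option synthInstance.maxHeartbeats 400000

noncomputable section

open AlgebraicCurve ModularCurve

namespace Fermat.Agent.H18.ORD

open Fermat.Agent.H72.FF Fermat.Agent.H85.ORD Fermat.Agent.H94.ORD Fermat.Agent.H27.ESD

variable {N : ℕ} {A : ValuationSubring Qb} {Foo F0 : Type} [Field Foo] [Field F0]
  [Algebra (kRes A) Foo] [Algebra (kRes A) F0] {ι : Type}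
  {p : ℕ} {G : NodalData N A Foo F0 ι}

/-- **(PAIR-SEMI) from [DIV] and the pair (G3).** -/
theorem pairSemiAt_of_div (H : NodalRvHyp p G) (hp : p.Prime) (hA : A.LiesOverPrime p)
    (hdiv : UnrDiv p G)
    (hg3 : ∀ V : Submodule Qb (FLb N), FiniteDimensional Qb V → PairG3On G V) {g : ℕ}
    (pkL : RiemannPackage Qb (FLb N) g) {Poo P0 : Place Qb (FLb N)}
    (hPoo : IsUnrPlace A N Poo) (hP0 : IsUnrPlace A N P0) :
    PairSemiAt G Poo P0 := by
  intro n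
  unfold twoPt
  haveI hfin : FiniteDimensional Qb (riemannRochSpace
      (Finsupp.single Poo (n : ℤ) + Finsupp.single P0 (n : ℤ) : Divisor Qb (FLb N))) :=
    pkL.finite _
  obtain ⟨f, hfV, hfI, -, hspan⟩ :=
    Fermat.Agent.H37.ORD.rr_descent_two_points A N Poo P0 hPoo hP0 (n : ℤ) (n : ℤ)
  have hrat : IsRatSpanned A N (riemannRochSpace
      (Finsupp.single Poo (n : ℤ) + Finsupp.single P0 (n : ℤ) : Divisor Qb (FLb N))) := by
    intro x hx
    have hx' : x ∈ Submodule.span Qb (Set.range f) := by rw [hspan]; exact hx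
    refine Submodule.span_mono ?_ hx'
    rintro _ ⟨i, rfl⟩
    exact ⟨hfV i, hfI i⟩
  obtain ⟨e, he⟩ := pd_family H hp hA hdiv
    (pairBounded N p A Foo F0 ι G hp hA H _ hfin (hg3 _ hfin)) hrat _ le_rfl
  exact ⟨fun i => ⟨(e i).1, (e i).2.2.2.1⟩, fun i => ⟨(e i).1, (e i).2.2.2.2⟩, fun i => rfl,
    fun i => (e i).2.2.1, fun i => (e i).2.1, he⟩

/-- **(PAIR-SEMI) from [DIV] and the pair (G3)**, statement form. -/
theorem pairSemiDiv : PairSemiDivStatement := by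
  intro N p A Foo F0 _ _ _ _ ι G g hp hA H hdiv hg3 pkL Poo P0 hPoo hP0
  exact pairSemiAt_of_div H hp hA hdiv hg3 pkL hPoo hP0

/-! ### [DIV] from the normal form of the inertia-fixed functions -/

/-- [DIV] at `∞` from the normal form -/
theorem unrDivOo_of_norm (H : NodalRvHyp p G) (hp : p.Prime) (hA : A.LiesOverPrime p)
    (hn : ∀ f : FLb N, f ≠ 0 → IsUnrFn A N f →
      ∃ (n : ℤ) (h : algebraMap Qb (FLb N) ((p : Qb) ^ n) * f ∈ G.Voo), G.redOo ⟨_, h⟩ ≠ 0) :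
    UnrDivOo p G := by
  intro u hu huI hred
  have hpQ : (p : Qb) ≠ 0 := by exact_mod_cast hp.ne_zero
  have hpA : (p : Qb) ∈ A := A.nonunits_subset hA
  by_cases hu0 : u = 0
  · rw [hu0, mul_zero]
    exact G.Voo.zero_mem
  obtain ⟨n, h, hne⟩ := hn u hu0 huI
  have hneg : n ≤ -1 := by
    by_contra hcon
    push Not at hcon
    obtain ⟨k, hk⟩ : ∃ k : ℕ, n = (k : ℤ) := ⟨n.toNat, by omega⟩
    apply hne
    have hkA : algebraMap Qb (FLb N) ((p : Qb) ^ n) ∈ G.Voo := by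
      rw [hk, zpow_natCast]
      exact (H.const_oo _).mpr (pow_mem hpA k)
    have : (⟨_, h⟩ : G.Voo) = ⟨_, hkA⟩ * ⟨u, hu⟩ := Subtype.ext rfl
    rw [this, map_mul, hred, mul_zero]
  obtain ⟨k, hk⟩ : ∃ k : ℕ, -1 - n = (k : ℤ) := ⟨(-1 - n).toNat, by omega⟩
  have key : algebraMap Qb (FLb N) (p : Qb)⁻¹ * u
      = algebraMap Qb (FLb N) ((p : Qb) ^ k) * (algebraMap Qb (FLb N) ((p : Qb) ^ n) * u) := by
    rw [← mul_assoc, ← map_mul]
    congr 2
    rw [← zpow_natCast, ← hk, ← zpow_add₀ hpQ]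
    have : -1 - n + n = -1 := by ring
    rw [this, zpow_neg_one]
  rw [key]
  exact G.Voo.mul_mem ((H.const_oo _).mpr (pow_mem hpA k)) h

/-- [DIV] at `0` from the normal form -/
theorem unrDivZero_of_norm (H : NodalRvHyp p G) (hp : p.Prime) (hA : A.LiesOverPrime p)
    (hn : ∀ f : FLb N, f ≠ 0 → IsUnrFn A N f →
      ∃ (n : ℤ) (h : algebraMap Qb (FLb N) ((p : Qb) ^ n) * f ∈ G.V0), G.red0 ⟨_, h⟩ ≠ 0) :
    UnrDivZero p G := by
  intro u hu huI hred
  have hpQ : (p : Qb) ≠ 0 := by exact_mod_cast hp.ne_zero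
  have hpA : (p : Qb) ∈ A := A.nonunits_subset hA
  by_cases hu0 : u = 0
  · rw [hu0, mul_zero]
    exact G.V0.zero_mem
  obtain ⟨n, h, hne⟩ := hn u hu0 huI
  have hneg : n ≤ -1 := by
    by_contra hcon
    push Not at hcon
    obtain ⟨k, hk⟩ : ∃ k : ℕ, n = (k : ℤ) := ⟨n.toNat, by omega⟩
    apply hne
    have hkA : algebraMap Qb (FLb N) ((p : Qb) ^ n) ∈ G.V0 := by
      rw [hk, zpow_natCast]
      exact (H.const_zero _).mpr (pow_mem hpA k)
    have : (⟨_, h⟩ : G.V0) = ⟨_, hkA⟩ * ⟨u, hu⟩ := Subtype.ext rfl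
    rw [this, map_mul, hred, mul_zero]
  obtain ⟨k, hk⟩ : ∃ k : ℕ, -1 - n = (k : ℤ) := ⟨(-1 - n).toNat, by omega⟩
  have key : algebraMap Qb (FLb N) (p : Qb)⁻¹ * u
      = algebraMap Qb (FLb N) ((p : Qb) ^ k) * (algebraMap Qb (FLb N) ((p : Qb) ^ n) * u) := by
    rw [← mul_assoc, ← map_mul]
    congr 2
    rw [← zpow_natCast, ← hk, ← zpow_add₀ hpQ]
    have : -1 - n + n = -1 := by ring
    rw [this, zpow_neg_one]
  rw [key]
  exact G.V0.mul_mem ((H.const_zero _).mpr (pow_mem hpA k)) h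

/-- [DIV] from the two normal forms -/
theorem unrDiv_of_norm (H : NodalRvHyp p G) (hp : p.Prime) (hA : A.LiesOverPrime p)
    (hoo : ∀ f : FLb N, f ≠ 0 → IsUnrFn A N f →
      ∃ (n : ℤ) (h : algebraMap Qb (FLb N) ((p : Qb) ^ n) * f ∈ G.Voo), G.redOo ⟨_, h⟩ ≠ 0)
    (h0 : ∀ f : FLb N, f ≠ 0 → IsUnrFn A N f →
      ∃ (n : ℤ) (h : algebraMap Qb (FLb N) ((p : Qb) ^ n) * f ∈ G.V0), G.red0 ⟨_, h⟩ ≠ 0) :
    UnrDiv p G :=
  unrDiv_of_components (unrDivOo_of_norm H hp hA hoo) (unrDivZero_of_norm H hp hA h0)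

/-- **(PAIR-SEMI) from the normal forms of the inertia-fixed functions and the pair (G3).** -/
theorem pairSemiAt_of_norm (H : NodalRvHyp p G) (hp : p.Prime) (hA : A.LiesOverPrime p)
    (hoo : ∀ f : FLb N, f ≠ 0 → IsUnrFn A N f →
      ∃ (n : ℤ) (h : algebraMap Qb (FLb N) ((p : Qb) ^ n) * f ∈ G.Voo), G.redOo ⟨_, h⟩ ≠ 0)
    (h0 : ∀ f : FLb N, f ≠ 0 → IsUnrFn A N f →
      ∃ (n : ℤ) (h : algebraMap Qb (FLb N) ((p : Qb) ^ n) * f ∈ G.V0), G.red0 ⟨_, h⟩ ≠ 0)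
    (hg3 : ∀ V : Submodule Qb (FLb N), FiniteDimensional Qb V → PairG3On G V) {g : ℕ}
    (pkL : RiemannPackage Qb (FLb N) g) {Poo P0 : Place Qb (FLb N)}
    (hPoo : IsUnrPlace A N Poo) (hP0 : IsUnrPlace A N P0) :
    PairSemiAt G Poo P0 :=
  pairSemiAt_of_div H hp hA (unrDiv_of_norm H hp hA hoo h0) hg3 pkL hPoo hP0

end Fermat.Agent.H18.ORD
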