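import Fermat.Agent.H18.ORD.NodalLiftDefs
import Fermat.Agent.H18.ORD.NodalBal
import Fermat.Agent.H85.ORD.NodalSwap
import Fermat.Agent.H94.ORD.MoveComb

/-!
# P-ORD, block B1-LIFT (abstract side, helper18) : glued pairs, CONTAIN, the concrete inputs

Findings #553.  On top of `NodalRvHyp` :

* `pushOo G D`, `pushZero G D` : the push-forward of a divisor of `F = ℚ̄(X₀(N))` to the smooth
  points of `C_∞`, `C_0`;
* `gluedSpace G Doo D0` : the `k`-space of glued pairs `(x, y) ∈ L(Doo) × L(D0)`;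
* **CONTAIN** `NodalRvHyp.contain` : for `u ∈ V_∞ ∩ V_0 ∩ L(D)`, `D` without point over a node,
  the pair of reductions is a glued pair of `L(r_* D) × L(r_* D)`;
* the three CONCRETE inputs of the lifting theorem, as `Prop`s :
  - `AnchorLift G` : glued pairs lift for the multiples of ONE divisor `D₀` (the cuspidal
    divisor of the charts);
  - `NodalCoeff G J lam` : coefficient functionals (`q`-expansion coefficients at both cusps);
  - `UnrDisc p A` : the inertia field is discretely valued with uniformiser `p`.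
-/

set_option autoImplicit false
set_option linter.unusedSectionVars false
set_option maxHeartbeats 1600000

noncomputable section

open AlgebraicCurve ModularCurve

namespace Fermat.Agent.H18.ORD

open Fermat.Agent.H72.FF Fermat.Agent.H85.ORD Fermat.Agent.H94.ORD

variable {N : ℕ} {A : ValuationSubring Qb} {Foo F0 : Type} [Field Foo] [Field F0]
  [Algebra (kRes A) Foo] [Algebra (kRes A) F0] {ι : Type}

/-! ### Push-forward of divisors -/

/-- push-forward of a divisor to the smooth points of `C_∞` -/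
def pushOo (G : NodalData N A Foo F0 ι) (D : Divisor Qb (FLb N)) : Divisor (kRes A) Foo :=
  Finsupp.comapDomain NPt.oo (Finsupp.mapDomain G.r D) (fun _ _ _ _ h => NPt.oo.inj h)

/-- push-forward of a divisor to the smooth points of `C_0` -/
def pushZero (G : NodalData N A Foo F0 ι) (D : Divisor Qb (FLb N)) : Divisor (kRes A) F0 :=
  Finsupp.comapDomain NPt.zero (Finsupp.mapDomain G.r D) (fun _ _ _ _ h => NPt.zero.inj h)

theorem pushOo_apply (G : NodalData N A Foo F0 ι) (D : Divisor Qb (FLb N))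
    (Q : Place (kRes A) Foo) : pushOo G D Q = Finsupp.mapDomain G.r D (NPt.oo Q) := rfl

theorem pushZero_apply (G : NodalData N A Foo F0 ι) (D : Divisor Qb (FLb N))
    (Q : Place (kRes A) F0) : pushZero G D Q = Finsupp.mapDomain G.r D (NPt.zero Q) := rfl

theorem pushOo_swap (G : NodalData N A Foo F0 ι) (D : Divisor Qb (FLb N)) :
    pushOo (swapData G) D = pushZero G D := by
  ext Q
  rw [pushOo_apply, pushZero_apply]
  exact mapDomain_swap G D (NPt.zero Q)

theorem pushZero_swap (G : NodalData N A Foo F0 ι) (D : Divisor Qb (FLb N)) :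
    pushZero (swapData G) D = pushOo G D := by
  ext Q
  rw [pushOo_apply, pushZero_apply]
  exact mapDomain_swap G D (NPt.oo Q)

/-! ### Glued pairs -/

section nonunits

variable {K F : Type*} [Field K] [Field F] [Algebra K F]

theorem ng_nonunits_add (v : Place K F) {x y : F} (hx : x ∈ v.toValuationSubring.nonunits)
    (hy : y ∈ v.toValuationSubring.nonunits) : x + y ∈ v.toValuationSubring.nonunits := by
  rw [ValuationSubring.mem_nonunits_iff] at hx hy ⊢
  exact lt_of_le_of_lt (Valuation.map_add _ _ _) (max_lt hx hy)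

theorem ng_nonunits_const_mul (v : Place K F) (c : K) {x : F}
    (hx : x ∈ v.toValuationSubring.nonunits) :
    algebraMap K F c * x ∈ v.toValuationSubring.nonunits := by
  rw [ValuationSubring.mem_nonunits_iff] at hx ⊢
  rw [map_mul]
  have h1 : v.toValuationSubring.valuation (algebraMap K F c) ≤ 1 :=
    (ValuationSubring.valuation_le_one_iff _ _).mpr (v.algebraMap_mem' c)
  exact lt_of_le_of_lt (mul_le_of_le_one_left' h1) hx

theorem ng_zero_mem_nonunits (v : Place K F) : (0 : F) ∈ v.toValuationSubring.nonunits :=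
  (nb_mem_nonunits_iff v 0).mpr (Or.inl rfl)

end nonunits

theorem isGlued_zero (G : NodalData N A Foo F0 ι) : IsGlued G 0 0 := fun ν =>
  ⟨0, by rw [map_zero, sub_zero]; exact ng_zero_mem_nonunits _,
    by rw [map_zero, sub_zero]; exact ng_zero_mem_nonunits _⟩

theorem IsGlued.add {G : NodalData N A Foo F0 ι} {x x' : Foo} {y y' : F0}
    (h : IsGlued G x y) (h' : IsGlued G x' y') : IsGlued G (x + x') (y + y') := by
  intro ν
  obtain ⟨κ, h1, h2⟩ := h ν
  obtain ⟨κ', h1', h2'⟩ := h' ν
  refine ⟨κ + κ', ?_, ?_⟩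
  · have : x + x' - algebraMap (kRes A) Foo (κ + κ')
        = (x - algebraMap (kRes A) Foo κ) + (x' - algebraMap (kRes A) Foo κ') := by
      rw [map_add]; ring
    rw [this]
    exact ng_nonunits_add _ h1 h1'
  · have : y + y' - algebraMap (kRes A) F0 (κ + κ')
        = (y - algebraMap (kRes A) F0 κ) + (y' - algebraMap (kRes A) F0 κ') := by
      rw [map_add]; ring
    rw [this]
    exact ng_nonunits_add _ h2 h2'

theorem IsGlued.smul {G : NodalData N A Foo F0 ι} {x : Foo} {y : F0}
    (h : IsGlued G x y) (c : kRes A) : IsGlued G (c • x) (c • y) := by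
  intro ν
  obtain ⟨κ, h1, h2⟩ := h ν
  refine ⟨c * κ, ?_, ?_⟩
  · have : c • x - algebraMap (kRes A) Foo (c * κ)
        = algebraMap (kRes A) Foo c * (x - algebraMap (kRes A) Foo κ) := by
      rw [map_mul, Algebra.smul_def]; ring
    rw [this]
    exact ng_nonunits_const_mul _ c h1
  · have : c • y - algebraMap (kRes A) F0 (c * κ)
        = algebraMap (kRes A) F0 c * (y - algebraMap (kRes A) F0 κ) := by
      rw [map_mul, Algebra.smul_def]; ring
    rw [this]
    exact ng_nonunits_const_mul _ c h2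

/-- the `k`-space of glued pairs of `L(Doo) × L(D0)` -/
def gluedSpace (G : NodalData N A Foo F0 ι) (Doo : Divisor (kRes A) Foo)
    (D0 : Divisor (kRes A) F0) : Submodule (kRes A) (Foo × F0) where
  carrier := {z | z.1 ∈ riemannRochSpace Doo ∧ z.2 ∈ riemannRochSpace D0 ∧ IsGlued G z.1 z.2}
  zero_mem' := ⟨Submodule.zero_mem _, Submodule.zero_mem _, isGlued_zero G⟩
  add_mem' := by
    rintro z z' ⟨h1, h2, h3⟩ ⟨h1', h2', h3'⟩
    exact ⟨Submodule.add_mem _ h1 h1', Submodule.add_mem _ h2 h2', h3.add h3'⟩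
  smul_mem' := by
    rintro c z ⟨h1, h2, h3⟩
    exact ⟨Submodule.smul_mem _ c h1, Submodule.smul_mem _ c h2, h3.smul c⟩

theorem mem_gluedSpace {G : NodalData N A Foo F0 ι} {Doo : Divisor (kRes A) Foo}
    {D0 : Divisor (kRes A) F0} {z : Foo × F0} :
    z ∈ gluedSpace G Doo D0 ↔
      z.1 ∈ riemannRochSpace Doo ∧ z.2 ∈ riemannRochSpace D0 ∧ IsGlued G z.1 z.2 := Iff.rfl

/-! ### The concrete inputs -/

/-- **[ANCHOR-LIFT]** glued pairs lift for the multiples of one divisor `D₀` (no point over a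
node, positive degree). -/
def AnchorLift (G : NodalData N A Foo F0 ι) : Prop :=
  ∃ D₀ : Divisor Qb (FLb N), (∀ P ν, G.r P = NPt.node ν → D₀ P = 0) ∧
    0 < Divisor.degree D₀ ∧
    ∃ n₀ : ℕ, ∀ n : ℕ, n₀ ≤ n →
      ∀ z ∈ gluedSpace G (pushOo G (n • D₀)) (pushZero G (n • D₀)),
        ∃ (u : FLb N) (h : u ∈ G.Voo) (h0 : u ∈ G.V0), u ∈ riemannRochSpace (n • D₀) ∧
          G.redOo ⟨u, h⟩ = z.1 ∧ G.red0 ⟨u, h0⟩ = z.2

/-- **[CF]** coefficient functionals : a family of `ℚ̄`-linear functionals on `F` detecting the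
intersection of the two Gauss rings, compatible with the inertia group. -/
structure NodalCoeff (G : NodalData N A Foo F0 ι) (J : Type)
    (lam : J → FLb N →ₗ[Qb] Qb) : Prop where
  mem_iff : ∀ f : FLb N, (f ∈ G.Voo ∧ f ∈ G.V0) ↔ ∀ j, lam j f ∈ A
  equiv : ∀ σ ∈ A.inertiaSubgroupIn ℚ, ∀ (j : J) (f : FLb N),
    lam j (galF N σ • f) = σ (lam j f)

/-- **[DISC]** the inertia field is discretely valued, with uniformiser `p`. -/
def UnrDisc (p : ℕ) (A : ValuationSubring Qb) : Prop :=
  ∀ c : Qb, c ≠ 0 → (∀ σ ∈ A.inertiaSubgroupIn ℚ, σ c = c) →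
    ∃ n : ℤ, c * (p : Qb) ^ n ∈ A ∧ (c * (p : Qb) ^ n)⁻¹ ∈ A

end Fermat.Agent.H18.ORD
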