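import Fermat.Agent.H18.ORD.NodalContain
import Fermat.Agent.H69.ORD.NodalSysRR

/-!
# P-ORD, block B1-LIFT (abstract side, helper18) : RR-GLUE, the dimension of the glued space

* `evalAt v hdeg W hW` : the value at a place of degree one, as a linear functional on a space of
  functions regular at `v`;
* `glueMap` : `L(Doo) × L(D0) → k^ι`, `(x, y) ↦ (x(ν) - y(ν))_ν`; its kernel is the glued space;
* `gluedSpace_finrank_ge` : `dim ≥ l(Doo) + l(D0) - s`;
* `gluedSpace_finrank_single` : `dim = l(n Q∞) + l(n Q0) - s` for `n` large.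
-/

set_option autoImplicit false
set_option linter.unusedSectionVars false
set_option linter.style.haveILetI false
set_option maxHeartbeats 1600000

noncomputable section

open AlgebraicCurve ModularCurve

namespace Fermat.Agent.H18.ORD

open Fermat.Agent.H72.FF Fermat.Agent.H85.ORD Fermat.Agent.H94.ORD Fermat.Agent.H27.ESD
  Fermat.Agent.H69.ORD

section eval

variable {K F : Type*} [Field K] [Field F] [Algebra K F]

theorem gd_nonunits_neg (v : Place K F) {x : F} (hx : x ∈ v.toValuationSubring.nonunits) :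
    -x ∈ v.toValuationSubring.nonunits := by
  rw [ValuationSubring.mem_nonunits_iff] at hx ⊢
  rwa [Valuation.map_neg]

/-- the value at a place is unique -/
theorem gd_value_unique (v : Place K F) {x : F} {κ κ' : K}
    (h : x - algebraMap K F κ ∈ v.toValuationSubring.nonunits)
    (h' : x - algebraMap K F κ' ∈ v.toValuationSubring.nonunits) : κ = κ' := by
  have h1 : algebraMap K F (κ - κ') ∈ v.toValuationSubring.nonunits := by
    have : algebraMap K F (κ - κ') = (x - algebraMap K F κ') + -(x - algebraMap K F κ) := by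
      rw [map_sub]; ring
    rw [this]
    exact ng_nonunits_add v h' (gd_nonunits_neg v h)
  exact sub_eq_zero.mp (nb_const_eq_zero_of_mem_nonunits v h1)

/-- the value at a place of degree one, on a space of functions regular at the place -/
def evalAt (v : Place K F) (hdeg : v.deg = 1) (W : Submodule K F)
    (hW : ∀ x ∈ W, x = 0 ∨ 0 ≤ v.ord x) : W →ₗ[K] K where
  toFun x := Classical.choose (sys_exists_value v hdeg (hW x x.2))
  map_add' x y := by
    have hx := Classical.choose_spec (sys_exists_value v hdeg (hW x x.2))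
    have hy := Classical.choose_spec (sys_exists_value v hdeg (hW y y.2))
    have hxy := Classical.choose_spec (sys_exists_value v hdeg (hW (x + y) (x + y).2))
    refine gd_value_unique v hxy ?_
    have : ((x + y : W) : F) - algebraMap K F
        (Classical.choose (sys_exists_value v hdeg (hW x x.2))
          + Classical.choose (sys_exists_value v hdeg (hW y y.2)))
        = ((x : F) - algebraMap K F (Classical.choose (sys_exists_value v hdeg (hW x x.2))))
          + ((y : F) - algebraMap K F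
              (Classical.choose (sys_exists_value v hdeg (hW y y.2)))) := by
      rw [map_add, Submodule.coe_add]; ring
    have h := ng_nonunits_add v hx hy
    rw [← this] at h
    exact h
  map_smul' c x := by
    have hx := Classical.choose_spec (sys_exists_value v hdeg (hW x x.2))
    have hcx := Classical.choose_spec (sys_exists_value v hdeg (hW (c • x) (c • x).2))
    refine gd_value_unique v hcx ?_
    have : ((c • x : W) : F) - algebraMap K F
        ((RingHom.id K) c • Classical.choose (sys_exists_value v hdeg (hW x x.2)))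
        = algebraMap K F c *
          ((x : F) - algebraMap K F (Classical.choose (sys_exists_value v hdeg (hW x x.2)))) := by
      rw [RingHom.id_apply, smul_eq_mul, map_mul, Submodule.coe_smul, Algebra.smul_def]; ring
    have h := ng_nonunits_const_mul v c hx
    rw [← this] at h
    exact h

theorem evalAt_spec (v : Place K F) (hdeg : v.deg = 1) (W : Submodule K F)
    (hW : ∀ x ∈ W, x = 0 ∨ 0 ≤ v.ord x) (x : W) :
    (x : F) - algebraMap K F (evalAt v hdeg W hW x) ∈ v.toValuationSubring.nonunits :=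
  Classical.choose_spec (sys_exists_value v hdeg (hW x x.2))

theorem evalAt_eq (v : Place K F) (hdeg : v.deg = 1) (W : Submodule K F)
    (hW : ∀ x ∈ W, x = 0 ∨ 0 ≤ v.ord x) (x : W) {κ : K}
    (h : (x : F) - algebraMap K F κ ∈ v.toValuationSubring.nonunits) :
    evalAt v hdeg W hW x = κ :=
  gd_value_unique v (evalAt_spec v hdeg W hW x) h

/-- elements of `L(D)` are regular at the places outside the support of the pole part -/
theorem gd_regular_of_mem {D : Divisor K F} {v : Place K F} (hD : D v ≤ 0) {x : F}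
    (hx : x ∈ riemannRochSpace D) : x = 0 ∨ 0 ≤ v.ord x := by
  rcases (mem_riemannRochSpace_iff.mp hx) v with h | h
  · exact Or.inl h
  · exact Or.inr (by omega)

end eval

section glue

variable {N : ℕ} {A : ValuationSubring Qb} {Foo F0 : Type} [Field Foo] [Field F0]
  [Algebra (kRes A) Foo] [Algebra (kRes A) F0] {ι : Type}
  (G : NodalData N A Foo F0 ι)

/-- the gluing map `(x, y) ↦ (x(ν) - y(ν))_ν` -/
def glueMap (hoo : ∀ v : Place (kRes A) Foo, v.deg = 1) (h0 : ∀ v : Place (kRes A) F0, v.deg = 1)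
    (Doo : Divisor (kRes A) Foo) (D0 : Divisor (kRes A) F0)
    (hDoo : ∀ ν, Doo (G.nOo ν) ≤ 0) (hD0 : ∀ ν, D0 (G.n0 ν) ≤ 0) :
    (↥(riemannRochSpace Doo) × ↥(riemannRochSpace D0)) →ₗ[kRes A] (ι → kRes A) :=
  LinearMap.pi fun ν =>
    (evalAt (G.nOo ν) (hoo _) (riemannRochSpace Doo)
        (fun _ hx => gd_regular_of_mem (hDoo ν) hx)).comp (LinearMap.fst _ _ _)
      - (evalAt (G.n0 ν) (h0 _) (riemannRochSpace D0)
        (fun _ hx => gd_regular_of_mem (hD0 ν) hx)).comp (LinearMap.snd _ _ _)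

theorem glueMap_apply (hoo : ∀ v : Place (kRes A) Foo, v.deg = 1)
    (h0 : ∀ v : Place (kRes A) F0, v.deg = 1)
    (Doo : Divisor (kRes A) Foo) (D0 : Divisor (kRes A) F0)
    (hDoo : ∀ ν, Doo (G.nOo ν) ≤ 0) (hD0 : ∀ ν, D0 (G.n0 ν) ≤ 0)
    (z : ↥(riemannRochSpace Doo) × ↥(riemannRochSpace D0)) (ν : ι) :
    glueMap G hoo h0 Doo D0 hDoo hD0 z ν
      = evalAt (G.nOo ν) (hoo _) (riemannRochSpace Doo)
          (fun _ hx => gd_regular_of_mem (hDoo ν) hx) z.1
        - evalAt (G.n0 ν) (h0 _) (riemannRochSpace D0)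
          (fun _ hx => gd_regular_of_mem (hD0 ν) hx) z.2 := rfl

theorem mem_ker_glueMap (hoo : ∀ v : Place (kRes A) Foo, v.deg = 1)
    (h0 : ∀ v : Place (kRes A) F0, v.deg = 1)
    (Doo : Divisor (kRes A) Foo) (D0 : Divisor (kRes A) F0)
    (hDoo : ∀ ν, Doo (G.nOo ν) ≤ 0) (hD0 : ∀ ν, D0 (G.n0 ν) ≤ 0)
    (z : ↥(riemannRochSpace Doo) × ↥(riemannRochSpace D0)) :
    z ∈ LinearMap.ker (glueMap G hoo h0 Doo D0 hDoo hD0) ↔
      IsGlued G (z.1 : Foo) (z.2 : F0) := by
  rw [LinearMap.mem_ker]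
  constructor
  · intro h ν
    have h1 := congrFun h ν
    rw [glueMap_apply, Pi.zero_apply, sub_eq_zero] at h1
    have h2 := evalAt_spec (G.nOo ν) (hoo _) (riemannRochSpace Doo)
      (fun _ hx => gd_regular_of_mem (hDoo ν) hx) z.1
    have h3 := evalAt_spec (G.n0 ν) (h0 _) (riemannRochSpace D0)
      (fun _ hx => gd_regular_of_mem (hD0 ν) hx) z.2
    rw [← h1] at h3
    exact ⟨_, h2, h3⟩
  · intro h
    funext ν
    obtain ⟨κ, h1, h2⟩ := h ν
    rw [glueMap_apply, Pi.zero_apply, evalAt_eq _ _ _ _ z.1 h1, evalAt_eq _ _ _ _ z.2 h2,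
      sub_self]

/-- the inclusion `L(Doo) × L(D0) → F_∞ × F_0` -/
def rrIncl (Doo : Divisor (kRes A) Foo) (D0 : Divisor (kRes A) F0) :
    (↥(riemannRochSpace Doo) × ↥(riemannRochSpace D0)) →ₗ[kRes A] (Foo × F0) :=
  LinearMap.prodMap (riemannRochSpace Doo).subtype (riemannRochSpace D0).subtype

theorem rrIncl_injective (Doo : Divisor (kRes A) Foo) (D0 : Divisor (kRes A) F0) :
    Function.Injective (rrIncl (A := A) Doo D0) := by
  intro z z' h
  have h1 : (z.1 : Foo) = z'.1 := congrArg Prod.fst h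
  have h2 : (z.2 : F0) = z'.2 := congrArg Prod.snd h
  exact Prod.ext (Subtype.ext h1) (Subtype.ext h2)

theorem gluedSpace_eq_map (hoo : ∀ v : Place (kRes A) Foo, v.deg = 1)
    (h0 : ∀ v : Place (kRes A) F0, v.deg = 1)
    (Doo : Divisor (kRes A) Foo) (D0 : Divisor (kRes A) F0)
    (hDoo : ∀ ν, Doo (G.nOo ν) ≤ 0) (hD0 : ∀ ν, D0 (G.n0 ν) ≤ 0) :
    gluedSpace G Doo D0
      = (LinearMap.ker (glueMap G hoo h0 Doo D0 hDoo hD0)).map (rrIncl Doo D0) := by
  ext z
  rw [mem_gluedSpace, Submodule.mem_map]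
  constructor
  · rintro ⟨h1, h2, h3⟩
    refine ⟨(⟨z.1, h1⟩, ⟨z.2, h2⟩), ?_, rfl⟩
    rw [mem_ker_glueMap]
    exact h3
  · rintro ⟨w, hw, rfl⟩
    rw [mem_ker_glueMap] at hw
    exact ⟨w.1.2, w.2.2, hw⟩

theorem gluedSpace_finrank_eq_ker (hoo : ∀ v : Place (kRes A) Foo, v.deg = 1)
    (h0 : ∀ v : Place (kRes A) F0, v.deg = 1)
    (Doo : Divisor (kRes A) Foo) (D0 : Divisor (kRes A) F0)
    (hDoo : ∀ ν, Doo (G.nOo ν) ≤ 0) (hD0 : ∀ ν, D0 (G.n0 ν) ≤ 0) :
    Module.finrank (kRes A) (gluedSpace G Doo D0)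
      = Module.finrank (kRes A) (LinearMap.ker (glueMap G hoo h0 Doo D0 hDoo hD0)) := by
  rw [gluedSpace_eq_map G hoo h0 Doo D0 hDoo hD0]
  exact (LinearEquiv.finrank_eq
    (Submodule.equivMapOfInjective _ (rrIncl_injective Doo D0) _)).symm

variable {goo g0 : ℕ}

/-- **RR-GLUE, lower bound.** -/
theorem gluedSpace_finrank_ge [Finite ι] (pkOo : RiemannPackage (kRes A) Foo goo)
    (pk0 : RiemannPackage (kRes A) F0 g0)
    (Doo : Divisor (kRes A) Foo) (D0 : Divisor (kRes A) F0)
    (hDoo : ∀ ν, Doo (G.nOo ν) ≤ 0) (hD0 : ∀ ν, D0 (G.n0 ν) ≤ 0) :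
    (Module.finrank (kRes A) (riemannRochSpace Doo) : ℤ)
        + Module.finrank (kRes A) (riemannRochSpace D0) - Nat.card ι
      ≤ Module.finrank (kRes A) (gluedSpace G Doo D0) := by
  classical
  haveI := Fintype.ofFinite ι
  haveI := pkOo.finite Doo
  haveI := pk0.finite D0
  rw [gluedSpace_finrank_eq_ker G pkOo.deg_one pk0.deg_one Doo D0 hDoo hD0]
  have h1 := LinearMap.finrank_range_add_finrank_ker
    (glueMap G pkOo.deg_one pk0.deg_one Doo D0 hDoo hD0)
  have h2 : Module.finrank (kRes A)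
      (LinearMap.range (glueMap G pkOo.deg_one pk0.deg_one Doo D0 hDoo hD0))
      ≤ Module.finrank (kRes A) (ι → kRes A) := Submodule.finrank_le _
  rw [Module.finrank_fintype_fun_eq_card] at h2
  rw [Module.finrank_prod] at h1
  rw [Nat.card_eq_fintype_card]
  omega

/-- **RR-GLUE, upper bound** when the gluing map is onto. -/
theorem gluedSpace_finrank_le [Finite ι] (pkOo : RiemannPackage (kRes A) Foo goo)
    (pk0 : RiemannPackage (kRes A) F0 g0)
    (Doo : Divisor (kRes A) Foo) (D0 : Divisor (kRes A) F0)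
    (hDoo : ∀ ν, Doo (G.nOo ν) ≤ 0) (hD0 : ∀ ν, D0 (G.n0 ν) ≤ 0)
    (hsurj : Function.Surjective (glueMap G pkOo.deg_one pk0.deg_one Doo D0 hDoo hD0)) :
    (Module.finrank (kRes A) (gluedSpace G Doo D0) : ℤ)
      = (Module.finrank (kRes A) (riemannRochSpace Doo) : ℤ)
        + Module.finrank (kRes A) (riemannRochSpace D0) - Nat.card ι := by
  classical
  haveI := Fintype.ofFinite ι
  haveI := pkOo.finite Doo
  haveI := pk0.finite D0
  rw [gluedSpace_finrank_eq_ker G pkOo.deg_one pk0.deg_one Doo D0 hDoo hD0]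
  have h1 := LinearMap.finrank_range_add_finrank_ker
    (glueMap G pkOo.deg_one pk0.deg_one Doo D0 hDoo hD0)
  rw [LinearMap.range_eq_top.mpr hsurj, finrank_top, Module.finrank_fintype_fun_eq_card,
    Module.finrank_prod] at h1
  rw [Nat.card_eq_fintype_card]
  omega

/-- the gluing map is onto for `Doo = n Q∞`, `n` large -/
theorem glueMap_surjective [Finite ι] (pkOo : RiemannPackage (kRes A) Foo goo)
    (pk0 : RiemannPackage (kRes A) F0 g0) (hinj : Function.Injective G.nOo)
    (Qoo : Place (kRes A) Foo) (hQoo : Qoo ∉ Set.range G.nOo)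
    (D0 : Divisor (kRes A) F0) (hD0 : ∀ ν, D0 (G.n0 ν) ≤ 0) :
    ∃ n₂ : ℕ, ∀ n : ℕ, n₂ ≤ n →
      ∀ hDoo : ∀ ν, (Finsupp.single Qoo (n : ℤ) : Divisor (kRes A) Foo) (G.nOo ν) ≤ 0,
        Function.Surjective
          (glueMap G pkOo.deg_one pk0.deg_one (Finsupp.single Qoo (n : ℤ)) D0 hDoo hD0) := by
  classical
  haveI := Fintype.ofFinite ι
  have hS : Qoo ∉ Finset.univ.image G.nOo := by
    intro h
    obtain ⟨ν, -, hν⟩ := Finset.mem_image.mp h
    exact hQoo ⟨ν, hν⟩
  obtain ⟨n₂, hn₂⟩ := sys_exists_interp pkOo Qoo (Finset.univ.image G.nOo) hS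
  refine ⟨n₂, fun n hn hDoo t => ?_⟩
  obtain ⟨y, hy, hyS⟩ := hn₂ n hn
    (fun v => if h : ∃ ν, G.nOo ν = v then t (Classical.choose h) else 0)
  refine ⟨(⟨y, hy⟩, 0), ?_⟩
  funext ν
  rw [glueMap_apply]
  have h1 := hyS (G.nOo ν) (Finset.mem_image.mpr ⟨ν, Finset.mem_univ _, rfl⟩)
  have hex : ∃ ν', G.nOo ν' = G.nOo ν := ⟨ν, rfl⟩
  rw [dif_pos hex] at h1
  have h2 : Classical.choose hex = ν := hinj (Classical.choose_spec hex)
  rw [h2] at h1
  show evalAt _ _ _ _ (⟨y, hy⟩ : ↥(riemannRochSpace _)) - evalAt _ _ _ _ 0 = t ν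
  rw [map_zero, sub_zero]
  exact evalAt_eq _ _ _ _ _ h1

end glue

end Fermat.Agent.H18.ORD
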