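import Fermat.Agent.H18.ORD.NodalGluedDim

/-!
# P-ORD, block B1-LIFT (abstract side, helper18) : the Props of the split (findings #553)

* `PairSemiAt G Poo P0` : **(PAIR-SEMI)** for every `n` a family of `l(n P∞ + n P0)` inertia-fixed
  elements of `V_∞ ∩ V_0 ∩ L(n P∞ + n P0)` with `k`-linearly independent pairs of reductions;
* `pushOo_two_points`, `pushZero_two_points` : the push-forward of `n P∞ + n P0`;
* targets of the split :
  - `NodalNCStatement`      : `AnchorLift G → g + 1 ≤ g_∞ + g_0 + s`;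
  - `NodalLiftAsmStatement` : `[NC] + PairSemiAt → NodalLift`-statement at the pair `(P∞, P0)`.
-/

set_option autoImplicit false
set_option linter.unusedSectionVars false
set_option linter.style.haveILetI false

noncomputable section

open AlgebraicCurve ModularCurve

namespace Fermat.Agent.H18.ORD

open Fermat.Agent.H72.FF Fermat.Agent.H85.ORD Fermat.Agent.H94.ORD Fermat.Agent.H27.ESD

variable {N : ℕ} {A : ValuationSubring Qb} {Foo F0 : Type} [Field Foo] [Field F0]
  [Algebra (kRes A) Foo] [Algebra (kRes A) F0] {ι : Type}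

/-- the divisor `n P∞ + n P0` -/
def twoPt (Poo P0 : Place Qb (FLb N)) (n : ℕ) : Divisor Qb (FLb N) :=
  Finsupp.single Poo (n : ℤ) + Finsupp.single P0 (n : ℤ)

theorem pushOo_two_points (G : NodalData N A Foo F0 ι) {Poo P0 : Place Qb (FLb N)}
    {Qoo : Place (kRes A) Foo} {Q0 : Place (kRes A) F0}
    (hPoo : G.r Poo = NPt.oo Qoo) (hP0 : G.r P0 = NPt.zero Q0) (n : ℕ) :
    pushOo G (twoPt Poo P0 n) = Finsupp.single Qoo (n : ℤ) := by
  classical
  ext Q
  have h1 : (Finsupp.single (NPt.oo Qoo : NPt (Place (kRes A) Foo) (Place (kRes A) F0) ι)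
      (n : ℤ)) (NPt.oo Q) = (Finsupp.single Qoo (n : ℤ)) Q := by
    rw [Finsupp.single_apply, Finsupp.single_apply]
    by_cases h : Qoo = Q
    · rw [if_pos h, if_pos (by rw [h])]
    · rw [if_neg h, if_neg (fun h' => h (NPt.oo.inj h'))]
  have h2 : (Finsupp.single (NPt.zero Q0 : NPt (Place (kRes A) Foo) (Place (kRes A) F0) ι)
      (n : ℤ)) (NPt.oo Q) = 0 := by
    rw [Finsupp.single_apply, if_neg (fun h' => by cases h')]
  rw [pushOo_apply, twoPt, Finsupp.mapDomain_add, Finsupp.mapDomain_single,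
    Finsupp.mapDomain_single, hPoo, hP0, Finsupp.add_apply, h1, h2, add_zero]

theorem pushZero_two_points (G : NodalData N A Foo F0 ι) {Poo P0 : Place Qb (FLb N)}
    {Qoo : Place (kRes A) Foo} {Q0 : Place (kRes A) F0}
    (hPoo : G.r Poo = NPt.oo Qoo) (hP0 : G.r P0 = NPt.zero Q0) (n : ℕ) :
    pushZero G (twoPt Poo P0 n) = Finsupp.single Q0 (n : ℤ) := by
  classical
  ext Q
  have h1 : (Finsupp.single (NPt.zero Q0 : NPt (Place (kRes A) Foo) (Place (kRes A) F0) ι)
      (n : ℤ)) (NPt.zero Q) = (Finsupp.single Q0 (n : ℤ)) Q := by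
    rw [Finsupp.single_apply, Finsupp.single_apply]
    by_cases h : Q0 = Q
    · rw [if_pos h, if_pos (by rw [h])]
    · rw [if_neg h, if_neg (fun h' => h (NPt.zero.inj h'))]
  have h2 : (Finsupp.single (NPt.oo Qoo : NPt (Place (kRes A) Foo) (Place (kRes A) F0) ι)
      (n : ℤ)) (NPt.zero Q) = 0 := by
    rw [Finsupp.single_apply, if_neg (fun h' => by cases h')]
  rw [pushZero_apply, twoPt, Finsupp.mapDomain_add, Finsupp.mapDomain_single,
    Finsupp.mapDomain_single, hPoo, hP0, Finsupp.add_apply, h1, h2, zero_add]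

theorem twoPt_node (G : NodalData N A Foo F0 ι) {Poo P0 : Place Qb (FLb N)}
    {Qoo : Place (kRes A) Foo} {Q0 : Place (kRes A) F0}
    (hPoo : G.r Poo = NPt.oo Qoo) (hP0 : G.r P0 = NPt.zero Q0) (n : ℕ) :
    ∀ P ν, G.r P = NPt.node ν → twoPt Poo P0 n P = 0 := by
  classical
  intro P ν hP
  have h1 : Poo ≠ P := by
    rintro rfl
    rw [hPoo] at hP
    cases hP
  have h2 : P0 ≠ P := by
    rintro rfl
    rw [hP0] at hP
    cases hP
  rw [twoPt, Finsupp.add_apply, Finsupp.single_apply, Finsupp.single_apply, if_neg h1,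
    if_neg h2, add_zero]

/-- **(PAIR-SEMI) at one pair of base places.** -/
def PairSemiAt (G : NodalData N A Foo F0 ι) (Poo P0 : Place Qb (FLb N)) : Prop :=
  ∀ n : ℕ, ∃ (woo : Fin (Module.finrank Qb (riemannRochSpace (twoPt Poo P0 n))) → G.Voo)
      (w0 : Fin (Module.finrank Qb (riemannRochSpace (twoPt Poo P0 n))) → G.V0),
    (∀ i, ((woo i : G.Voo) : FLb N) = ((w0 i : G.V0) : FLb N)) ∧
    (∀ i, IsUnrFn A N ((woo i : G.Voo) : FLb N)) ∧
    (∀ i, ((woo i : G.Voo) : FLb N) ∈ riemannRochSpace (twoPt Poo P0 n)) ∧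
    LinearIndependent (kRes A) (fun i => (G.redOo (woo i), G.red0 (w0 i)))

/-- **[NC]** from the anchor lift. -/
def NodalNCStatement : Prop :=
  ∀ (N p : ℕ) (A : ValuationSubring Qb) (Foo F0 : Type) [Field Foo] [Field F0]
    [Algebra (kRes A) Foo] [Algebra (kRes A) F0] (ι : Type) (G : NodalData N A Foo F0 ι)
    (g goo g0 : ℕ), p.Prime → A.LiesOverPrime p → NodalRvHyp p G → Finite ι →
    RiemannPackage Qb (FLb N) g → RiemannPackage (kRes A) Foo goo →
    RiemannPackage (kRes A) F0 g0 → AnchorLift G →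
    g + 1 ≤ goo + g0 + Nat.card ι

/-- **[LIFT-ASM]** the lifting statement at one pair of base places from [NC] and
(PAIR-SEMI). -/
def NodalLiftAsmStatement : Prop :=
  ∀ (N p : ℕ) (A : ValuationSubring Qb) (Foo F0 : Type) [Field Foo] [Field F0]
    [Algebra (kRes A) Foo] [Algebra (kRes A) F0] (ι : Type) (G : NodalData N A Foo F0 ι)
    (g goo g0 : ℕ), p.Prime → A.LiesOverPrime p → NodalRvHyp p G → Finite ι →
    RiemannPackage Qb (FLb N) g → RiemannPackage (kRes A) Foo goo →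
    RiemannPackage (kRes A) F0 g0 → g + 1 ≤ goo + g0 + Nat.card ι →
    ∀ (Poo P0 : Place Qb (FLb N)) (Qoo : Place (kRes A) Foo) (Q0 : Place (kRes A) F0),
      G.r Poo = NPt.oo Qoo → G.r P0 = NPt.zero Q0 → PairSemiAt G Poo P0 →
      ∃ n₀ : ℕ, ∀ n : ℕ, n₀ ≤ n →
        ∀ x ∈ riemannRochSpace (Finsupp.single Qoo (n : ℤ)),
        ∀ y ∈ riemannRochSpace (Finsupp.single Q0 (n : ℤ)), IsGlued G x y →
          ∃ (u : FLb N) (h : u ∈ G.Voo) (h0 : u ∈ G.V0), IsUnrFn A N u ∧
            u ∈ riemannRochSpace (Finsupp.single Poo (n : ℤ) + Finsupp.single P0 (n : ℤ)) ∧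
            G.redOo ⟨u, h⟩ = x ∧ G.red0 ⟨u, h0⟩ = y

end Fermat.Agent.H18.ORD
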