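import Fermat.Agent.H18.ORD.NodalDivThm
import Fermat.Agent.H87.ORD.NodalNC
import Fermat.Agent.H99.ORD.LiftAsm
import Fermat.Agent.H23.ORD.NodeCountGe
import Fermat.Agent.H19.ORD.NodalPt

/-!
# P-ORD, block B1-LIFT (abstract side, helper18) : the assembled theorems

From the concrete inputs

* `AnchorLift G`                                   ([ANCHOR-LIFT]),
* the normal forms of the inertia-fixed functions  ((UNR-NORM) at `∞` and at `0`),
* `PairG3On G V` for every finite-dimensional `V`  (the pair lattice statement),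
* the three Riemann packages, finiteness of the set of nodes,

the abstract chain (CONTAIN, RR-GLUE : helper18; [NC] : helper87; (PAIR-SEMI) : helper18;
[LIFT-ASM] : helper99; semicontinuity : helper23; (PT) : helper19) gives

* `nodalLiftAll_of_norm` : (LIFT) at every pair of inertia-fixed base places;
* `nodalLift_of_norm`    : the package `NodalLift G`, given one pair of inertia-fixed base
  places;
* `nodal_genus_eq_of_anchor` : `g + 1 = g_∞ + g_0 + s`.
-/

set_option autoImplicit false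
set_option linter.unusedSectionVars false
set_option linter.style.haveILetI false
set_option maxHeartbeats 1600000
set_option synthInstance.maxHeartbeats 400000

noncomputable section

open AlgebraicCurve ModularCurve

namespace Fermat.Agent.H18.ORD

open Fermat.Agent.H72.FF Fermat.Agent.H85.ORD Fermat.Agent.H94.ORD Fermat.Agent.H27.ESD

variable {N : ℕ} {A : ValuationSubring Qb} {Foo F0 : Type} [Field Foo] [Field F0]
  [Algebra (kRes A) Foo] [Algebra (kRes A) F0] {ι : Type}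
  {p : ℕ} {G : NodalData N A Foo F0 ι}

/-- **(LIFT) at every pair of inertia-fixed base places.** -/
theorem nodalLiftAll_of_norm (H : NodalRvHyp p G) (hp : p.Prime) (hA : A.LiesOverPrime p)
    [Finite ι] {g goo g0 : ℕ} (pkL : RiemannPackage Qb (FLb N) g)
    (pkOo : RiemannPackage (kRes A) Foo goo) (pk0 : RiemannPackage (kRes A) F0 g0)
    (hanchor : AnchorLift G)
    (hoo : ∀ f : FLb N, f ≠ 0 → IsUnrFn A N f →
      ∃ (n : ℤ) (h : algebraMap Qb (FLb N) ((p : Qb) ^ n) * f ∈ G.Voo), G.redOo ⟨_, h⟩ ≠ 0)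
    (h0 : ∀ f : FLb N, f ≠ 0 → IsUnrFn A N f →
      ∃ (n : ℤ) (h : algebraMap Qb (FLb N) ((p : Qb) ^ n) * f ∈ G.V0), G.red0 ⟨_, h⟩ ≠ 0)
    (hg3 : ∀ V : Submodule Qb (FLb N), FiniteDimensional Qb V → PairG3On G V) :
    Fermat.Agent.H19.ORD.NodalLiftAll G := by
  intro Poo P0 Qoo Q0 hPoo hP0 hPooI hP0I
  have hNC : g + 1 ≤ goo + g0 + Nat.card ι :=
    Fermat.Agent.H87.ORD.nodalNC N p A Foo F0 ι G g goo g0 hp hA H inferInstance pkL pkOo pk0
      hanchor
  exact Fermat.Agent.H99.ORD.nodalLiftAsm N p A Foo F0 ι G g goo g0 hp hA H inferInstance pkL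
    pkOo pk0 hNC Poo P0 Qoo Q0 hPoo hP0
    (pairSemiAt_of_norm H hp hA hoo h0 hg3 pkL hPooI hP0I)

/-- **The package `NodalLift G`.** -/
theorem nodalLift_of_norm (H : NodalRvHyp p G) (hgal : NodalGalHyp G) (hp : p.Prime)
    (hA : A.LiesOverPrime p)
    [Finite ι] {g goo g0 : ℕ} (pkL : RiemannPackage Qb (FLb N) g)
    (pkOo : RiemannPackage (kRes A) Foo goo) (pk0 : RiemannPackage (kRes A) F0 g0)
    (hanchor : AnchorLift G)
    (hoo : ∀ f : FLb N, f ≠ 0 → IsUnrFn A N f →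
      ∃ (n : ℤ) (h : algebraMap Qb (FLb N) ((p : Qb) ^ n) * f ∈ G.Voo), G.redOo ⟨_, h⟩ ≠ 0)
    (h0 : ∀ f : FLb N, f ≠ 0 → IsUnrFn A N f →
      ∃ (n : ℤ) (h : algebraMap Qb (FLb N) ((p : Qb) ^ n) * f ∈ G.V0), G.red0 ⟨_, h⟩ ≠ 0)
    (hg3 : ∀ V : Submodule Qb (FLb N), FiniteDimensional Qb V → PairG3On G V)
    (Poo P0 : Place Qb (FLb N)) (Qoo : Place (kRes A) Foo) (Q0 : Place (kRes A) F0)
    (hPoo : G.r Poo = NPt.oo Qoo) (hP0 : G.r P0 = NPt.zero Q0)
    (hPooI : IsUnrPlace A N Poo) (hP0I : IsUnrPlace A N P0) : NodalLift G :=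
  Fermat.Agent.H19.ORD.nodalLift_of_base G H hgal pkL.principal pkOo pk0 Poo P0 Qoo Q0 hPoo hP0
    hPooI hP0I (nodalLiftAll_of_norm H hp hA pkL pkOo pk0 hanchor hoo h0 hg3)

/-- **The node count** `g + 1 = g_∞ + g_0 + s`. -/
theorem nodal_genus_eq_of_anchor (H : NodalRvHyp p G) (hp : p.Prime) (hA : A.LiesOverPrime p)
    [Finite ι] {g goo g0 : ℕ} (pkL : RiemannPackage Qb (FLb N) g)
    (pkOo : RiemannPackage (kRes A) Foo goo) (pk0 : RiemannPackage (kRes A) F0 g0)
    (hanchor : AnchorLift G)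
    (hg3 : ∀ V : Submodule Qb (FLb N), FiniteDimensional Qb V → PairG3On G V)
    {Poo P0 : Place Qb (FLb N)} {Qoo : Place (kRes A) Foo} {Q0 : Place (kRes A) F0}
    (hPoo : G.r Poo = NPt.oo Qoo) (hP0 : G.r P0 = NPt.zero Q0) :
    g + 1 = goo + g0 + Nat.card ι :=
  le_antisymm
    (Fermat.Agent.H87.ORD.nodalNC N p A Foo F0 ι G g goo g0 hp hA H inferInstance pkL pkOo pk0
      hanchor)
    (Fermat.Agent.H23.ORD.nodal_genus_ge H hp hA pkL pkOo pk0 hPoo hP0 hg3)

end Fermat.Agent.H18.ORD
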