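import Fermat.Agent.H18.ORD.NodalSemiDefs
import Fermat.Agent.H57.FF.Cramer

/-!
# P-ORD, block B1-LIFT (abstract side, helper18) : PAIR-SEMI, part 1 (pivots)

Setting : coefficient functionals `lam j : F →ₗ[ℚ̄] ℚ̄` detecting `V_∞ ∩ V_0` (`NodalCoeff`),
compatible with the inertia group; the inertia field is discretely valued (`UnrDisc`).

* `ps_rat_lam`   : the coefficients of an inertia-fixed function are inertia-fixed;
* `ps_bounded`   : the coefficients of a function have bounded denominators;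
* `ps_nondeg`    : a nonzero function has a nonzero coefficient;
* `ps_pivot`     : an inertia-fixed nonzero function has a coefficient of maximal absolute value;
* `ps_ker`       : a function of `V_∞ ∩ V_0` with both reductions zero has all its coefficients
  in the maximal ideal;
* `ps_tri`       : the triangular lemma.
-/

set_option autoImplicit false
set_option linter.unusedSectionVars false
set_option linter.style.haveILetI false
set_option maxHeartbeats 1600000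

noncomputable section

open AlgebraicCurve ModularCurve

namespace Fermat.Agent.H18.ORD

open Fermat.Agent.H72.FF Fermat.Agent.H85.ORD Fermat.Agent.H94.ORD Fermat.Agent.H27.ESD

variable {N : ℕ} {A : ValuationSubring Qb} {Foo F0 : Type} [Field Foo] [Field F0]
  [Algebra (kRes A) Foo] [Algebra (kRes A) F0] {ι : Type}
  {p : ℕ} {G : NodalData N A Foo F0 ι} {J : Type} {lam : J → FLb N →ₗ[Qb] Qb}

/-- the coefficients of an inertia-fixed function are inertia-fixed -/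
theorem ps_rat_lam (hC : NodalCoeff G J lam) {f : FLb N} (hf : IsUnrFn A N f) (j : J) :
    ∀ σ ∈ A.inertiaSubgroupIn ℚ, σ (lam j f) = lam j f := by
  intro σ hσ
  rw [← hC.equiv σ hσ j f, hf σ hσ]

/-- normal form at `V_∞` of an element of `V_∞` -/
theorem NodalRvHyp.norm_oo_mem (H : NodalRvHyp p G) {u : FLb N} (hu : u ∈ G.Voo)
    (hne : u ≠ 0) :
    ∃ (c : Qb) (w : G.Voo), c ≠ 0 ∧ G.redOo w ≠ 0 ∧ u = algebraMap Qb (FLb N) c * (w : FLb N) ∧
      c ∈ A ∧ (c⁻¹ ∈ A → G.redOo ⟨u, hu⟩ ≠ 0) ∧ (c⁻¹ ∉ A → G.redOo ⟨u, hu⟩ = 0) :=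
  NodalRvHyp.norm_zero_mem (nodalRvHyp_swap H) (G := swapData G) hu hne

/-- a common normalisation : some nonzero multiple of `f` lies in `V_∞ ∩ V_0` -/
theorem NodalRvHyp.exists_scale (H : NodalRvHyp p G) {f : FLb N} (hf : f ≠ 0) :
    ∃ c : Qb, c ≠ 0 ∧ algebraMap Qb (FLb N) c * f ∈ G.Voo ∧
      algebraMap Qb (FLb N) c * f ∈ G.V0 := by
  obtain ⟨c₁, u₁, hc₁, hu₁, hf₁⟩ := H.norm_oo f hf
  obtain ⟨c₂, u₂, hc₂, hu₂, hf₂⟩ := H.norm_zero f hf
  have hc₁L : algebraMap Qb (FLb N) c₁ ≠ 0 := by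
    rw [Ne, map_eq_zero_iff _ (algebraMap Qb (FLb N)).injective]; exact hc₁
  have hc₂L : algebraMap Qb (FLb N) c₂ ≠ 0 := by
    rw [Ne, map_eq_zero_iff _ (algebraMap Qb (FLb N)).injective]; exact hc₂
  rcases A.mem_or_inv_mem (c₂ * c₁⁻¹) with h | h
  · refine ⟨c₁⁻¹, inv_ne_zero hc₁, ?_, ?_⟩
    · have : algebraMap Qb (FLb N) c₁⁻¹ * f = (u₁ : FLb N) := by
        rw [hf₁, map_inv₀]; field_simp
      rw [this]; exact u₁.2
    · have : algebraMap Qb (FLb N) c₁⁻¹ * f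
          = algebraMap Qb (FLb N) (c₂ * c₁⁻¹) * (u₂ : FLb N) := by
        rw [hf₂, map_mul, map_inv₀]; ring
      rw [this]
      exact G.V0.mul_mem ((H.const_zero _).mpr h) u₂.2
  · rw [mul_inv, inv_inv] at h
    refine ⟨c₂⁻¹, inv_ne_zero hc₂, ?_, ?_⟩
    · have : algebraMap Qb (FLb N) c₂⁻¹ * f
          = algebraMap Qb (FLb N) (c₂⁻¹ * c₁) * (u₁ : FLb N) := by
        rw [hf₁, map_mul, map_inv₀]; ring
      rw [this]
      exact G.Voo.mul_mem ((H.const_oo _).mpr h) u₁.2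
    · have : algebraMap Qb (FLb N) c₂⁻¹ * f = (u₂ : FLb N) := by
        rw [hf₂, map_inv₀]; field_simp
      rw [this]; exact u₂.2

theorem ps_lam_algebraMap_mul (c : Qb) (f : FLb N) (j : J) :
    lam j (algebraMap Qb (FLb N) c * f) = c * lam j f := by
  rw [← Algebra.smul_def, map_smul, smul_eq_mul]

/-- the coefficients of a function have bounded denominators -/
theorem ps_bounded (H : NodalRvHyp p G) (hp : p.Prime) (hA : A.LiesOverPrime p)
    (hC : NodalCoeff G J lam) (f : FLb N) :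
    ∃ M : ℕ, ∀ j, (p : Qb) ^ M * lam j f ∈ A := by
  by_cases hf : f = 0
  · refine ⟨0, fun j => ?_⟩
    rw [hf, map_zero, mul_zero]
    exact A.zero_mem
  obtain ⟨c, hc, h1, h2⟩ := H.exists_scale hf
  have h3 := (hC.mem_iff _).mp ⟨h1, h2⟩
  obtain ⟨M, hM⟩ := Fermat.Agent.H57.FF.exists_pow_mul_mem hp A hA c⁻¹
  refine ⟨M, fun j => ?_⟩
  have h4 := h3 j
  rw [ps_lam_algebraMap_mul] at h4
  have : (p : Qb) ^ M * lam j f = ((p : Qb) ^ M * c⁻¹) * (c * lam j f) := by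
    field_simp
  rw [this]
  exact A.mul_mem _ _ (hM M le_rfl) h4

/-- a nonzero function has a nonzero coefficient -/
theorem ps_nondeg (H : NodalRvHyp p G) (hp : p.Prime) (hA : A.LiesOverPrime p)
    (hC : NodalCoeff G J lam) {f : FLb N} (hf : f ≠ 0) : ∃ j, lam j f ≠ 0 := by
  by_contra hcon
  push Not at hcon
  have hpQ : (p : Qb) ≠ 0 := by exact_mod_cast hp.ne_zero
  obtain ⟨c₁, u₁, hc₁, hu₁, hf₁⟩ := H.norm_oo f hf
  have hc₁L : algebraMap Qb (FLb N) c₁ ≠ 0 := by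
    rw [Ne, map_eq_zero_iff _ (algebraMap Qb (FLb N)).injective]; exact hc₁
  have hpL : algebraMap Qb (FLb N) (p : Qb) ≠ 0 := by
    rw [Ne, map_eq_zero_iff _ (algebraMap Qb (FLb N)).injective]; exact hpQ
  have h1 : algebraMap Qb (FLb N) (c₁ * p)⁻¹ * f ∈ G.Voo := by
    refine ((hC.mem_iff _).mpr fun j => ?_).1
    rw [ps_lam_algebraMap_mul, hcon j, mul_zero]
    exact A.zero_mem
  have hu₁0 : (u₁ : FLb N) ≠ 0 := by
    intro h
    apply hu₁
    have : u₁ = 0 := Subtype.ext h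
    rw [this, map_zero]
  have h2 : algebraMap Qb (FLb N) (p : Qb)⁻¹ ∈ G.Voo := by
    have : algebraMap Qb (FLb N) (p : Qb)⁻¹
        = (algebraMap Qb (FLb N) (c₁ * p)⁻¹ * f) * (u₁ : FLb N)⁻¹ := by
      rw [hf₁, map_inv₀, map_inv₀, map_mul]
      field_simp
    rw [this]
    exact G.Voo.mul_mem h1 (H.inv_oo u₁ hu₁)
  have h3 : (p : Qb)⁻¹ ∈ A := (H.const_oo _).mp h2
  exact na_unit_not_mem_nonunits hpQ h3 hA

/-- **Maximal pivot.** -/
theorem ps_pivot (H : NodalRvHyp p G) (hp : p.Prime) (hA : A.LiesOverPrime p)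
    (hdisc : UnrDisc p A) (hC : NodalCoeff G J lam) {f : FLb N} (hf : f ≠ 0)
    (hfI : IsUnrFn A N f) :
    ∃ j₀, lam j₀ f ≠ 0 ∧ ∀ j, lam j f * (lam j₀ f)⁻¹ ∈ A := by
  classical
  have hpQ : (p : Qb) ≠ 0 := by exact_mod_cast hp.ne_zero
  have hpA : (p : Qb) ∈ A := A.nonunits_subset hA
  obtain ⟨M, hM⟩ := ps_bounded H hp hA hC f
  obtain ⟨j₁, hj₁⟩ := ps_nondeg H hp hA hC hf
  -- the set of exponents
  let P : ℤ → Prop := fun n => ∃ j, lam j f ≠ 0 ∧
    lam j f * (p : Qb) ^ n ∈ A ∧ (lam j f * (p : Qb) ^ n)⁻¹ ∈ A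
  have hbdd : ∀ n, P n → n ≤ (M : ℤ) := by
    rintro n ⟨j, hj0, -, hj2⟩
    by_contra hcon
    push Not at hcon
    -- `p ^ (M - n)` would be in `A` with `M - n < 0`
    have h1 : (p : Qb) ^ ((M : ℤ) - n) ∈ A := by
      have : (p : Qb) ^ ((M : ℤ) - n)
          = ((p : Qb) ^ M * lam j f) * (lam j f * (p : Qb) ^ n)⁻¹ := by
        rw [zpow_sub₀ hpQ, zpow_natCast]
        field_simp
      rw [this]
      exact A.mul_mem _ _ (hM j) hj2
    have h2 : ((p : Qb) ^ ((M : ℤ) - n))⁻¹ ∈ A.nonunits := by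
      obtain ⟨k, hk⟩ : ∃ k : ℕ, (M : ℤ) - n = -((k : ℤ) + 1) := ⟨(n - M - 1).toNat, by omega⟩
      rw [hk, zpow_neg, inv_inv]
      have : (p : Qb) ^ ((k : ℤ) + 1) = (p : Qb) ^ (k + 1) := by
        rw [← zpow_natCast]; push_cast; rfl
      rw [this, A.mem_nonunits_iff, map_pow]
      exact pow_lt_one₀ zero_le ((A.mem_nonunits_iff).mp hA) (Nat.succ_ne_zero k)
    exact na_unit_not_mem_nonunits (inv_ne_zero (zpow_ne_zero _ hpQ))
      (by rw [inv_inv]; exact h1) h2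
  have hex : ∃ n, P n := by
    obtain ⟨n, h1, h2⟩ := hdisc (lam j₁ f) hj₁ (ps_rat_lam hC hfI j₁)
    exact ⟨n, j₁, hj₁, h1, h2⟩
  obtain ⟨n₀, ⟨j₀, hj₀, h1, h2⟩, hmax⟩ := Int.exists_greatest_of_bdd ⟨M, hbdd⟩ hex
  refine ⟨j₀, hj₀, fun j => ?_⟩
  by_cases hj : lam j f = 0
  · rw [hj, zero_mul]; exact A.zero_mem
  obtain ⟨n, h3, h4⟩ := hdisc (lam j f) hj (ps_rat_lam hC hfI j)
  have hle : n ≤ n₀ := hmax n ⟨j, hj, h3, h4⟩
  obtain ⟨k, hk⟩ : ∃ k : ℕ, n₀ - n = (k : ℤ) := ⟨(n₀ - n).toNat, by omega⟩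
  have : lam j f * (lam j₀ f)⁻¹
      = (lam j f * (p : Qb) ^ n) * (p : Qb) ^ k * (lam j₀ f * (p : Qb) ^ n₀)⁻¹ := by
    have hn₀ : n₀ = n + k := by omega
    rw [hn₀, zpow_add₀ hpQ, zpow_natCast]
    field_simp
  rw [this]
  exact A.mul_mem _ _ (A.mul_mem _ _ h3 (pow_mem hpA k)) h2

/-- a function of `V_∞ ∩ V_0` with both reductions zero has its coefficients in `𝔪_A` -/
theorem ps_ker (H : NodalRvHyp p G) (hC : NodalCoeff G J lam) {u : FLb N}
    (hu : u ∈ G.Voo) (hu0 : u ∈ G.V0) (h1 : G.redOo ⟨u, hu⟩ = 0) (h2 : G.red0 ⟨u, hu0⟩ = 0) :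
    ∀ j, lam j u ∈ A.nonunits := by
  intro j
  by_cases hne : u = 0
  · rw [hne, map_zero, A.mem_nonunits_iff, map_zero]
    exact zero_lt_one
  obtain ⟨c₁, u₁, hc₁, hu₁, hf₁, hc₁A, h3, -⟩ := H.norm_oo_mem hu hne
  obtain ⟨c₂, u₂, hc₂, hu₂, hf₂, hc₂A, h4, -⟩ := H.norm_zero_mem hu0 hne
  have hc₁n : c₁ ∈ A.nonunits := by
    rw [A.mem_nonunits_iff_or]
    exact Or.inr fun h => h3 h h1
  have hc₂n : c₂ ∈ A.nonunits := by
    rw [A.mem_nonunits_iff_or]
    exact Or.inr fun h => h4 h h2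
  have key : ∀ c : Qb, c ≠ 0 → c ∈ A.nonunits → algebraMap Qb (FLb N) c⁻¹ * u ∈ G.Voo →
      algebraMap Qb (FLb N) c⁻¹ * u ∈ G.V0 → lam j u ∈ A.nonunits := by
    intro c hc hcn h5 h6
    have h7 := (hC.mem_iff _).mp ⟨h5, h6⟩ j
    rw [ps_lam_algebraMap_mul] at h7
    have : lam j u = c * (c⁻¹ * lam j u) := by field_simp
    rw [this, A.mem_nonunits_iff, map_mul]
    exact lt_of_le_of_lt (mul_le_of_le_one_right' ((A.valuation_le_one_iff _).mpr h7))
      ((A.mem_nonunits_iff).mp hcn)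
  rcases A.mem_or_inv_mem (c₂ * c₁⁻¹) with h | h
  · refine key c₁ hc₁ hc₁n ?_ ?_
    · have : algebraMap Qb (FLb N) c₁⁻¹ * u = (u₁ : FLb N) := by
        have hc₁L : algebraMap Qb (FLb N) c₁ ≠ 0 := by
          rw [Ne, map_eq_zero_iff _ (algebraMap Qb (FLb N)).injective]; exact hc₁
        rw [hf₁, map_inv₀]; field_simp
      rw [this]; exact u₁.2
    · have : algebraMap Qb (FLb N) c₁⁻¹ * u
          = algebraMap Qb (FLb N) (c₂ * c₁⁻¹) * (u₂ : FLb N) := by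
        rw [hf₂, map_mul, map_inv₀]; ring
      rw [this]
      exact G.V0.mul_mem ((H.const_zero _).mpr h) u₂.2
  · rw [mul_inv, inv_inv] at h
    refine key c₂ hc₂ hc₂n ?_ ?_
    · have : algebraMap Qb (FLb N) c₂⁻¹ * u
          = algebraMap Qb (FLb N) (c₂⁻¹ * c₁) * (u₁ : FLb N) := by
        rw [hf₁, map_mul, map_inv₀]; ring
      rw [this]
      exact G.Voo.mul_mem ((H.const_oo _).mpr h) u₁.2
    · have : algebraMap Qb (FLb N) c₂⁻¹ * u = (u₂ : FLb N) := by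
        have hc₂L : algebraMap Qb (FLb N) c₂ ≠ 0 := by
          rw [Ne, map_eq_zero_iff _ (algebraMap Qb (FLb N)).injective]; exact hc₂
        rw [hf₂, map_inv₀]; field_simp
      rw [this]; exact u₂.2

end Fermat.Agent.H18.ORD
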