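import Fermat.Agent.H18.ORD.NodalSemiElim
import Fermat.Agent.H37.ORD.RRDescent

/-!
# P-ORD, block B1-LIFT (abstract side, helper18) : PAIR-SEMI, part 3 (the theorem)

* `ps_indep` : the reduction pairs of a triangular family are `k`-linearly independent;
* `pairSemiAt` : **(PAIR-SEMI)** `PairSemiAt G P∞ P0` for inertia-fixed base places, from the
  coefficient functionals `NodalCoeff` and the discreteness `UnrDisc` of the inertia field.
-/

set_option autoImplicit false
set_option linter.unusedSectionVars false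
set_option linter.style.haveILetI false
set_option maxHeartbeats 1600000
set_option synthInstance.maxHeartbeats 400000

noncomputable section

open AlgebraicCurve ModularCurve

namespace Fermat.Agent.H18.ORD

open Fermat.Agent.H72.FF Fermat.Agent.H85.ORD Fermat.Agent.H94.ORD Fermat.Agent.H27.ESD

variable {N : ℕ} {A : ValuationSubring Qb} {Foo F0 : Type} [Field Foo] [Field F0]
  [Algebra (kRes A) Foo] [Algebra (kRes A) F0] {ι : Type}
  {p : ℕ} {G : NodalData N A Foo F0 ι} {J : Type} {lam : J → FLb N →ₗ[Qb] Qb}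

/-- the reduction pairs of a triangular family are linearly independent -/
theorem ps_indep (H : NodalRvHyp p G) (hC : NodalCoeff G J lam) (l : List (J × FLb N))
    (hint : ∀ a ∈ l, ∀ j, lam j a.2 ∈ A) (hpiv : ∀ a ∈ l, lam a.1 a.2 = 1)
    (htri : l.Pairwise (fun a b => lam a.1 b.2 = 0))
    (woo : Fin l.length → G.Voo) (w0 : Fin l.length → G.V0)
    (hwoo : ∀ i, ((woo i : G.Voo) : FLb N) = (l.get i).2)
    (hw0 : ∀ i, ((w0 i : G.V0) : FLb N) = (l.get i).2) :
    LinearIndependent (kRes A) (fun i => (G.redOo (woo i), G.red0 (w0 i))) := by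
  classical
  rw [Fintype.linearIndependent_iff]
  intro cb hcb
  have hsurj : Function.Surjective (IsLocalRing.residue A) := Ideal.Quotient.mk_surjective
  choose c hc using fun i => hsurj (cb i)
  have hcoo : ∀ i, algebraMap Qb (FLb N) (c i : Qb) ∈ G.Voo :=
    fun i => (H.const_oo _).mpr (c i).2
  have hc0 : ∀ i, algebraMap Qb (FLb N) (c i : Qb) ∈ G.V0 :=
    fun i => (H.const_zero _).mpr (c i).2
  set Uoo : G.Voo := ∑ i, (⟨_, hcoo i⟩ : G.Voo) * woo i with hUoo
  set U0 : G.V0 := ∑ i, (⟨_, hc0 i⟩ : G.V0) * w0 i with hU0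
  set u : FLb N := ∑ i, algebraMap Qb (FLb N) (c i : Qb) * (l.get i).2 with hu
  have hUoo_coe : (Uoo : FLb N) = u := by
    rw [hUoo, hu, AddSubmonoidClass.coe_finsetSum]
    refine Finset.sum_congr rfl fun i _ => ?_
    rw [Subring.coe_mul, hwoo]
  have hU0_coe : (U0 : FLb N) = u := by
    rw [hU0, hu, AddSubmonoidClass.coe_finsetSum]
    refine Finset.sum_congr rfl fun i _ => ?_
    rw [Subring.coe_mul, hw0]
  have hredoo : G.redOo Uoo = 0 := by
    have h1 : (∑ i, cb i • (G.redOo (woo i), G.red0 (w0 i))).1 = 0 := by rw [hcb]; rfl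
    rw [Prod.fst_sum] at h1
    rw [hUoo, map_sum]
    refine Eq.trans ?_ h1
    refine Finset.sum_congr rfl fun i _ => ?_
    rw [map_mul, H.red_const_oo (c i) (hcoo i), hc i, Prod.smul_fst, Algebra.smul_def]
  have hred0 : G.red0 U0 = 0 := by
    have h1 : (∑ i, cb i • (G.redOo (woo i), G.red0 (w0 i))).2 = 0 := by rw [hcb]; rfl
    rw [Prod.snd_sum] at h1
    rw [hU0, map_sum]
    refine Eq.trans ?_ h1
    refine Finset.sum_congr rfl fun i _ => ?_
    rw [map_mul, H.red_const_zero (c i) (hc0 i), hc i, Prod.smul_snd, Algebra.smul_def]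
  have huoo : u ∈ G.Voo := hUoo_coe ▸ Uoo.2
  have hu0 : u ∈ G.V0 := hU0_coe ▸ U0.2
  have h1 : G.redOo ⟨u, huoo⟩ = 0 := by
    rw [← hredoo]
    exact congrArg G.redOo (Subtype.ext hUoo_coe.symm)
  have h2 : G.red0 ⟨u, hu0⟩ = 0 := by
    rw [← hred0]
    exact congrArg G.red0 (Subtype.ext hU0_coe.symm)
  have hker := ps_ker H hC huoo hu0 h1 h2
  have htr := ps_tri l hint hpiv htri (fun i => (c i : Qb)) hker
  intro i
  rw [← hc i, IsLocalRing.residue_eq_zero_iff, ← ValuationSubring.coe_mem_nonunits_iff]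
  exact htr i

/-- **(PAIR-SEMI).** -/
theorem pairSemiAt (H : NodalRvHyp p G) (hp : p.Prime) (hA : A.LiesOverPrime p)
    (hdisc : UnrDisc p A) (hC : NodalCoeff G J lam) {g : ℕ}
    (pkL : RiemannPackage Qb (FLb N) g) {Poo P0 : Place Qb (FLb N)}
    (hPoo : IsUnrPlace A N Poo) (hP0 : IsUnrPlace A N P0) :
    PairSemiAt G Poo P0 := by
  intro n
  unfold twoPt
  haveI hfin : FiniteDimensional Qb (riemannRochSpace
      (Finsupp.single Poo (n : ℤ) + Finsupp.single P0 (n : ℤ) : Divisor Qb (FLb N))) :=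
    pkL.finite _
  obtain ⟨f, hfV, hfI, -, hspan⟩ :=
    Fermat.Agent.H37.ORD.rr_descent_two_points A N Poo P0 hPoo hP0 (n : ℤ) (n : ℤ)
  have hrat : IsRatSpanned A N (riemannRochSpace
      (Finsupp.single Poo (n : ℤ) + Finsupp.single P0 (n : ℤ) : Divisor Qb (FLb N))) := by
    intro x hx
    have hx' : x ∈ Submodule.span Qb (Set.range f) := by rw [hspan]; exact hx
    refine Submodule.span_mono ?_ hx'
    rintro _ ⟨i, rfl⟩
    exact ⟨hfV i, hfI i⟩
  obtain ⟨l, hlen, hmem, hpair⟩ := ps_list H hp hA hdisc hC _ _ hfin rfl hrat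
  have hVV : ∀ a ∈ l, a.2 ∈ G.Voo ∧ a.2 ∈ G.V0 :=
    fun a ha => (hC.mem_iff _).mpr (hmem a ha).2.2.1
  let woo : Fin l.length → G.Voo := fun i => ⟨(l.get i).2, (hVV _ (List.get_mem l i)).1⟩
  let w0 : Fin l.length → G.V0 := fun i => ⟨(l.get i).2, (hVV _ (List.get_mem l i)).2⟩
  have hli := ps_indep H hC l (fun a ha => (hmem a ha).2.2.1) (fun a ha => (hmem a ha).2.2.2)
    hpair woo w0 (fun _ => rfl) (fun _ => rfl)
  refine ⟨woo ∘ Fin.cast hlen.symm, w0 ∘ Fin.cast hlen.symm, fun i => rfl, fun i => ?_,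
    fun i => ?_, ?_⟩
  · exact (hmem _ (List.get_mem l _)).2.1
  · exact (hmem _ (List.get_mem l _)).1
  · exact hli.comp (Fin.cast hlen.symm) (Fin.cast_injective _)

end Fermat.Agent.H18.ORD
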