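import Fermat.Agent.H18.ORD.NodalBal

/-!
# P-ORD : the value lemma at the smooth points of the two components (helper18)

`CompHyp` is the one-component view of a nodal reduction (a valuation ring `V` with reduction
`red`, and the conservation law at the smooth points of the component).  Under it:

* `CompHyp.ord_le_ord_red`, `CompHyp.ord_red_nonneg` : fibre inequalities;
* `CompHyp.value_lemma` : **value lemma** `y(P) ∈ A` and `(red y)(Q) = y(P) mod 𝔪` for `y ∈ V`
  without pole on the disc of the smooth point `Q` and `P` in this disc;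
* `CompHyp.ord_eq_of_coord` : a function with simple reduction at `Q`, vanishing at `P`, has no
  other zero in the disc;
* `CompHyp.exists_disc` : the disc of a smooth point is not empty.

`NodalRvHyp.compOo`, `NodalRvHyp.compZero` : the two components of a nodal reduction.
-/

set_option autoImplicit false
set_option linter.unusedSectionVars false

noncomputable section

open AlgebraicCurve ModularCurve

namespace Fermat.Agent.H18.ORD

section comp

variable {L F k Fk X : Type*} [Field L] [Field F] [Algebra L F] [Field k] [Field Fk]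
  [Algebra k Fk]

/-- One component of a nodal reduction. -/
structure CompHyp (A : ValuationSubring L) (π : A →+* k) (V : Subring F) (red : V →+* Fk)
    (r : Place L F → X) (pt : Place k Fk → X) (smooth : Place k Fk → Prop) : Prop where
  /-- constants of `A` lie in `V` -/
  const_mem : ∀ c : A, algebraMap L F (c : L) ∈ V
  /-- the reduction of a constant -/
  red_const : ∀ (c : A) (h : algebraMap L F (c : L) ∈ V),
    red ⟨_, h⟩ = algebraMap k Fk (π c)
  /-- `ker π = 𝔪_A` -/
  hker : ∀ a : A, π a = 0 ↔ ¬ IsUnit a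
  /-- divisors of functions exist -/
  hdiv : ∀ f : F, f ≠ 0 → ∃ D : Divisor L F, ∀ P, D P = P.ord f
  /-- the conservation law at the smooth points -/
  cons : ∀ u : V, red u ≠ 0 → ∀ D : Divisor L F, (∀ P, D P = P.ord (u : F)) →
    ∀ Q : Place k Fk, smooth Q → Finsupp.mapDomain r D (pt Q) = Q.ord (red u)

variable {A : ValuationSubring L} {π : A →+* k} {V : Subring F} {red : V →+* Fk}
  {r : Place L F → X} {pt : Place k Fk → X} {smooth : Place k Fk → Prop}

theorem nv_coe_ne_zero {u : V} (hu : red u ≠ 0) : (u : F) ≠ 0 := by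
  intro h
  apply hu
  have : u = 0 := Subtype.ext h
  rw [this, map_zero]

/-- **Fibre inequality.** -/
theorem CompHyp.ord_le_ord_red (H : CompHyp A π V red r pt smooth) (u : V) (hu : red u ≠ 0)
    (Q : Place k Fk) (hQ : smooth Q) (hnp : ∀ P1, r P1 = pt Q → 0 ≤ P1.ord (u : F))
    (P : Place L F) (hP : r P = pt Q) : P.ord (u : F) ≤ Q.ord (red u) := by
  obtain ⟨D, hD⟩ := H.hdiv _ (nv_coe_ne_zero hu)
  have h1 := H.cons u hu D hD Q hQ
  have h2 := Fermat.Agent.H18.rv_le_mapDomain r D (pt Q) P hP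
    (fun P1 h => by rw [hD]; exact hnp P1 h)
  rw [hD P, h1] at h2
  exact h2

/-- no pole in the disc implies no pole of the reduction -/
theorem CompHyp.ord_red_nonneg (H : CompHyp A π V red r pt smooth) (u : V) (hu : red u ≠ 0)
    (Q : Place k Fk) (hQ : smooth Q) (hnp : ∀ P1, r P1 = pt Q → 0 ≤ P1.ord (u : F)) :
    0 ≤ Q.ord (red u) := by
  obtain ⟨D, hD⟩ := H.hdiv _ (nv_coe_ne_zero hu)
  have h1 := H.cons u hu D hD Q hQ
  rw [← h1]
  refine Fermat.Agent.H18.rv_mapDomain_nonneg_fibre r D (pt Q) ?_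
  intro P1 h
  rw [hD]
  exact hnp P1 h

/-- **Value lemma.** -/
theorem CompHyp.value_lemma (H : CompHyp A π V red r pt smooth) (y : V) (Q : Place k Fk)
    (hQ : smooth Q) (hnp : ∀ P1, r P1 = pt Q → 0 ≤ P1.ord (y : F))
    (P : Place L F) (hP : r P = pt Q) (c : L)
    (hc : 1 ≤ P.ord ((y : F) - algebraMap L F c)) (hyc : (y : F) ≠ algebraMap L F c) :
    ∃ hcA : c ∈ A, red y = algebraMap k Fk (π ⟨c, hcA⟩) ∨
      1 ≤ Q.ord (red y - algebraMap k Fk (π ⟨c, hcA⟩)) := by
  have hord_c : ∀ (P1 : Place L F) (c' : L), 0 ≤ P1.ord (algebraMap L F c') := by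
    intro P1 c'
    rw [Fermat.Agent.H23.ord_algebraMap]
  have hsub_nonneg : ∀ (P1 : Place L F) (f g : F), 0 ≤ P1.ord f →
      0 ≤ P1.ord g → f - g ≠ 0 → 0 ≤ P1.ord (f - g) := by
    intro P1 f g hf hg hfg
    have h1 : f - g = f + -g := sub_eq_add_neg f g
    rw [h1]
    rw [h1] at hfg
    refine Fermat.Agent.H23.ord_add_ge P1 hfg 0 (Or.inr hf) (Or.inr ?_)
    rw [Fermat.Agent.H23.ord_neg]
    exact hg
  have hne : (y : F) - algebraMap L F c ≠ 0 := sub_ne_zero.mpr hyc
  have hnp' : ∀ P1, r P1 = pt Q → 0 ≤ P1.ord ((y : F) - algebraMap L F c) := fun P1 h1 =>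
    hsub_nonneg P1 _ _ (hnp P1 h1) (hord_c P1 c) hne
  have hcA : c ∈ A := by
    by_contra hcn
    have hci : c⁻¹ ∈ A := (A.mem_or_inv_mem c).resolve_left hcn
    have hc0 : c ≠ 0 := fun h0 => hcn (h0 ▸ A.zero_mem)
    have hnu : ¬ IsUnit (⟨c⁻¹, hci⟩ : A) := by
      intro hu
      obtain ⟨u, hu⟩ := hu
      apply hcn
      have : ((↑u⁻¹ : A) : L) = c := by
        have h1 : (u : A) * (↑u⁻¹ : A) = 1 := Units.mul_inv u
        have h2 := congrArg (Subtype.val) h1
        rw [hu] at h2
        have h3 : c⁻¹ * ((↑u⁻¹ : A) : L) = 1 := h2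
        field_simp at h3
        exact h3
      rw [← this]
      exact (↑u⁻¹ : A).2
    set ci : V := ⟨algebraMap L F (c⁻¹ : L), H.const_mem ⟨c⁻¹, hci⟩⟩ with hci'
    set u : V := 1 - ci * y with hu
    have hredci : red ci = 0 := by
      rw [hci', H.red_const ⟨c⁻¹, hci⟩, (H.hker _).mpr hnu, map_zero]
    have hredu : red u = 1 := by
      rw [hu, map_sub, map_one, map_mul, hredci, zero_mul, sub_zero]
    have hu0 : red u ≠ 0 := by rw [hredu]; exact one_ne_zero
    have huval : (u : F) = -(algebraMap L F (c⁻¹ : L)) * ((y : F) - algebraMap L F c) := by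
      show (1 : F) - algebraMap L F (c⁻¹ : L) * (y : F) = _
      rw [neg_mul, mul_sub, ← map_mul, inv_mul_cancel₀ hc0, map_one]
      ring
    have hordu : ∀ P1 : Place L F, P1.ord (u : F) = P1.ord ((y : F) - algebraMap L F c) := by
      intro P1
      rw [huval, ← map_neg, nb_ord_const_mul P1 (neg_ne_zero.mpr (inv_ne_zero hc0))]
    have h1 := H.ord_le_ord_red u hu0 Q hQ (fun P1 h1 => by rw [hordu]; exact hnp' P1 h1) P hP
    rw [hordu, hredu, Place.ord_one] at h1
    omega
  refine ⟨hcA, ?_⟩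
  by_cases h0 : red y = algebraMap k Fk (π ⟨c, hcA⟩)
  · exact Or.inl h0
  right
  set cc : V := ⟨algebraMap L F (c : L), H.const_mem ⟨c, hcA⟩⟩ with hcc
  have hred : red (y - cc) = red y - algebraMap k Fk (π ⟨c, hcA⟩) := by
    rw [map_sub, hcc, H.red_const ⟨c, hcA⟩]
  have hred0 : red (y - cc) ≠ 0 := by
    rw [hred]
    exact sub_ne_zero.mpr h0
  have h1 := H.ord_le_ord_red (y - cc) hred0 Q hQ hnp' P hP
  rw [hred] at h1
  exact le_trans hc h1

/-- a coordinate has a simple zero at `P` and no other zero in the disc -/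
theorem CompHyp.ord_eq_of_coord (H : CompHyp A π V red r pt smooth) (Q : Place k Fk)
    (hQ : smooth Q) (P : Place L F) (hP : r P = pt Q) (t : V)
    (h1 : 1 ≤ P.ord (t : F)) (h2 : Q.ord (red t) = 1)
    (h3 : ∀ P1, r P1 = pt Q → 0 ≤ P1.ord (t : F)) :
    P.ord (t : F) = 1 ∧ ∀ P1, r P1 = pt Q → P1 ≠ P → P1.ord (t : F) = 0 := by
  have ht0 : red t ≠ 0 := by
    intro h0
    rw [h0, Place.ord_zero] at h2
    exact zero_ne_one h2
  obtain ⟨D, hD⟩ := H.hdiv _ (nv_coe_ne_zero ht0)
  have h4 := H.cons t ht0 D hD Q hQ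
  rw [h2] at h4
  have h5 := H.ord_le_ord_red t ht0 Q hQ h3 P hP
  rw [h2] at h5
  have h6 : P.ord (t : F) = 1 := le_antisymm h5 h1
  refine ⟨h6, fun P1 hP1 hne => ?_⟩
  have h7 := Fermat.Agent.H18.rv_eq_zero_of_mapDomain r D (pt Q) P hP
    (fun a' ha' => by rw [hD]; exact h3 a' ha') (by rw [h4, hD, h6]) P1 hP1 hne
  rw [← hD]
  exact h7

/-- the disc of a smooth point is not empty -/
theorem CompHyp.exists_disc (H : CompHyp A π V red r pt smooth)
    (hsurj : Function.Surjective red) (Q : Place k Fk) (hQ : smooth Q) :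
    ∃ P : Place L F, r P = pt Q := by
  classical
  obtain ⟨x, hx⟩ := Fermat.Agent.H18.rv_exists_ord_eq_one Q
  obtain ⟨t, rfl⟩ := hsurj x
  have ht0 : red t ≠ 0 := by
    intro h0
    rw [h0, Place.ord_zero] at hx
    exact zero_ne_one hx
  obtain ⟨D, hD⟩ := H.hdiv _ (nv_coe_ne_zero ht0)
  have h4 := H.cons t ht0 D hD Q hQ
  rw [hx] at h4
  by_contra hcon
  push Not at hcon
  have h5 : Finsupp.mapDomain r D (pt Q) = 0 := by
    rw [Finsupp.mapDomain, Finsupp.sum_apply, Finsupp.sum]
    refine Finset.sum_eq_zero fun P _ => ?_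
    rw [Finsupp.single_apply, if_neg (hcon P)]
  omega

end comp

section inst

open Fermat.Agent.H72.FF

variable {N : ℕ} {A : ValuationSubring Qb} {Foo F0 : Type} [Field Foo] [Field F0]
  [Algebra (kRes A) Foo] [Algebra (kRes A) F0] {ι : Type} {p : ℕ}
  {G : NodalData N A Foo F0 ι}

theorem nv_residue_ker (a : A) : IsLocalRing.residue A a = 0 ↔ ¬ IsUnit a := by
  rw [IsLocalRing.residue_eq_zero_iff, IsLocalRing.mem_maximalIdeal, mem_nonunits_iff]

/-- the component `C_∞` -/
theorem NodalRvHyp.compOo (H : NodalRvHyp p G) (hdiv : HasPrincipalDivisors Qb (FLb N)) :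
    CompHyp A (IsLocalRing.residue A) G.Voo G.redOo G.r NPt.oo (fun Q => Q ∉ Set.range G.nOo) where
  const_mem c := (H.const_oo _).mpr c.2
  red_const c h := H.red_const_oo c h
  hker := nv_residue_ker
  hdiv f hf := by
    obtain ⟨D, hD, -⟩ := hdiv.exists_divisor f hf
    exact ⟨D, hD⟩
  cons := H.smooth_oo

/-- the component `C_0` -/
theorem NodalRvHyp.compZero (H : NodalRvHyp p G) (hdiv : HasPrincipalDivisors Qb (FLb N)) :
    CompHyp A (IsLocalRing.residue A) G.V0 G.red0 G.r NPt.zero (fun Q => Q ∉ Set.range G.n0) where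
  const_mem c := (H.const_zero _).mpr c.2
  red_const c h := H.red_const_zero c h
  hker := nv_residue_ker
  hdiv f hf := by
    obtain ⟨D, hD, -⟩ := hdiv.exists_divisor f hf
    exact ⟨D, hD⟩
  cons := H.smooth_zero

end inst

end Fermat.Agent.H18.ORD
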